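import Mathlib
import Fermat.Agent.MUL.Orig.F4.Ray.Defs
import Fermat.Agent.MUL.S14.Analytic.SecondIneqFinal

section MergeWrap_F4_Ray_RayPrimes -- from F4/Ray/RayPrimes.lean

set_option autoImplicit false

open NumberField IsDedekindDomain Filter Topology
open scoped nonZeroDivisors

namespace Fermat.Agent.F4Ray

open Fermat.Agent.FrobDensity Fermat.Agent.S14An

section P7

variable (E M : Type) [Field E] [NumberField E] [Field M] [NumberField M] [Algebra E M]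

/-- The term of a prime of `M` is bounded by the weight of the prime below plus `N𝔮^(-2)`. -/
lemma rp_term_le (w : HeightOneSpectrum (𝓞 E) → ℝ) {s : ℝ} (hs : 1 ≤ s)
    (hw0 : ∀ 𝔮, 0 ≤ w 𝔮)
    (hwS' : ∀ 𝔔 : HeightOneSpectrum (𝓞 M), 𝔔.asIdeal.inertiaDeg (𝓞 E) = 1 →
      w (𝔔.under (𝓞 E)) = normWeight E s (𝔔.under (𝓞 E)).asIdeal)
    (𝔔 : HeightOneSpectrum (𝓞 M)) :
    normWeight M s 𝔔.asIdeal ≤
      w (𝔔.under (𝓞 E)) + normWeight E 2 (𝔔.under (𝓞 E)).asIdeal := by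
  have hN := p7_absNorm_prime E M 𝔔
  have hfpos := p7_inertiaDeg_pos E M 𝔔
  have hw1 := hwS' 𝔔
  set f := 𝔔.asIdeal.inertiaDeg (𝓞 E) with hfdef
  set 𝔮 := 𝔔.under (𝓞 E) with h𝔮
  have hq2 : 2 ≤ Ideal.absNorm 𝔮.asIdeal := two_le_absNorm 𝔮
  have hq1 : (1 : ℝ) ≤ (Ideal.absNorm 𝔮.asIdeal : ℝ) := by exact_mod_cast (by omega : 1 ≤ _)
  rcases Nat.lt_or_ge f 2 with h1 | h2
  · have hf1 : f = 1 := by omega
    have : normWeight M s 𝔔.asIdeal = w 𝔮 := by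
      rw [hw1 hf1]
      unfold normWeight
      rw [hN, hf1, pow_one]
    rw [this]
    have := normWeight_nonneg (K := E) 2 𝔮.asIdeal
    linarith
  · have hle : normWeight M s 𝔔.asIdeal ≤ normWeight E 2 𝔮.asIdeal := by
      unfold normWeight
      rw [hN]
      push_cast
      have hpow : (Ideal.absNorm 𝔮.asIdeal : ℝ) ^ 2 ≤ (Ideal.absNorm 𝔮.asIdeal : ℝ) ^ f :=
        pow_le_pow_right₀ hq1 h2
      have hpos2 : (0 : ℝ) < (Ideal.absNorm 𝔮.asIdeal : ℝ) ^ 2 := by positivity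
      have hNf1 : (1 : ℝ) ≤ (Ideal.absNorm 𝔮.asIdeal : ℝ) ^ f := one_le_pow₀ hq1
      calc ((Ideal.absNorm 𝔮.asIdeal : ℝ) ^ f) ^ (-s)
          ≤ ((Ideal.absNorm 𝔮.asIdeal : ℝ) ^ f) ^ (-1 : ℝ) :=
            Real.rpow_le_rpow_of_exponent_le hNf1 (by linarith)
        _ = ((Ideal.absNorm 𝔮.asIdeal : ℝ) ^ f)⁻¹ := Real.rpow_neg_one _
        _ ≤ ((Ideal.absNorm 𝔮.asIdeal : ℝ) ^ 2)⁻¹ := inv_anti₀ hpos2 hpow
        _ = (Ideal.absNorm 𝔮.asIdeal : ℝ) ^ (-2 : ℝ) := by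
            rw [Real.rpow_neg (by linarith), ← Real.rpow_natCast]
            norm_num
    have := hw0 𝔮
    linarith

/-- Finite partial sums of the prime sum of `M` are bounded by `n (∑ w + primeSum E 2)`. -/
lemma rp_finset_sum_le (w : HeightOneSpectrum (𝓞 E) → ℝ) {s : ℝ} (hs : 1 < s)
    (hw0 : ∀ 𝔮, 0 ≤ w 𝔮)
    (hwS' : ∀ 𝔔 : HeightOneSpectrum (𝓞 M), 𝔔.asIdeal.inertiaDeg (𝓞 E) = 1 →
      w (𝔔.under (𝓞 E)) = normWeight E s (𝔔.under (𝓞 E)).asIdeal)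
    (hsumw : Summable w) (F : Finset (HeightOneSpectrum (𝓞 M))) :
    ∑ 𝔔 ∈ F, normWeight M s 𝔔.asIdeal ≤
      (Module.finrank E M : ℝ) * (∑' 𝔮, w 𝔮 + primeSum E 2) := by
  classical
  set g : HeightOneSpectrum (𝓞 E) → ℝ :=
    fun 𝔮 ↦ w 𝔮 + normWeight E 2 𝔮.asIdeal with hg
  have hg0 : ∀ 𝔮, 0 ≤ g 𝔮 := fun 𝔮 ↦
    add_nonneg (hw0 𝔮) (normWeight_nonneg 2 𝔮.asIdeal)
  have hs2 : Summable (fun 𝔮 : HeightOneSpectrum (𝓞 E) ↦ normWeight E 2 𝔮.asIdeal) :=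
    summable_normWeight_prime E (by norm_num)
  have hgsum : Summable g := hsumw.add hs2
  calc ∑ 𝔔 ∈ F, normWeight M s 𝔔.asIdeal
      ≤ ∑ 𝔔 ∈ F, g (𝔔.under (𝓞 E)) :=
        Finset.sum_le_sum fun 𝔔 _ ↦ rp_term_le E M w hs.le hw0 hwS' 𝔔
    _ = ∑ 𝔮 ∈ F.image (fun 𝔔 ↦ 𝔔.under (𝓞 E)),
          (F.filter (fun 𝔔 ↦ 𝔔.under (𝓞 E) = 𝔮)).card • g 𝔮 :=
        Finset.sum_comp g (fun 𝔔 : HeightOneSpectrum (𝓞 M) ↦ 𝔔.under (𝓞 E))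
    _ ≤ ∑ 𝔮 ∈ F.image (fun 𝔔 ↦ 𝔔.under (𝓞 E)), (Module.finrank E M : ℝ) * g 𝔮 := by
        refine Finset.sum_le_sum fun 𝔮 _ ↦ ?_
        rw [nsmul_eq_mul]
        refine mul_le_mul_of_nonneg_right ?_ (hg0 𝔮)
        have := p7_card_fiber_le E M 𝔮 (F.filter (fun 𝔔 ↦ 𝔔.under (𝓞 E) = 𝔮))
          (fun 𝔔 h𝔔 ↦ (Finset.mem_filter.mp h𝔔).2)
        exact_mod_cast this
    _ = (Module.finrank E M : ℝ) * ∑ 𝔮 ∈ F.image (fun 𝔔 ↦ 𝔔.under (𝓞 E)), g 𝔮 := by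
        rw [Finset.mul_sum]
    _ ≤ (Module.finrank E M : ℝ) * ∑' 𝔮, g 𝔮 :=
        mul_le_mul_of_nonneg_left (hgsum.sum_le_tsum _ (fun 𝔮 _ ↦ hg0 𝔮)) (Nat.cast_nonneg _)
    _ = (Module.finrank E M : ℝ) * (∑' 𝔮, w 𝔮 + primeSum E 2) := by
        rw [hg, hsumw.tsum_add hs2]
        rfl

/-- `primeSum M s ≤ n (∑ w + primeSum E 2)`. -/
lemma rp_primeSum_le (w : HeightOneSpectrum (𝓞 E) → ℝ) {s : ℝ} (hs : 1 < s)
    (hw0 : ∀ 𝔮, 0 ≤ w 𝔮)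
    (hwS' : ∀ 𝔔 : HeightOneSpectrum (𝓞 M), 𝔔.asIdeal.inertiaDeg (𝓞 E) = 1 →
      w (𝔔.under (𝓞 E)) = normWeight E s (𝔔.under (𝓞 E)).asIdeal)
    (hsumw : Summable w) :
    primeSum M s ≤ (Module.finrank E M : ℝ) * (∑' 𝔮, w 𝔮 + primeSum E 2) := by
  unfold primeSum
  exact (summable_normWeight_prime M hs).tsum_le_of_sum_le
    fun F ↦ rp_finset_sum_le E M w hs hw0 hwS' hsumw F

end P7

/-- **(P7, ray form)** the primes `𝔮` of `E`, prime to `m`, with `cls 𝔮 = 1` satisfy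
`∑ N𝔮^(-s) ≥ (1/n) log (1/(s-1)) - B` for `s` close to `1`, if `cls` kills the norms from `M`. -/
theorem rayPrimeSum (E M : Type) [Field E] [NumberField E] [Field M] [NumberField M]
    [Algebra E M] (m : Ideal (𝓞 E)) (hm : m ≠ ⊥) {G : Type} [CommGroup G]
    (cls : Ideal (𝓞 E) → G)
    (hnorm : ∀ A : Ideal (𝓞 M), A ≠ ⊥ → Ideal.relNorm (𝓞 E) A ⊔ m = ⊤ →
      cls (Ideal.relNorm (𝓞 E) A) = 1) :
    ∃ B δ : ℝ, 0 < δ ∧ ∀ s : ℝ, 1 < s → s < 1 + δ →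
      (1 / (Module.finrank E M : ℝ)) * Real.log (1 / (s - 1)) - B ≤
        ∑' 𝔮 : HeightOneSpectrum (𝓞 E),
          open scoped Classical in
          if 𝔮.asIdeal ⊔ m = ⊤ ∧ cls 𝔮.asIdeal = 1 then normWeight E s 𝔮.asIdeal else 0 := by
  classical
  obtain ⟨C, δ, hδ, hC⟩ := exists_bound_primeSum_sub_log M
  have hn : (0 : ℝ) < (Module.finrank E M : ℝ) := by
    exact_mod_cast (Module.finrank_pos : 0 < Module.finrank E M)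
  -- the primes dividing the modulus
  have hfin : {𝔮 : HeightOneSpectrum (𝓞 E) | 𝔮.asIdeal ∣ m}.Finite := Ideal.finite_factors hm
  set Fm : Finset (HeightOneSpectrum (𝓞 E)) := hfin.toFinset with hFm
  have hFm_mem : ∀ 𝔮 : HeightOneSpectrum (𝓞 E), ¬ 𝔮.asIdeal ⊔ m = ⊤ → 𝔮 ∈ Fm := by
    intro 𝔮 h𝔮
    rw [hFm, Set.Finite.mem_toFinset, Set.mem_ofPred_eq, Ideal.dvd_iff_le]
    have hmax := 𝔮.isMaximal
    have heq := hmax.eq_of_le h𝔮 le_sup_left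
    rw [heq]
    exact le_sup_right
  refine ⟨C / (Module.finrank E M : ℝ) + primeSum E 2 + (Fm.card : ℝ), δ, hδ,
    fun s hs hsδ ↦ ?_⟩
  set x : HeightOneSpectrum (𝓞 E) → ℝ := fun 𝔮 ↦ normWeight E s 𝔮.asIdeal with hx
  have hx0 : ∀ 𝔮, 0 ≤ x 𝔮 := fun 𝔮 ↦ normWeight_nonneg s 𝔮.asIdeal
  have hx1 : ∀ 𝔮, x 𝔮 ≤ 1 := fun 𝔮 ↦ (normWeight_prime_lt_one hs.le 𝔮).le
  have hsx : Summable x := summable_normWeight_prime E hs
  set good : HeightOneSpectrum (𝓞 E) → ℝ := fun 𝔮 ↦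
    if 𝔮.asIdeal ⊔ m = ⊤ ∧ cls 𝔮.asIdeal = 1 then x 𝔮 else 0 with hgood
  set bad : HeightOneSpectrum (𝓞 E) → ℝ := fun 𝔮 ↦
    if ¬ 𝔮.asIdeal ⊔ m = ⊤ then x 𝔮 else 0 with hbad
  have hgood0 : ∀ 𝔮, 0 ≤ good 𝔮 := by
    intro 𝔮
    simp only [hgood]
    split_ifs <;> first | exact hx0 𝔮 | exact le_rfl
  have hbad0 : ∀ 𝔮, 0 ≤ bad 𝔮 := by
    intro 𝔮
    simp only [hbad]
    split_ifs <;> first | exact hx0 𝔮 | exact le_rfl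
  have hgoodle : ∀ 𝔮, good 𝔮 ≤ x 𝔮 := by
    intro 𝔮
    simp only [hgood]
    split_ifs <;> first | exact hx0 𝔮 | exact le_rfl
  have hbadle : ∀ 𝔮, bad 𝔮 ≤ x 𝔮 := by
    intro 𝔮
    simp only [hbad]
    split_ifs <;> first | exact hx0 𝔮 | exact le_rfl
  have hsgood : Summable good := Summable.of_nonneg_of_le hgood0 hgoodle hsx
  have hsbad : Summable bad := Summable.of_nonneg_of_le hbad0 hbadle hsx
  have hbadsum : ∑' 𝔮, bad 𝔮 ≤ (Fm.card : ℝ) := by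
    have h1 : ∑' 𝔮, bad 𝔮 = ∑ 𝔮 ∈ Fm, bad 𝔮 := by
      refine tsum_eq_sum (fun 𝔮 h𝔮 ↦ ?_)
      simp only [hbad]
      rw [if_neg]
      intro h
      exact h𝔮 (hFm_mem 𝔮 h)
    rw [h1]
    calc ∑ 𝔮 ∈ Fm, bad 𝔮 ≤ ∑ _𝔮 ∈ Fm, (1 : ℝ) :=
          Finset.sum_le_sum (fun 𝔮 _ ↦ (hbadle 𝔮).trans (hx1 𝔮))
      _ = (Fm.card : ℝ) := by simp
  set w : HeightOneSpectrum (𝓞 E) → ℝ := fun 𝔮 ↦ good 𝔮 + bad 𝔮 with hw
  have hw0 : ∀ 𝔮, 0 ≤ w 𝔮 := fun 𝔮 ↦ add_nonneg (hgood0 𝔮) (hbad0 𝔮)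
  have hsumw : Summable w := hsgood.add hsbad
  have hwS' : ∀ 𝔔 : HeightOneSpectrum (𝓞 M), 𝔔.asIdeal.inertiaDeg (𝓞 E) = 1 →
      w (𝔔.under (𝓞 E)) = normWeight E s (𝔔.under (𝓞 E)).asIdeal := by
    intro 𝔔 hf
    have hrel : Ideal.relNorm (𝓞 E) 𝔔.asIdeal = (𝔔.under (𝓞 E)).asIdeal := by
      rw [p7_relNorm_prime, hf, pow_one]
    simp only [hw, hgood, hbad, hx]
    by_cases hcop : (𝔔.under (𝓞 E)).asIdeal ⊔ m = ⊤
    · have hcls : cls (𝔔.under (𝓞 E)).asIdeal = 1 := by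
        have := hnorm 𝔔.asIdeal 𝔔.ne_bot (by rw [hrel]; exact hcop)
        rwa [hrel] at this
      rw [if_pos ⟨hcop, hcls⟩, if_neg (not_not.mpr hcop), add_zero]
    · rw [if_neg (fun h => hcop h.1), if_pos hcop, zero_add]
  have hmain := rp_primeSum_le E M w hs hw0 hwS' hsumw
  have hlog := hC s hs hsδ
  rw [abs_le] at hlog
  have hwsum : ∑' 𝔮, w 𝔮 = ∑' 𝔮, good 𝔮 + ∑' 𝔮, bad 𝔮 := hsgood.tsum_add hsbad
  have h1 : Real.log (1 / (s - 1)) - C ≤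
      (Module.finrank E M : ℝ) * (∑' 𝔮, w 𝔮 + primeSum E 2) := by linarith
  have h2 : (1 / (Module.finrank E M : ℝ)) * (Real.log (1 / (s - 1)) - C) ≤
      ∑' 𝔮, w 𝔮 + primeSum E 2 := by
    rw [one_div, inv_mul_le_iff₀ hn]
    exact h1
  have h3 : (1 / (Module.finrank E M : ℝ)) * (Real.log (1 / (s - 1)) - C) =
      (1 / (Module.finrank E M : ℝ)) * Real.log (1 / (s - 1)) -
        C / (Module.finrank E M : ℝ) := by ring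
  have h4 : (1 / (Module.finrank E M : ℝ)) * Real.log (1 / (s - 1)) -
      (C / (Module.finrank E M : ℝ) + primeSum E 2 + (Fm.card : ℝ)) ≤ ∑' 𝔮, good 𝔮 := by
    linarith
  refine h4.trans (le_of_eq ?_)
  refine tsum_congr fun 𝔮 ↦ ?_
  simp only [hgood, hx]

end Fermat.Agent.F4Ray
end MergeWrap_F4_Ray_RayPrimes
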