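import Mathlib
import Fermat.Agent.MUL.Orig.F4.Ray.Defs
import Fermat.Agent.MUL.Orig.S14.ClassZeta.Defs
import Fermat.Agent.MUL.Lib.FrobDensity.EulerZeta
import Fermat.Agent.MUL.S14.Analytic.SecondIneqFinal
import Fermat.Agent.MUL.F4.Ray.RayPrimes

section MergeWrap_F4_Ray_LBoundDefs -- from F4/Ray/LBoundDefs.lean

/-!
# F4 / GLOB: analytic second inequality with modulus — partial zeta functions

Definitions for the proof of `RayLBound` (owner helper56).
-/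

set_option autoImplicit false

open NumberField
open scoped nonZeroDivisors Classical

namespace Fermat.Agent.F4Ray

/-- The partial zeta function of the value `g`:
`∑ N(I)^(-s)` over the nonzero ideals `I` prime to `m` with `cls I = g`. -/
noncomputable def rayZ (E : Type) [Field E] [NumberField E] (m : Ideal (𝓞 E)) {G : Type}
    (cls : Ideal (𝓞 E) → G) (g : G) (s : ℝ) : ℝ :=
  ∑' I : Ideal (𝓞 E),
    if I ≠ ⊥ ∧ I ⊔ m = ⊤ ∧ cls I = g then ((Ideal.absNorm I : ℕ) : ℝ) ^ (-s) else 0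

/-- The partial zeta function of the ideal class `C` and the value `g`:
`∑ N(I)^(-s)` over the nonzero ideals `I` of the class `C`, prime to `m`, with `cls I = g`. -/
noncomputable def rayZC (E : Type) [Field E] [NumberField E] (m : Ideal (𝓞 E)) {G : Type}
    (cls : Ideal (𝓞 E) → G) (C : ClassGroup (𝓞 E)) (g : G) (s : ℝ) : ℝ :=
  ∑' I : {I : (Ideal (𝓞 E))⁰ // ClassGroup.mk0 I = C ∧ (I : Ideal (𝓞 E)) ⊔ m = ⊤ ∧
      cls (I : Ideal (𝓞 E)) = g},
    ((Ideal.absNorm ((I : (Ideal (𝓞 E))⁰) : Ideal (𝓞 E)) : ℕ) : ℝ) ^ (-s)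

/-- **(RB1)** `L(s, f ∘ cls) = ∑_g f g * Z_g(s)`. -/
def RayLValEqSum : Prop :=
  ∀ (E : Type) [Field E] [NumberField E] (m : Ideal (𝓞 E)) (G : Type) [CommGroup G] [Fintype G]
    (cls : Ideal (𝓞 E) → G) (f : G → ℂ) (s : ℝ), 1 < s →
    rayLVal E m cls f s = ∑ g, f g * ((rayZ E m cls g s : ℝ) : ℂ)

/-- **(RB2)** `Z_g(s) = ∑_C Z_{C, g}(s)`. -/
def RayZEqSum : Prop :=
  ∀ (E : Type) [Field E] [NumberField E] (m : Ideal (𝓞 E)) (G : Type)
    (cls : Ideal (𝓞 E) → G) (g : G) (s : ℝ), 1 < s →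
    rayZ E m cls g s = ∑ C : ClassGroup (𝓞 E), rayZC E m cls C g s

/-- **(RB3)** the partial zeta functions of two values differ by a bounded function on `(1, 2]`. -/
def RayZDiffBounded : Prop :=
  ∀ (E : Type) [Field E] [NumberField E] (m : Ideal (𝓞 E)) (G : Type) [CommGroup G] [Fintype G]
    (cls : Ideal (𝓞 E) → G), RayClassMap E m G cls → ∀ g g' : G,
    ∃ B : ℝ, ∀ s : ℝ, 1 < s → s ≤ 2 → |rayZ E m cls g s - rayZ E m cls g' s| ≤ B

/-- **(RB4)** the partial zeta functions of the classes: for `𝔠` prime to `m`,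
`Z_{C, g * cls 𝔠} - Z_{C * [𝔠]⁻¹, g}` is bounded on `(1, 2]`. -/
def RayZCShiftBounded : Prop :=
  ∀ (E : Type) [Field E] [NumberField E] (m : Ideal (𝓞 E)) (G : Type) [CommGroup G] [Fintype G]
    (cls : Ideal (𝓞 E) → G), RayClassMap E m G cls →
    ∀ (𝔠 : (Ideal (𝓞 E))⁰), (𝔠 : Ideal (𝓞 E)) ⊔ m = ⊤ → ∀ (C : ClassGroup (𝓞 E)) (g : G),
    ∃ B : ℝ, ∀ s : ℝ, 1 < s → s ≤ 2 →
      |rayZC E m cls C (g * cls (𝔠 : Ideal (𝓞 E))) s -
        rayZC E m cls (C * (ClassGroup.mk0 𝔠)⁻¹) g s| ≤ B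

end Fermat.Agent.F4Ray
end MergeWrap_F4_Ray_LBoundDefs

section MergeWrap_F4_Ray_ClsBasic -- from F4/Ray/ClsBasic.lean

/-!
# F4 / GLOB: basic properties of a generalised ideal class map

* `cls` of principal ideals prime to `m` only depends on the generator modulo `m`;
* the predicate `rayPred cls m h` on the generators;
* representatives of the ideal classes prime to `m`.
-/

set_option autoImplicit false
set_option linter.unusedSectionVars false

open NumberField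
open scoped nonZeroDivisors Classical

namespace Fermat.Agent.F4Ray

variable {E : Type} [Field E] [NumberField E] {m : Ideal (𝓞 E)} {G : Type} [CommGroup G]
  {cls : Ideal (𝓞 E) → G}

lemma span_sup_eq_top_of_sub_mem {γ γ' : 𝓞 E} (hγ : Ideal.span {γ} ⊔ m = ⊤)
    (hsub : γ' - γ ∈ m) : Ideal.span {γ'} ⊔ m = ⊤ := by
  rw [eq_top_iff, ← hγ]
  refine sup_le ?_ le_sup_right
  rw [Ideal.span_singleton_le_iff_mem]
  have h1 : γ = γ' - (γ' - γ) := by ring
  rw [h1]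
  exact Ideal.sub_mem _ (Ideal.mem_sup_left (Ideal.mem_span_singleton_self _))
    (Ideal.mem_sup_right hsub)

/-- For `γ` prime to `m` there is `t` with `t γ ≡ 1 mod m`. -/
lemma exists_mul_sub_one_mem {γ : 𝓞 E} (hγ : Ideal.span {γ} ⊔ m = ⊤) :
    ∃ t : 𝓞 E, t * γ - 1 ∈ m := by
  have h1 : (1 : 𝓞 E) ∈ Ideal.span {γ} ⊔ m := by rw [hγ]; trivial
  obtain ⟨x, hx, y, hy, hxy⟩ := Submodule.mem_sup.mp h1
  obtain ⟨t, rfl⟩ := Ideal.mem_span_singleton'.mp hx
  refine ⟨t, ?_⟩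
  have : t * γ - 1 = -y := by rw [← hxy]; ring
  rw [this]
  exact neg_mem hy

/-- `cls` of a principal ideal prime to `m` only depends on the generator modulo `m`. -/
lemma cls_span_eq_of_sub_mem (h : RayClassMap E m G cls) {γ γ' : 𝓞 E} (hγ0 : γ ≠ 0)
    (hγ'0 : γ' ≠ 0) (hγ : Ideal.span {γ} ⊔ m = ⊤) (hsub : γ' - γ ∈ m) :
    cls (Ideal.span {γ'}) = cls (Ideal.span {γ}) := by
  have hγ' : Ideal.span {γ'} ⊔ m = ⊤ := span_sup_eq_top_of_sub_mem hγ hsub
  obtain ⟨t, ht⟩ := exists_mul_sub_one_mem hγ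
  have ht' : t * γ' - 1 ∈ m := by
    have : t * γ' - 1 = (t * γ - 1) + t * (γ' - γ) := by ring
    rw [this]
    exact add_mem ht (Ideal.mul_mem_left _ _ hsub)
  by_cases ht0 : t = 0
  · -- then `m = ⊤`
    have h1 : (1 : 𝓞 E) ∈ m := by
      rw [ht0, zero_mul, zero_sub] at ht
      simpa using neg_mem ht
    have hm : m = ⊤ := (Ideal.eq_top_iff_one _).mpr h1
    rw [h.ray γ' hγ'0 (by rw [hm]; trivial), h.ray γ hγ0 (by rw [hm]; trivial)]
  · have htm : Ideal.span {t} ⊔ m = ⊤ := by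
      rw [Ideal.eq_top_iff_one]
      have : (1 : 𝓞 E) = γ * t - (t * γ - 1) := by ring
      rw [this]
      exact Ideal.sub_mem _
        (Ideal.mem_sup_left (Ideal.mul_mem_left _ _ (Ideal.mem_span_singleton_self _)))
        (Ideal.mem_sup_right ht)
    have e1 : cls (Ideal.span {t}) * cls (Ideal.span {γ}) = 1 := by
      rw [← h.mul _ _ htm hγ, Ideal.span_singleton_mul_span_singleton]
      exact h.ray _ (mul_ne_zero ht0 hγ0) ht
    have e2 : cls (Ideal.span {t}) * cls (Ideal.span {γ'}) = 1 := by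
      rw [← h.mul _ _ htm hγ', Ideal.span_singleton_mul_span_singleton]
      exact h.ray _ (mul_ne_zero ht0 hγ'0) ht'
    exact mul_left_cancel (e2.trans e1.symm)

/-- The condition "`(γ)` is prime to `m` and of value `h`", made invariant under the translations
by `m` (also when `m = ⊤`, `γ = 0`). -/
def rayPred (m : Ideal (𝓞 E)) (cls : Ideal (𝓞 E) → G) (h : G) (γ : 𝓞 E) : Prop :=
  Ideal.span {γ} ⊔ m = ⊤ ∧ ∀ γ' : 𝓞 E, γ' ≠ 0 → γ' - γ ∈ m → cls (Ideal.span {γ'}) = h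

lemma rayPred_iff (h : RayClassMap E m G cls) (g : G) {γ : 𝓞 E} (hγ0 : γ ≠ 0)
    (hγ : Ideal.span {γ} ⊔ m = ⊤) : rayPred m cls g γ ↔ cls (Ideal.span {γ}) = g := by
  constructor
  · intro hP
    exact hP.2 γ hγ0 (by simp)
  · intro hg
    refine ⟨hγ, fun γ' hγ'0 hsub ↦ ?_⟩
    rw [cls_span_eq_of_sub_mem h hγ0 hγ'0 hγ hsub, hg]

lemma rayPred_add_mem (g : G) {γ μ : 𝓞 E} (hμ : μ ∈ m) :
    rayPred m cls g (γ + μ) ↔ rayPred m cls g γ := by
  constructor
  · rintro ⟨h1, h2⟩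
    refine ⟨span_sup_eq_top_of_sub_mem h1 (by simpa using neg_mem hμ), fun γ' hγ'0 hsub ↦ ?_⟩
    refine h2 γ' hγ'0 ?_
    have : γ' - (γ + μ) = (γ' - γ) - μ := by ring
    rw [this]
    exact sub_mem hsub hμ
  · rintro ⟨h1, h2⟩
    refine ⟨span_sup_eq_top_of_sub_mem h1 (by simpa using hμ), fun γ' hγ'0 hsub ↦ ?_⟩
    refine h2 γ' hγ'0 ?_
    have : γ' - γ = (γ' - (γ + μ)) + μ := by ring
    rw [this]
    exact add_mem hsub hμ

lemma rayPred_of_sub_mem (g : G) {γ γ' : 𝓞 E} (hsub : γ' - γ ∈ m) :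
    rayPred m cls g γ' ↔ rayPred m cls g γ := by
  have : γ' = γ + (γ' - γ) := by ring
  rw [this]
  exact rayPred_add_mem g hsub

lemma rayPred_unit_mul (g : G) (u : (𝓞 E)ˣ) (γ : 𝓞 E) :
    rayPred m cls g ((u : 𝓞 E) * γ) ↔ rayPred m cls g γ := by
  have hspan : ∀ (v : (𝓞 E)ˣ) (x : 𝓞 E), Ideal.span {(v : 𝓞 E) * x} = Ideal.span {x} :=
    fun v x ↦ Ideal.span_singleton_eq_span_singleton.mpr
      ⟨v⁻¹, by rw [mul_comm, ← mul_assoc]; simp⟩
  have key : ∀ (v : (𝓞 E)ˣ) (x : 𝓞 E), rayPred m cls g x → rayPred m cls g ((v : 𝓞 E) * x) := by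
    rintro v x ⟨h1, h2⟩
    refine ⟨by rw [hspan]; exact h1, fun γ' hγ'0 hsub ↦ ?_⟩
    have h3 := h2 (((v⁻¹ : (𝓞 E)ˣ) : 𝓞 E) * γ') (mul_ne_zero (Units.ne_zero _) hγ'0) (by
      have : ((v⁻¹ : (𝓞 E)ˣ) : 𝓞 E) * γ' - x = ((v⁻¹ : (𝓞 E)ˣ) : 𝓞 E) * (γ' - (v : 𝓞 E) * x) := by
        rw [mul_sub, ← mul_assoc]; simp
      rw [this]
      exact Ideal.mul_mem_left _ _ hsub)
    rwa [hspan] at h3
  constructor
  · intro hP
    have := key u⁻¹ _ hP
    rwa [← mul_assoc, Units.inv_mul, one_mul] at this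
  · exact key u γ

/-- Every ideal class contains an integral ideal prime to `m`. -/
lemma exists_rep_coprime (hm : m ≠ ⊥) (c : ClassGroup (𝓞 E)) :
    ∃ I : (Ideal (𝓞 E))⁰, ClassGroup.mk0 I = c ∧ (I : Ideal (𝓞 E)) ⊔ m = ⊤ := by
  obtain ⟨J, hJ⟩ := ClassGroup.mk0_surjective c⁻¹
  have hJ0 : (J : Ideal (𝓞 E)) ≠ ⊥ := nonZeroDivisors.coe_ne_zero J
  obtain ⟨a, ha⟩ := IsDedekindDomain.exists_sup_span_eq
    (I := (J : Ideal (𝓞 E)) * m) (J := (J : Ideal (𝓞 E))) Ideal.mul_le_left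
    (mul_ne_zero hJ0 hm)
  have haJ : a ∈ (J : Ideal (𝓞 E)) := by
    rw [← ha]; exact Ideal.mem_sup_right (Ideal.mem_span_singleton_self a)
  obtain ⟨K, hK⟩ : (J : Ideal (𝓞 E)) ∣ Ideal.span {a} :=
    Ideal.dvd_iff_le.mpr ((Ideal.span_singleton_le_iff_mem _).mpr haJ)
  have hcop : m ⊔ K = ⊤ := by
    have h1 : (J : Ideal (𝓞 E)) * (m ⊔ K) = (J : Ideal (𝓞 E)) * ⊤ := by
      rw [Ideal.mul_sup, ← hK, ha, Ideal.mul_top]
    exact mul_left_cancel₀ hJ0 h1
  by_cases hK0 : K = ⊥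
  · -- then `m = ⊤` and any representative works
    have hmtop : m = ⊤ := by rw [hK0, sup_bot_eq] at hcop; exact hcop
    obtain ⟨I, hI⟩ := ClassGroup.mk0_surjective c
    exact ⟨I, hI, by rw [hmtop]; simp⟩
  · have hKmem : K ∈ (Ideal (𝓞 E))⁰ := mem_nonZeroDivisors_of_ne_zero hK0
    refine ⟨⟨K, hKmem⟩, ?_, by rw [sup_comm]; exact hcop⟩
    have hprod : ClassGroup.mk0 J * ClassGroup.mk0 ⟨K, hKmem⟩ = 1 := by
      rw [← map_mul, ClassGroup.mk0_eq_one_iff]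
      have : ((J * ⟨K, hKmem⟩ : (Ideal (𝓞 E))⁰) : Ideal (𝓞 E)) = Ideal.span {a} := by
        rw [hK]; rfl
      rw [this]
      exact ⟨⟨a, rfl⟩⟩
    rw [hJ] at hprod
    exact (inv_mul_eq_one.mp hprod).symm ▸ rfl

end Fermat.Agent.F4Ray
end MergeWrap_F4_Ray_ClsBasic

section MergeWrap_S14_CZ_Compare -- from S14/CZ/Compare.lean

/-!
# S14, analytic route: comparison of the sums of a function over a group and over a subgroup of
finite index (abstract part of U5)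

For a subgroup `H` of finite index `m` of an additive commutative group `A` and a summable
`f : A → ℝ`:  `∑_A f - m ∑_H f = ∑_{q ∈ A/H} ∑_{h ∈ H} (f (rep q + h) - f h)`.
-/

set_option autoImplicit false

namespace Fermat.Agent.S14CZ

section abstract

variable {A : Type*} [AddCommGroup A] (H : AddSubgroup A)

/-- The bijection `(A ⧸ H) × H ≃ A`, `(q, h) ↦ rep q + h`. -/
noncomputable def cosetProdEquiv : (A ⧸ H) × H ≃ A :=
  Equiv.ofBijective (fun p ↦ Quotient.out p.1 + (p.2 : A)) (by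
    constructor
    · rintro ⟨q, h⟩ ⟨q', h'⟩ hqq
      simp only at hqq
      have h1 : ((Quotient.out q + (h : A) : A) : A ⧸ H) = q := by
        rw [QuotientAddGroup.mk_add_of_mem _ h.2]
        exact Quotient.out_eq' q
      have h2 : ((Quotient.out q' + (h' : A) : A) : A ⧸ H) = q' := by
        rw [QuotientAddGroup.mk_add_of_mem _ h'.2]
        exact Quotient.out_eq' q'
      have hq : q = q' := by rw [← h1, ← h2, hqq]
      subst hq
      have : (h : A) = h' := add_left_cancel hqq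
      rw [Subtype.ext this]
    · intro a
      have hmem : - Quotient.out (a : A ⧸ H) + a ∈ H := by
        rw [← QuotientAddGroup.eq]
        exact Quotient.out_eq' _
      exact ⟨⟨(a : A ⧸ H), ⟨_, hmem⟩⟩, by simp⟩)

@[simp]
lemma cosetProdEquiv_apply (p : (A ⧸ H) × H) :
    cosetProdEquiv H p = Quotient.out p.1 + (p.2 : A) := rfl

/-- **Abstract comparison**: if `|f (rep q + h) - f h| ≤ K q * g h` with `g` summable on `H`,
then `|∑_A f - [A : H] ∑_H f| ≤ (∑_q K q) * ∑_H g`. -/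
theorem abs_tsum_sub_card_mul_tsum_le [Fintype (A ⧸ H)] (f : A → ℝ) (g : H → ℝ) (K : A ⧸ H → ℝ)
    (hf : Summable f) (hg : Summable g)
    (hK : ∀ (q : A ⧸ H) (h : H), |f (Quotient.out q + (h : A)) - f (h : A)| ≤ K q * g h) :
    |∑' a, f a - (Fintype.card (A ⧸ H) : ℝ) * ∑' h : H, f (h : A)| ≤
      (∑ q, K q) * ∑' h, g h := by
  have hfH : Summable fun h : H ↦ f (h : A) := hf.subtype _
  have hfe : Summable fun p : (A ⧸ H) × H ↦ f (cosetProdEquiv H p) :=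
    (cosetProdEquiv H).summable_iff.mpr hf
  have hfq : ∀ q : A ⧸ H, Summable fun h : H ↦ f (Quotient.out q + (h : A)) := fun q ↦ by
    have := hfe.comp_injective (Prod.mk_right_injective q)
    exact this
  have h1 : ∑' a, f a = ∑ q : A ⧸ H, ∑' h : H, f (Quotient.out q + (h : A)) := by
    rw [← (cosetProdEquiv H).tsum_eq f, hfe.tsum_prod' (fun q ↦ hfq q), tsum_fintype]
    rfl
  have h2 : (Fintype.card (A ⧸ H) : ℝ) * ∑' h : H, f (h : A) =
      ∑ _q : A ⧸ H, ∑' h : H, f (h : A) := by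
    rw [Finset.sum_const, Finset.card_univ, nsmul_eq_mul]
  rw [h1, h2, ← Finset.sum_sub_distrib, Finset.sum_mul]
  refine (Finset.abs_sum_le_sum_abs _ _).trans (Finset.sum_le_sum fun q _ ↦ ?_)
  rw [← (hfq q).tsum_sub hfH, ← tsum_mul_left]
  have hsum : Summable fun h : H ↦ f (Quotient.out q + (h : A)) - f (h : A) :=
    (hfq q).sub hfH
  have hbd : Summable fun h : H ↦ K q * g h := hg.mul_left _
  calc |∑' h : H, (f (Quotient.out q + (h : A)) - f (h : A))|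
      ≤ ∑' h : H, |f (Quotient.out q + (h : A)) - f (h : A)| := by
        have := norm_tsum_le_tsum_norm (f := fun h : H ↦ f (Quotient.out q + (h : A)) - f (h : A))
          hsum.norm
        simpa [Real.norm_eq_abs] using this
    _ ≤ ∑' h : H, K q * g h :=
        (hsum.abs).tsum_le_tsum (fun h ↦ hK q h) hbd

end abstract

end Fermat.Agent.S14CZ
end MergeWrap_S14_CZ_Compare

section MergeWrap_F4_Ray_PredCompare -- from F4/Ray/PredCompare.lean

/-!
# F4 / GLOB: comparison of a weighted sum over a group with the sum over a subgroup of finite index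

For a subgroup `H` of finite index of `A`, weights `c` on `A ⧸ H` with `|c| ≤ 1` and a summable
`f : A → ℝ`:  `∑_A c(a mod H) f(a) - (∑_q c q) ∑_H f = ∑_q c q ∑_{h ∈ H} (f (rep q + h) - f h)`.
-/

set_option autoImplicit false

namespace Fermat.Agent.F4Ray

open Fermat.Agent.S14CZ (cosetProdEquiv cosetProdEquiv_apply)

variable {A : Type*} [AddCommGroup A] (H : AddSubgroup A)

/-- **Abstract weighted comparison.** -/
theorem abs_tsum_weight_sub_le [Fintype (A ⧸ H)] (f : A → ℝ) (g : H → ℝ) (K : A ⧸ H → ℝ)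
    (c : A ⧸ H → ℝ) (hc : ∀ q, |c q| ≤ 1)
    (hf : Summable f) (hg : Summable g)
    (hK : ∀ (q : A ⧸ H) (h : H), |f (Quotient.out q + (h : A)) - f (h : A)| ≤ K q * g h) :
    |∑' a : A, c (a : A ⧸ H) * f a - (∑ q, c q) * ∑' h : H, f (h : A)| ≤
      (∑ q, K q) * ∑' h, g h := by
  obtain ⟨F, hFdef⟩ : ∃ F : A → ℝ, ∀ a, F a = c (a : A ⧸ H) * f a := ⟨_, fun _ ↦ rfl⟩
  have hfH : Summable fun h : H ↦ f (h : A) := hf.subtype _
  have hF : Summable F := by
    refine Summable.of_norm_bounded hf.abs fun a ↦ ?_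
    rw [hFdef, Real.norm_eq_abs, abs_mul]
    exact mul_le_of_le_one_left (abs_nonneg _) (hc _)
  have hFe : Summable fun p : (A ⧸ H) × H ↦ F (cosetProdEquiv H p) :=
    (cosetProdEquiv H).summable_iff.mpr hF
  have hfe : Summable fun p : (A ⧸ H) × H ↦ f (cosetProdEquiv H p) :=
    (cosetProdEquiv H).summable_iff.mpr hf
  have hfq : ∀ q : A ⧸ H, Summable fun h : H ↦ f (Quotient.out q + (h : A)) := fun q ↦ by
    have := hfe.comp_injective (Prod.mk_right_injective q)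
    exact this
  have hmk : ∀ (q : A ⧸ H) (h : H), ((Quotient.out q + (h : A) : A) : A ⧸ H) = q := fun q h ↦ by
    rw [QuotientAddGroup.mk_add_of_mem _ h.2]
    exact Quotient.out_eq' q
  have hFq : ∀ q : A ⧸ H, Summable fun h : H ↦ F (Quotient.out q + (h : A)) := fun q ↦ by
    have := hFe.comp_injective (Prod.mk_right_injective q)
    exact this
  have h1 : ∑' a : A, c (a : A ⧸ H) * f a =
      ∑ q : A ⧸ H, c q * ∑' h : H, f (Quotient.out q + (h : A)) := by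
    rw [tsum_congr (fun a ↦ (hFdef a).symm), ← (cosetProdEquiv H).tsum_eq F,
      hFe.tsum_prod' (fun q ↦ hFq q), tsum_fintype]
    refine Finset.sum_congr rfl fun q _ ↦ ?_
    rw [← tsum_mul_left]
    refine tsum_congr fun h ↦ ?_
    rw [cosetProdEquiv_apply, hFdef, hmk]
  rw [h1, Finset.sum_mul, ← Finset.sum_sub_distrib, Finset.sum_mul]
  refine (Finset.abs_sum_le_sum_abs _ _).trans (Finset.sum_le_sum fun q _ ↦ ?_)
  rw [← mul_sub, abs_mul, ← (hfq q).tsum_sub hfH, ← tsum_mul_left]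
  have hsum : Summable fun h : H ↦ f (Quotient.out q + (h : A)) - f (h : A) :=
    (hfq q).sub hfH
  have hbd : Summable fun h : H ↦ K q * g h := hg.mul_left _
  have h2 : |∑' h : H, (f (Quotient.out q + (h : A)) - f (h : A))| ≤ ∑' h : H, K q * g h :=
    calc |∑' h : H, (f (Quotient.out q + (h : A)) - f (h : A))|
        ≤ ∑' h : H, |f (Quotient.out q + (h : A)) - f (h : A)| := by
          have := norm_tsum_le_tsum_norm
            (f := fun h : H ↦ f (Quotient.out q + (h : A)) - f (h : A)) hsum.norm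
          simpa [Real.norm_eq_abs] using this
      _ ≤ ∑' h : H, K q * g h :=
          (hsum.abs).tsum_le_tsum (fun h ↦ hK q h) hbd
  have h3 : 0 ≤ ∑' h : H, K q * g h := (abs_nonneg _).trans h2
  calc |c q| * |∑' h : H, (f (Quotient.out q + (h : A)) - f (h : A))|
      ≤ 1 * ∑' h : H, K q * g h := mul_le_mul (hc q) h2 (abs_nonneg _) zero_le_one
    _ = ∑' h : H, K q * g h := one_mul _

end Fermat.Agent.F4Ray
end MergeWrap_F4_Ray_PredCompare

section MergeWrap_S14_CZ_Pointwise -- from S14/CZ/Pointwise.lean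

/-!
# S14, analytic route: the smoothed weight `czF` and its pointwise Lipschitz estimate (U4)

`czF E φ0 s x = φ0 (logMap x) * N(x) ^ (-s)` on the mixed space of a number field `E`, where `φ0` is a
bounded Lipschitz function with bounded support on the logarithmic space.  We prove that
`|czF E φ0 s (x + ρ) - czF E φ0 s x| ≤ C * (1 + ‖ρ‖) ^ (d + 1) * ‖x‖ ^ (-(d + 1))`, uniformly in
`s ∈ [1, 2]`, for points `x`, `x + ρ` where the norm `N` is `0` or `≥ 1` (e.g. lattice points).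
-/

set_option autoImplicit false

open NumberField NumberField.InfinitePlace NumberField.mixedEmbedding NumberField.Units
  NumberField.Units.dirichletUnitTheorem Module

namespace Fermat.Agent.S14CZ

open Fermat.Agent.S14 (czF classZeta cutoff)

open scoped Classical

set_option linter.unusedSectionVars false

variable {E : Type*} [Field E] [NumberField E]

/-- The number of infinite places, as a real number. -/
noncomputable def czKappa (E : Type*) [Field E] [NumberField E] : ℝ :=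
  (Fintype.card (InfinitePlace E) : ℝ)

/-- The degree, as a real number. -/
noncomputable def czDeg (E : Type*) [Field E] [NumberField E] : ℝ := (finrank ℚ E : ℝ)

lemma czDeg_pos : 0 < czDeg E := by
  unfold czDeg
  exact_mod_cast finrank_pos

lemma czKappa_nonneg : 0 ≤ czKappa E := by
  unfold czKappa
  positivity

lemma one_le_mult_real (w : InfinitePlace E) : (1 : ℝ) ≤ (mult w : ℝ) := by
  have : 1 ≤ mult w := by
    unfold mult; split_ifs <;> norm_num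
  exact_mod_cast this

lemma mult_real_le_two (w : InfinitePlace E) : (mult w : ℝ) ≤ 2 := by
  have : mult w ≤ 2 := by
    unfold mult; split_ifs <;> norm_num
  exact_mod_cast this

lemma normAtPlace_pos_of_norm_ne_zero {x : mixedSpace E} (hx : mixedEmbedding.norm x ≠ 0)
    (w : InfinitePlace E) : 0 < normAtPlace w x :=
  lt_of_le_of_ne (normAtPlace_nonneg _ _) (mixedEmbedding.norm_ne_zero_iff.mp hx w).symm

lemma normAtPlace_le_norm (w : InfinitePlace E) (x : mixedSpace E) : normAtPlace w x ≤ ‖x‖ := by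
  classical
  rw [norm_eq_sup'_normAtPlace]
  exact Finset.le_sup' (fun w ↦ normAtPlace w x) (Finset.mem_univ w)

lemma exists_normAtPlace_eq_norm (x : mixedSpace E) : ∃ w : InfinitePlace E, normAtPlace w x = ‖x‖ := by
  classical
  rw [norm_eq_sup'_normAtPlace]
  obtain ⟨w, -, hw⟩ := Finset.exists_mem_eq_sup' Finset.univ_nonempty (fun w ↦ normAtPlace w x)
  exact ⟨w, hw.symm⟩

/-- `log N(x) = ∑ mult w * log |x|_w`. -/
lemma log_norm_eq_sum {x : mixedSpace E} (hx : mixedEmbedding.norm x ≠ 0) :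
    Real.log (mixedEmbedding.norm x) = ∑ w : InfinitePlace E, (mult w : ℝ) * Real.log (normAtPlace w x) := by
  rw [mixedEmbedding.norm_apply, Real.log_prod]
  · refine Finset.sum_congr rfl fun w _ ↦ ?_
    rw [Real.log_pow]
  · intro w _
    exact pow_ne_zero _ (mixedEmbedding.norm_ne_zero_iff.mp hx w)

lemma sum_mult_real : ∑ w : InfinitePlace E, (mult w : ℝ) = czDeg E := by
  unfold czDeg
  exact_mod_cast sum_mult_eq (K := E)

/-- The centred logarithm at the place `w`. -/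
noncomputable def czT (x : mixedSpace E) (w : InfinitePlace E) : ℝ :=
  Real.log (normAtPlace w x) - Real.log (mixedEmbedding.norm x) * (czDeg E)⁻¹

lemma sum_mult_czT {x : mixedSpace E} (hx : mixedEmbedding.norm x ≠ 0) :
    ∑ w : InfinitePlace E, (mult w : ℝ) * czT x w = 0 := by
  unfold czT
  simp_rw [mul_sub, Finset.sum_sub_distrib, ← log_norm_eq_sum hx, ← mul_assoc, ← Finset.sum_mul]
  rw [sum_mult_real, mul_comm (czDeg E), mul_assoc,
    mul_inv_cancel₀ (czDeg_pos (E := E)).ne', mul_one, sub_self]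

lemma logMap_eq_mult_czT (x : mixedSpace E) (w : {w : InfinitePlace E // w ≠ w₀}) :
    logMap x w = (mult w.1 : ℝ) * czT x w.1 := by
  rw [logMap_apply]
  rfl


/-- On the set where `‖logMap x‖ ≤ R`, all centred logarithms are bounded by `κ R`. -/
lemma abs_czT_le {x : mixedSpace E} (hx : mixedEmbedding.norm x ≠ 0) {R : ℝ}
    (hR : ‖logMap x‖ ≤ R) (w : InfinitePlace E) : |czT x w| ≤ czKappa E * R := by
  have hR0 : 0 ≤ R := (norm_nonneg _).trans hR
  have hκ1 : (1 : ℝ) ≤ czKappa E := by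
    unfold czKappa
    exact_mod_cast Fintype.card_pos
  have hlog : ∀ v : {w : InfinitePlace E // w ≠ w₀}, |logMap x v| ≤ R := fun v ↦
    (Real.norm_eq_abs _ ▸ norm_le_pi_norm (logMap x) v).trans hR
  by_cases hw : w = w₀
  · subst hw
    have h0 := sum_mult_czT hx
    rw [Fintype.sum_eq_add_sum_subtype_ne _ (w₀ : InfinitePlace E)] at h0
    have h1 : (mult (w₀ : InfinitePlace E) : ℝ) * czT x w₀ =
        - ∑ v : {w : InfinitePlace E // w ≠ w₀}, logMap x v := by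
      simp_rw [logMap_eq_mult_czT]
      linarith
    have h2 : |∑ v : {w : InfinitePlace E // w ≠ w₀}, logMap x v| ≤
        (Fintype.card {w : InfinitePlace E // w ≠ w₀} : ℝ) * R := by
      refine (Finset.abs_sum_le_sum_abs _ _).trans ?_
      refine (Finset.sum_le_sum fun v _ ↦ hlog v).trans ?_
      simp
    have h3 : (Fintype.card {w : InfinitePlace E // w ≠ w₀} : ℝ) ≤ czKappa E := by
      unfold czKappa
      exact_mod_cast Fintype.card_subtype_le _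
    have h4 : |czT x w₀| ≤ |(mult (w₀ : InfinitePlace E) : ℝ) * czT x w₀| := by
      rw [abs_mul]
      have := one_le_mult_real (w₀ : InfinitePlace E)
      rw [abs_of_nonneg (by linarith : (0 : ℝ) ≤ (mult (w₀ : InfinitePlace E) : ℝ))]
      nlinarith [abs_nonneg (czT x w₀)]
    rw [h1, abs_neg] at h4
    calc |czT x w₀| ≤ _ := h4
      _ ≤ _ := h2
      _ ≤ czKappa E * R := by gcongr
  · have h1 := hlog ⟨w, hw⟩
    rw [logMap_eq_mult_czT, abs_mul] at h1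
    have := one_le_mult_real w
    rw [abs_of_nonneg (by linarith : (0 : ℝ) ≤ (mult w : ℝ))] at h1
    have h5 : |czT x w| ≤ R := by nlinarith [abs_nonneg (czT x w)]
    nlinarith


/-- The cone constant attached to a bound `R` for `‖logMap x‖`. -/
noncomputable def czCone (E : Type*) [Field E] [NumberField E] (R : ℝ) : ℝ :=
  Real.exp (-(2 * czKappa E * R))

lemma czCone_pos (R : ℝ) : 0 < czCone E R := Real.exp_pos _

lemma czCone_le_one {R : ℝ} (hR : 0 ≤ R) : czCone E R ≤ 1 := by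
  unfold czCone
  rw [Real.exp_le_one_iff]
  have := czKappa_nonneg (E := E)
  nlinarith

/-- **Cone property**: where `‖logMap x‖ ≤ R`, every `|x|_w` is at least `czCone R * ‖x‖`. -/
lemma czCone_mul_norm_le {x : mixedSpace E} (hx : mixedEmbedding.norm x ≠ 0) {R : ℝ}
    (hR : ‖logMap x‖ ≤ R) (w : InfinitePlace E) : czCone E R * ‖x‖ ≤ normAtPlace w x := by
  obtain ⟨v, hv⟩ := exists_normAtPlace_eq_norm x
  have hw0 := normAtPlace_pos_of_norm_ne_zero hx w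
  have hv0 := normAtPlace_pos_of_norm_ne_zero hx v
  have h1 := abs_le.mp (abs_czT_le hx hR w)
  have h2 := abs_le.mp (abs_czT_le hx hR v)
  unfold czT at h1 h2
  have h3 : Real.log (normAtPlace v x) - 2 * czKappa E * R ≤ Real.log (normAtPlace w x) := by
    linarith [h1.1, h2.2]
  rw [← hv]
  unfold czCone
  calc Real.exp (-(2 * czKappa E * R)) * normAtPlace v x
      = Real.exp (Real.log (normAtPlace v x) - 2 * czKappa E * R) := by
        rw [sub_eq_add_neg, Real.exp_add, Real.exp_log hv0, mul_comm]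
    _ ≤ Real.exp (Real.log (normAtPlace w x)) := Real.exp_le_exp.mpr h3
    _ = normAtPlace w x := Real.exp_log hw0

/-- If all `|x|_w ≥ c ‖x‖` then `N(x) ≥ (c ‖x‖) ^ d`. -/
lemma pow_le_norm_of_cone {x : mixedSpace E} {c : ℝ} (hc : 0 ≤ c)
    (h : ∀ w : InfinitePlace E, c * ‖x‖ ≤ normAtPlace w x) :
    (c * ‖x‖) ^ (finrank ℚ E) ≤ mixedEmbedding.norm x := by
  rw [mixedEmbedding.norm_apply, ← sum_mult_eq (K := E), ← Finset.prod_pow_eq_pow_sum]
  refine Finset.prod_le_prod (fun w _ ↦ by positivity) fun w _ ↦ ?_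
  exact pow_le_pow_left₀ (by positivity) (h w) _

/-- Elementary: a relative perturbation of size `θ ≤ 1/2` changes the logarithm by at most `2θ`. -/
lemma abs_log_sub_log_le {a b θ : ℝ} (ha : 0 < a) (hθ : θ ≤ 1 / 2) (hab : |b - a| ≤ θ * a) :
    0 < b ∧ |Real.log b - Real.log a| ≤ 2 * θ := by
  have hθ0 : 0 ≤ θ := by
    by_contra h
    rw [not_le] at h
    have : θ * a < 0 := mul_neg_of_neg_of_pos h ha
    linarith [abs_nonneg (b - a)]
  obtain ⟨h1, h2⟩ := abs_le.mp hab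
  have hb : 0 < b := by nlinarith
  refine ⟨hb, ?_⟩
  rw [← Real.log_div hb.ne' ha.ne']
  have hr : 0 < b / a := div_pos hb ha
  have hr1 : b / a ≤ 1 + θ := by
    rw [div_le_iff₀ ha]; nlinarith
  have hr2 : 1 - θ ≤ b / a := by
    rw [le_div_iff₀ ha]; nlinarith
  rw [abs_le]
  constructor
  · have := Real.one_sub_inv_le_log_of_pos hr
    have h3 : (b / a)⁻¹ ≤ (1 - θ)⁻¹ := inv_anti₀ (by linarith) hr2
    have h4 : (1 - θ)⁻¹ ≤ 1 + 2 * θ := by
      rw [inv_le_iff_one_le_mul₀ (by linarith)]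
      nlinarith
    linarith
  · have := Real.log_le_sub_one_of_pos hr
    linarith

lemma abs_normAtPlace_sub_le (w : InfinitePlace E) (x y : mixedSpace E) :
    |normAtPlace w y - normAtPlace w x| ≤ ‖y - x‖ := by
  have h1 : normAtPlace w y ≤ normAtPlace w (y - x) + normAtPlace w x := by
    have := normAtPlace_add_le w (y - x) x
    rwa [sub_add_cancel] at this
  have h2 : normAtPlace w x ≤ normAtPlace w (x - y) + normAtPlace w y := by
    have := normAtPlace_add_le w (x - y) y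
    rwa [sub_add_cancel] at this
  have h3 : normAtPlace w (x - y) = normAtPlace w (y - x) := by
    rw [← normAtPlace_neg, neg_sub]
  have h4 := normAtPlace_le_norm w (y - x)
  rw [abs_le]
  constructor <;> linarith

/-- **Perturbation in the cone**: if all `|x|_w ≥ c ‖x‖` and `‖y - x‖ ≤ θ c ‖x‖` with `θ ≤ 1/2`
then `y` has nonzero coordinates and its logarithms differ from those of `x` by at most `2θ`. -/
lemma cone_perturb {x y : mixedSpace E} {c θ : ℝ} (hx : mixedEmbedding.norm x ≠ 0)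
    (h : ∀ w : InfinitePlace E, c * ‖x‖ ≤ normAtPlace w x)
    (hθ0 : 0 ≤ θ) (hθ : θ ≤ 1 / 2) (hy : ‖y - x‖ ≤ θ * (c * ‖x‖)) (w : InfinitePlace E) :
    0 < normAtPlace w y ∧ |Real.log (normAtPlace w y) - Real.log (normAtPlace w x)| ≤ 2 * θ := by
  have hw0 := normAtPlace_pos_of_norm_ne_zero hx w
  refine abs_log_sub_log_le hw0 hθ ?_
  calc |normAtPlace w y - normAtPlace w x| ≤ ‖y - x‖ := abs_normAtPlace_sub_le w x y
    _ ≤ θ * (c * ‖x‖) := hy
    _ ≤ θ * normAtPlace w x := by gcongr; exact h w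

lemma cone_perturb_norm_ne_zero {x y : mixedSpace E} {c θ : ℝ} (hx : mixedEmbedding.norm x ≠ 0)
    (h : ∀ w : InfinitePlace E, c * ‖x‖ ≤ normAtPlace w x)
    (hθ0 : 0 ≤ θ) (hθ : θ ≤ 1 / 2) (hy : ‖y - x‖ ≤ θ * (c * ‖x‖)) :
    mixedEmbedding.norm y ≠ 0 :=
  mixedEmbedding.norm_ne_zero_iff.mpr fun w ↦ (cone_perturb hx h hθ0 hθ hy w).1.ne'

lemma cone_perturb_log_norm {x y : mixedSpace E} {c θ : ℝ} (hx : mixedEmbedding.norm x ≠ 0)
    (h : ∀ w : InfinitePlace E, c * ‖x‖ ≤ normAtPlace w x)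
    (hθ0 : 0 ≤ θ) (hθ : θ ≤ 1 / 2) (hy : ‖y - x‖ ≤ θ * (c * ‖x‖)) :
    |Real.log (mixedEmbedding.norm y) - Real.log (mixedEmbedding.norm x)| ≤ 2 * czDeg E * θ := by
  have hy0 := cone_perturb_norm_ne_zero hx h hθ0 hθ hy
  rw [log_norm_eq_sum hx, log_norm_eq_sum hy0, ← Finset.sum_sub_distrib]
  refine (Finset.abs_sum_le_sum_abs _ _).trans ?_
  have : ∀ w : InfinitePlace E, |(mult w : ℝ) * Real.log (normAtPlace w y) -
      (mult w : ℝ) * Real.log (normAtPlace w x)| ≤ (mult w : ℝ) * (2 * θ) := fun w ↦ by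
    rw [← mul_sub, abs_mul, abs_of_nonneg (by positivity : (0 : ℝ) ≤ (mult w : ℝ))]
    gcongr
    exact (cone_perturb hx h hθ0 hθ hy w).2
  refine (Finset.sum_le_sum fun w _ ↦ this w).trans ?_
  rw [← Finset.sum_mul, sum_mult_real]
  linarith

lemma cone_perturb_czT {x y : mixedSpace E} {c θ : ℝ} (hx : mixedEmbedding.norm x ≠ 0)
    (h : ∀ w : InfinitePlace E, c * ‖x‖ ≤ normAtPlace w x)
    (hθ0 : 0 ≤ θ) (hθ : θ ≤ 1 / 2) (hy : ‖y - x‖ ≤ θ * (c * ‖x‖)) (w : InfinitePlace E) :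
    |czT y w - czT x w| ≤ 4 * θ := by
  have h1 := (cone_perturb hx h hθ0 hθ hy w).2
  have h2 := cone_perturb_log_norm hx h hθ0 hθ hy
  unfold czT
  have hd := czDeg_pos (E := E)
  have h3 : |(Real.log (mixedEmbedding.norm y) - Real.log (mixedEmbedding.norm x)) * (czDeg E)⁻¹|
      ≤ 2 * θ := by
    rw [abs_mul, abs_of_pos (inv_pos.mpr hd), ← div_eq_mul_inv, div_le_iff₀ hd]
    linarith
  have h4 : Real.log (normAtPlace w y) - Real.log (mixedEmbedding.norm y) * (czDeg E)⁻¹ -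
      (Real.log (normAtPlace w x) - Real.log (mixedEmbedding.norm x) * (czDeg E)⁻¹) =
      (Real.log (normAtPlace w y) - Real.log (normAtPlace w x)) -
      (Real.log (mixedEmbedding.norm y) - Real.log (mixedEmbedding.norm x)) * (czDeg E)⁻¹ := by
    ring
  rw [h4]
  calc _ ≤ |Real.log (normAtPlace w y) - Real.log (normAtPlace w x)| +
      |(Real.log (mixedEmbedding.norm y) - Real.log (mixedEmbedding.norm x)) * (czDeg E)⁻¹| :=
        abs_sub _ _
    _ ≤ 2 * θ + 2 * θ := add_le_add h1 h3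
    _ = 4 * θ := by ring

lemma cone_perturb_logMap {x y : mixedSpace E} {c θ : ℝ} (hx : mixedEmbedding.norm x ≠ 0)
    (h : ∀ w : InfinitePlace E, c * ‖x‖ ≤ normAtPlace w x)
    (hθ0 : 0 ≤ θ) (hθ : θ ≤ 1 / 2) (hy : ‖y - x‖ ≤ θ * (c * ‖x‖)) :
    ‖logMap y - logMap x‖ ≤ 8 * θ := by
  rw [pi_norm_le_iff_of_nonneg (by positivity)]
  intro v
  rw [Pi.sub_apply, logMap_eq_mult_czT, logMap_eq_mult_czT, ← mul_sub, Real.norm_eq_abs, abs_mul,
    abs_of_nonneg (by positivity : (0 : ℝ) ≤ (mult v.1 : ℝ))]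
  have h1 := cone_perturb_czT hx h hθ0 hθ hy v.1
  have h2 := mult_real_le_two v.1
  have h3 := one_le_mult_real v.1
  nlinarith [abs_nonneg (czT y v.1 - czT x v.1)]


/-- The hypotheses on the cut-off function `φ0` on the logarithmic space. -/
structure CZBump (φ0 : logSpace E → ℝ) (L R0 : ℝ) : Prop where
  nonneg : ∀ y, 0 ≤ φ0 y
  le_one : ∀ y, φ0 y ≤ 1
  lip : ∀ y z, |φ0 y - φ0 z| ≤ L * ‖y - z‖
  supp : ∀ y, R0 ≤ ‖y‖ → φ0 y = 0
  L_nonneg : 0 ≤ L
  R0_nonneg : 0 ≤ R0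

lemma czF_of_norm_eq_zero (φ0 : logSpace E → ℝ) (s : ℝ) {x : mixedSpace E}
    (hx : mixedEmbedding.norm x = 0) : czF E φ0 s x = 0 := by
  unfold czF; rw [if_pos hx]

lemma czF_of_norm_ne_zero (φ0 : logSpace E → ℝ) (s : ℝ) {x : mixedSpace E}
    (hx : mixedEmbedding.norm x ≠ 0) :
    czF E φ0 s x = φ0 (logMap x) * (mixedEmbedding.norm x) ^ (-s) := by
  unfold czF; rw [if_neg hx]

lemma czF_nonneg {φ0 : logSpace E → ℝ} {L R0 : ℝ} (hφ : CZBump φ0 L R0) (s : ℝ)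
    (x : mixedSpace E) : 0 ≤ czF E φ0 s x := by
  unfold czF
  split_ifs
  · exact le_rfl
  · exact mul_nonneg (hφ.nonneg _) (Real.rpow_nonneg (mixedEmbedding.norm_nonneg _) _)

lemma czF_le_rpow {φ0 : logSpace E → ℝ} {L R0 : ℝ} (hφ : CZBump φ0 L R0) (s : ℝ)
    (x : mixedSpace E) : czF E φ0 s x ≤ (mixedEmbedding.norm x) ^ (-s) := by
  unfold czF
  split_ifs
  · exact Real.rpow_nonneg (mixedEmbedding.norm_nonneg _) _
  · exact mul_le_of_le_one_left (Real.rpow_nonneg (mixedEmbedding.norm_nonneg _) _) (hφ.le_one _)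

lemma czF_le_one {φ0 : logSpace E → ℝ} {L R0 : ℝ} (hφ : CZBump φ0 L R0) {s : ℝ} (hs : 0 ≤ s)
    {x : mixedSpace E} (hx : mixedEmbedding.norm x = 0 ∨ 1 ≤ mixedEmbedding.norm x) :
    czF E φ0 s x ≤ 1 := by
  rcases hx with hx | hx
  · rw [czF_of_norm_eq_zero _ _ hx]; exact zero_le_one
  · refine (czF_le_rpow hφ s x).trans ?_
    exact Real.rpow_le_one_of_one_le_of_nonpos hx (by linarith)

lemma czF_eq_zero_of_le_norm_logMap {φ0 : logSpace E → ℝ} {L R0 : ℝ} (hφ : CZBump φ0 L R0) (s : ℝ)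
    {x : mixedSpace E} (hx : R0 ≤ ‖logMap x‖) : czF E φ0 s x = 0 := by
  unfold czF
  split_ifs
  · rfl
  · rw [hφ.supp _ hx, zero_mul]

/-- **Estimate in the cone.** -/
lemma czF_sub_le_of_cone {φ0 : logSpace E → ℝ} {L R0 : ℝ} (hφ : CZBump φ0 L R0)
    {s : ℝ} (hs1 : 1 ≤ s) (hs2 : s ≤ 2) {x y : mixedSpace E} {c θ : ℝ}
    (hx : mixedEmbedding.norm x ≠ 0) (h : ∀ w : InfinitePlace E, c * ‖x‖ ≤ normAtPlace w x)
    (hθ0 : 0 ≤ θ) (hθ : 4 * czDeg E * θ ≤ 1) (hy : ‖y - x‖ ≤ θ * (c * ‖x‖)) :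
    |czF E φ0 s y - czF E φ0 s x| ≤
      (24 * L + 8 * czDeg E) * θ * (mixedEmbedding.norm x) ^ (-s) := by
  have hd := czDeg_pos (E := E)
  have hd1 : (1 : ℝ) ≤ czDeg E := by
    unfold czDeg
    exact_mod_cast (finrank_pos : 0 < finrank ℚ E)
  have hθ' : θ ≤ 1 / 2 := by nlinarith
  have hy0 := cone_perturb_norm_ne_zero hx h hθ0 hθ' hy
  have hNx : 0 < mixedEmbedding.norm x := lt_of_le_of_ne (mixedEmbedding.norm_nonneg _) hx.symm
  have hNy : 0 < mixedEmbedding.norm y := lt_of_le_of_ne (mixedEmbedding.norm_nonneg _) hy0.symm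
  rw [czF_of_norm_ne_zero _ _ hx, czF_of_norm_ne_zero _ _ hy0]
  set Nx := (mixedEmbedding.norm x) ^ (-s) with hNxdef
  set Ny := (mixedEmbedding.norm y) ^ (-s) with hNydef
  have hNx0 : 0 ≤ Nx := Real.rpow_nonneg hNx.le _
  have hΔ := cone_perturb_log_norm hx h hθ0 hθ' hy
  set Δ := Real.log (mixedEmbedding.norm y) - Real.log (mixedEmbedding.norm x) with hΔdef
  have hNyx : Ny = Nx * Real.exp (-s * Δ) := by
    rw [hNxdef, hNydef, Real.rpow_def_of_pos hNx, Real.rpow_def_of_pos hNy, ← Real.exp_add]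
    congr 1
    rw [hΔdef]; ring
  have hsΔ : |(-s) * Δ| ≤ 4 * czDeg E * θ := by
    rw [abs_mul, abs_neg, abs_of_nonneg (by linarith : (0 : ℝ) ≤ s)]
    calc s * |Δ| ≤ 2 * (2 * czDeg E * θ) := by
          apply mul_le_mul hs2 hΔ (abs_nonneg _) (by norm_num)
      _ = 4 * czDeg E * θ := by ring
  have hexp : |Real.exp (-s * Δ) - 1| ≤ 2 * (4 * czDeg E * θ) := by
    refine (Real.abs_exp_sub_one_le (hsΔ.trans hθ)).trans ?_
    gcongr
  have hNdiff : |Ny - Nx| ≤ 8 * czDeg E * θ * Nx := by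
    rw [hNyx]
    have : Nx * Real.exp (-s * Δ) - Nx = Nx * (Real.exp (-s * Δ) - 1) := by ring
    rw [this, abs_mul, abs_of_nonneg hNx0]
    calc Nx * |Real.exp (-s * Δ) - 1| ≤ Nx * (2 * (4 * czDeg E * θ)) := by gcongr
      _ = 8 * czDeg E * θ * Nx := by ring
  have hNy3 : Ny ≤ 3 * Nx := by
    have := (abs_le.mp hNdiff).2
    nlinarith
  have hNy0 : 0 ≤ Ny := Real.rpow_nonneg hNy.le _
  have hφdiff : |φ0 (logMap y) - φ0 (logMap x)| ≤ L * (8 * θ) :=
    (hφ.lip _ _).trans (mul_le_mul_of_nonneg_left (cone_perturb_logMap hx h hθ0 hθ' hy)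
      hφ.L_nonneg)
  have hsplit : φ0 (logMap y) * Ny - φ0 (logMap x) * Nx =
      (φ0 (logMap y) - φ0 (logMap x)) * Ny + φ0 (logMap x) * (Ny - Nx) := by ring
  rw [hsplit]
  calc |(φ0 (logMap y) - φ0 (logMap x)) * Ny + φ0 (logMap x) * (Ny - Nx)|
      ≤ |(φ0 (logMap y) - φ0 (logMap x)) * Ny| + |φ0 (logMap x) * (Ny - Nx)| := abs_add_le _ _
    _ = |φ0 (logMap y) - φ0 (logMap x)| * Ny + φ0 (logMap x) * |Ny - Nx| := by
        rw [abs_mul, abs_mul, abs_of_nonneg hNy0, abs_of_nonneg (hφ.nonneg _)]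
    _ ≤ L * (8 * θ) * (3 * Nx) + 1 * (8 * czDeg E * θ * Nx) := by
        apply add_le_add
        · exact mul_le_mul hφdiff hNy3 hNy0 (by have := hφ.L_nonneg; positivity)
        · exact mul_le_mul (hφ.le_one _) hNdiff (abs_nonneg _) zero_le_one
    _ = (24 * L + 8 * czDeg E) * θ * Nx := by ring


/-- Cone case of (U4), in a form symmetric enough to be used at `x` and at `x + ρ`. -/
lemma czF_sub_le_cone_aux {φ0 : logSpace E → ℝ} {L R0 : ℝ} (hφ : CZBump φ0 L R0)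
    {s : ℝ} (hs1 : 1 ≤ s) (hs2 : s ≤ 2) {x y : mixedSpace E}
    (hx1 : 1 ≤ mixedEmbedding.norm x) (hlog : ‖logMap x‖ ≤ R0)
    (hθ : 4 * czDeg E * ‖y - x‖ ≤ czCone E R0 * ‖x‖) :
    |czF E φ0 s y - czF E φ0 s x| ≤
      (24 * L + 8 * czDeg E) * ‖y - x‖ * ((czCone E R0) ^ (finrank ℚ E + 1))⁻¹ *
        (‖x‖ ^ (finrank ℚ E + 1))⁻¹ := by
  have hx : mixedEmbedding.norm x ≠ 0 := by linarith
  have hx0 : x ≠ 0 := fun h ↦ hx (by rw [h, map_zero])
  have hxpos : 0 < ‖x‖ := norm_pos_iff.mpr hx0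
  have hc := czCone_pos (E := E) R0
  have hd := czDeg_pos (E := E)
  have hcx : 0 < czCone E R0 * ‖x‖ := mul_pos hc hxpos
  have hcone := czCone_mul_norm_le hx hlog
  set θ := ‖y - x‖ / (czCone E R0 * ‖x‖) with hθdef
  have hθ0 : 0 ≤ θ := div_nonneg (norm_nonneg _) hcx.le
  have hθmul : θ * (czCone E R0 * ‖x‖) = ‖y - x‖ := div_mul_cancel₀ _ hcx.ne'
  have hθ1 : 4 * czDeg E * θ ≤ 1 := by
    rw [hθdef, ← mul_div_assoc, div_le_one hcx]
    exact hθ
  have h1 := czF_sub_le_of_cone hφ hs1 hs2 hx hcone hθ0 hθ1 hθmul.ge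
  have hA : 0 ≤ 24 * L + 8 * czDeg E := by
    have := hφ.L_nonneg
    positivity
  have h2 : (mixedEmbedding.norm x) ^ (-s) ≤ ((czCone E R0 * ‖x‖) ^ (finrank ℚ E))⁻¹ := by
    calc (mixedEmbedding.norm x) ^ (-s) ≤ (mixedEmbedding.norm x) ^ (-1 : ℝ) :=
          Real.rpow_le_rpow_of_exponent_le hx1 (by linarith)
      _ = (mixedEmbedding.norm x)⁻¹ := Real.rpow_neg_one _
      _ ≤ ((czCone E R0 * ‖x‖) ^ (finrank ℚ E))⁻¹ :=
          inv_anti₀ (by positivity) (pow_le_norm_of_cone hc.le hcone)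
  calc |czF E φ0 s y - czF E φ0 s x|
      ≤ (24 * L + 8 * czDeg E) * θ * (mixedEmbedding.norm x) ^ (-s) := h1
    _ ≤ (24 * L + 8 * czDeg E) * θ * ((czCone E R0 * ‖x‖) ^ (finrank ℚ E))⁻¹ := by
        gcongr
    _ = (24 * L + 8 * czDeg E) * ‖y - x‖ * ((czCone E R0) ^ (finrank ℚ E + 1))⁻¹ *
        (‖x‖ ^ (finrank ℚ E + 1))⁻¹ := by
        rw [hθdef, mul_pow, pow_succ, pow_succ]
        field_simp

/-! ### Real-number bookkeeping for (U4) -/

lemma u4_real_trivial {R A r X : ℝ} (n : ℕ) (hR : 0 < R) (hA : 0 ≤ A) (hr : 0 ≤ r)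
    (hX : 0 < X) (hsmall : X < R * (1 + r)) :
    (1 : ℝ) ≤ (R ^ n + A) * (1 + r) ^ n * (X ^ n)⁻¹ := by
  have hxn : 0 < (X ^ n)⁻¹ := by positivity
  have h2 : (1 : ℝ) ≤ (R * (1 + r)) ^ n * (X ^ n)⁻¹ := by
    rw [← div_eq_mul_inv, ← div_pow]
    apply one_le_pow₀
    rw [le_div_iff₀ hX]
    linarith
  have h3 : R ^ n * (1 + r) ^ n * (X ^ n)⁻¹ ≤ (R ^ n + A) * (1 + r) ^ n * (X ^ n)⁻¹ := by
    apply mul_le_mul_of_nonneg_right _ hxn.le
    apply mul_le_mul_of_nonneg_right _ (by positivity)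
    linarith
  calc (1 : ℝ) ≤ (R * (1 + r)) ^ n * (X ^ n)⁻¹ := h2
    _ = R ^ n * (1 + r) ^ n * (X ^ n)⁻¹ := by rw [mul_pow]
    _ ≤ (R ^ n + A) * (1 + r) ^ n * (X ^ n)⁻¹ := h3

lemma u4_real_finish {R A r X B : ℝ} {n : ℕ} (hn : 1 ≤ n) (hR : 0 < R) (hA : 0 ≤ A)
    (hr : 0 ≤ r) (hX : 0 < X) (hB : B ≤ A * r * (X ^ n)⁻¹) :
    B ≤ (R ^ n + A) * (1 + r) ^ n * (X ^ n)⁻¹ := by
  have hxn : 0 < (X ^ n)⁻¹ := by positivity
  have hρ1 : (1 : ℝ) ≤ 1 + r := by linarith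
  refine hB.trans ?_
  have h1 : r ≤ (1 + r) ^ n :=
    (by linarith : r ≤ 1 + r).trans (le_self_pow₀ hρ1 (by omega))
  have h2 : A * r ≤ (R ^ n + A) * (1 + r) ^ n := by
    have h3 : A * r ≤ A * (1 + r) ^ n := mul_le_mul_of_nonneg_left h1 hA
    have h4 : 0 ≤ R ^ n * (1 + r) ^ n := by positivity
    have h5 : (R ^ n + A) * (1 + r) ^ n = R ^ n * (1 + r) ^ n + A * (1 + r) ^ n := by
      ring
    rw [h5]
    linarith
  exact mul_le_mul_of_nonneg_right h2 hxn.le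

lemma u4_real_cone_x {A0 c r X : ℝ} (n : ℕ) (hA0 : 0 ≤ A0) (hc : 0 < c) (hr : 0 ≤ r)
    (hX : 0 < X) :
    A0 * r * (c ^ n)⁻¹ * (X ^ n)⁻¹ ≤ (A0 * 2 ^ n * (c ^ n)⁻¹) * r * (X ^ n)⁻¹ := by
  have hxn : 0 < (X ^ n)⁻¹ := by positivity
  have h2n : (1 : ℝ) ≤ 2 ^ n := one_le_pow₀ (by norm_num)
  have h4 : 0 ≤ A0 * r * (c ^ n)⁻¹ := by positivity
  have h2 : A0 * r * (c ^ n)⁻¹ ≤ (A0 * 2 ^ n * (c ^ n)⁻¹) * r := by
    calc A0 * r * (c ^ n)⁻¹
        ≤ A0 * r * (c ^ n)⁻¹ * 2 ^ n := le_mul_of_one_le_right h4 h2n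
      _ = A0 * 2 ^ n * (c ^ n)⁻¹ * r := by ring
  exact mul_le_mul_of_nonneg_right h2 hxn.le

lemma u4_real_cone_y {A0 c r X Y : ℝ} (n : ℕ) (hA0 : 0 ≤ A0) (hc : 0 < c) (hr : 0 ≤ r)
    (hX : 0 < X) (hY : 0 < Y) (hXY : X ≤ 2 * Y) :
    A0 * r * (c ^ n)⁻¹ * (Y ^ n)⁻¹ ≤ (A0 * 2 ^ n * (c ^ n)⁻¹) * r * (X ^ n)⁻¹ := by
  have h5 : (Y ^ n)⁻¹ ≤ 2 ^ n * (X ^ n)⁻¹ := by
    have h6 : X ^ n ≤ 2 ^ n * Y ^ n := by
      rw [← mul_pow]
      exact pow_le_pow_left₀ hX.le hXY n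
    have h7 : 0 < Y ^ n := pow_pos hY n
    have h8 : 0 < X ^ n := pow_pos hX n
    rw [inv_le_iff_one_le_mul₀ h7]
    have h9 : 2 ^ n * (X ^ n)⁻¹ * Y ^ n = (2 ^ n * Y ^ n) * (X ^ n)⁻¹ := by
      ring
    rw [h9, ← div_eq_mul_inv, le_div_iff₀ h8, one_mul]
    exact h6
  have h6 : 0 ≤ A0 * r * (c ^ n)⁻¹ := by positivity
  calc A0 * r * (c ^ n)⁻¹ * (Y ^ n)⁻¹
      ≤ A0 * r * (c ^ n)⁻¹ * (2 ^ n * (X ^ n)⁻¹) := mul_le_mul_of_nonneg_left h5 h6
    _ = (A0 * 2 ^ n * (c ^ n)⁻¹) * r * (X ^ n)⁻¹ := by ring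

lemma u4_real_theta {c D R r X : ℝ} (hc : 0 < c) (hD : 0 < D) (hr : 0 ≤ r)
    (hcR : c * R = 8 * D) (hbig : R * (1 + r) ≤ X) :
    R * r ≤ X ∧ 4 * D * r ≤ c * X ∧ (8 ≤ R → ∀ Y : ℝ, X ≤ Y + r → X ≤ 2 * Y ∧ 4 * D * r ≤ c * Y) := by
  have hRpos : 0 < R := by
    by_contra h
    rw [not_lt] at h
    have : c * R ≤ 0 := mul_nonpos_of_nonneg_of_nonpos hc.le h
    linarith
  have hρx : R * r ≤ X := by
    have h13 : R * (1 + r) = R + R * r := by ring
    rw [h13] at hbig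
    linarith
  have h7 : c * (R * r) ≤ c * X := mul_le_mul_of_nonneg_left hρx hc.le
  have h8 : c * (R * r) = 2 * (4 * D * r) := by rw [← mul_assoc, hcR]; ring
  rw [h8] at h7
  have h12 : 0 ≤ 4 * D * r := by positivity
  refine ⟨hρx, by linarith, fun hR8 Y hXY ↦ ?_⟩
  have h8ρ : 8 * r ≤ R * r := mul_le_mul_of_nonneg_right hR8 hr
  have hxy : X ≤ 2 * Y := by linarith
  refine ⟨hxy, ?_⟩
  have h9 : c * X ≤ c * (2 * Y) := mul_le_mul_of_nonneg_left hxy hc.le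
  have h10 : c * (2 * Y) = 2 * (c * Y) := by ring
  rw [h10] at h9
  linarith

/-- **(U4)** the pointwise estimate: for points `x ≠ 0`, `x + ρ` at which the norm is `0` or
`≥ 1` (e.g. points of the lattice of an integral ideal), uniformly in `s ∈ [1, 2]`. -/
theorem czF_sub_le {φ0 : logSpace E → ℝ} {L R0 : ℝ} (hφ : CZBump φ0 L R0) :
    ∃ C : ℝ, 0 ≤ C ∧ ∀ s : ℝ, 1 ≤ s → s ≤ 2 → ∀ x ρ : mixedSpace E, x ≠ 0 →
      (mixedEmbedding.norm x = 0 ∨ 1 ≤ mixedEmbedding.norm x) →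
      (mixedEmbedding.norm (x + ρ) = 0 ∨ 1 ≤ mixedEmbedding.norm (x + ρ)) →
      |czF E φ0 s (x + ρ) - czF E φ0 s x| ≤
        C * (1 + ‖ρ‖) ^ (finrank ℚ E + 1) * (‖x‖ ^ (finrank ℚ E + 1))⁻¹ := by
  have hc := czCone_pos (E := E) R0
  have hd := czDeg_pos (E := E)
  have hA' : 0 ≤ 24 * L + 8 * czDeg E := by
    have := hφ.L_nonneg
    positivity
  have hd1 : (1 : ℝ) ≤ czDeg E := by
    unfold czDeg
    exact_mod_cast (finrank_pos : 0 < finrank ℚ E)
  have hc1 := czCone_le_one (E := E) hφ.R0_nonneg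
  have haux := fun (s : ℝ) (hs1 : 1 ≤ s) (hs2 : s ≤ 2) (x y : mixedSpace E) =>
    czF_sub_le_cone_aux (x := x) (y := y) hφ hs1 hs2
  obtain ⟨n, hn⟩ : ∃ n : ℕ, n = finrank ℚ E + 1 := ⟨_, rfl⟩
  obtain ⟨c, hcdef⟩ : ∃ c : ℝ, c = czCone E R0 := ⟨_, rfl⟩
  obtain ⟨D, hDdef⟩ : ∃ D : ℝ, D = czDeg E := ⟨_, rfl⟩
  rw [← hn]
  rw [← hcdef, ← hn, ← hDdef] at haux
  rw [← hcdef] at hc hc1
  rw [← hDdef] at hd hd1 hA'
  obtain ⟨A0, hA0def⟩ : ∃ A0 : ℝ, A0 = 24 * L + 8 * D := ⟨_, rfl⟩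
  rw [← hA0def] at haux hA'
  have hn1 : 1 ≤ n := by omega
  clear hn hcdef hDdef hA0def
  have hRpos : 0 < 8 * D / c := by positivity
  have hcR : c * (8 * D / c) = 8 * D := by field_simp
  have hR8 : 8 ≤ 8 * D / c := by
    rw [le_div_iff₀ hc]
    nlinarith
  have hA0 : 0 ≤ A0 * 2 ^ n * (c ^ n)⁻¹ := by positivity
  refine ⟨(8 * D / c) ^ n + A0 * 2 ^ n * (c ^ n)⁻¹, by positivity, ?_⟩
  intro s hs1 hs2 x ρ hx0 hNx hNxρ
  have hxpos : 0 < ‖x‖ := norm_pos_iff.mpr hx0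
  have hρ0 : 0 ≤ ‖ρ‖ := norm_nonneg ρ
  have htri : ‖x‖ ≤ ‖x + ρ‖ + ‖ρ‖ := by
    have := norm_sub_le (x + ρ) ρ
    rwa [add_sub_cancel_right] at this
  have h0x := czF_nonneg hφ s x
  have h0y := czF_nonneg hφ s (x + ρ)
  have h1x := czF_le_one hφ (by linarith : (0 : ℝ) ≤ s) hNx
  have h1y := czF_le_one hφ (by linarith : (0 : ℝ) ≤ s) hNxρ
  have hFx : ¬ (1 ≤ mixedEmbedding.norm x ∧ ‖logMap x‖ ≤ R0) → czF E φ0 s x = 0 := by
    intro hxc
    rcases hNx with h | h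
    · exact czF_of_norm_eq_zero _ _ h
    · refine czF_eq_zero_of_le_norm_logMap hφ s ?_
      by_contra hcon
      exact hxc ⟨h, (not_le.mp hcon).le⟩
  have hFy : ¬ (1 ≤ mixedEmbedding.norm (x + ρ) ∧ ‖logMap (x + ρ)‖ ≤ R0) →
      czF E φ0 s (x + ρ) = 0 := by
    intro hyc
    rcases hNxρ with h | h
    · exact czF_of_norm_eq_zero _ _ h
    · refine czF_eq_zero_of_le_norm_logMap hφ s ?_
      by_contra hcon
      exact hyc ⟨h, (not_le.mp hcon).le⟩
  have hauxx := haux s hs1 hs2 x (x + ρ)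
  have hauxy := haux s hs1 hs2 (x + ρ) x
  rw [add_sub_cancel_left] at hauxx
  rw [sub_add_cancel_left, norm_neg, abs_sub_comm] at hauxy
  clear haux
  generalize czF E φ0 s (x + ρ) = Fy at *
  generalize czF E φ0 s x = Fx at *
  generalize ‖x + ρ‖ = Y at *
  generalize ‖x‖ = X at *
  generalize ‖ρ‖ = r at *
  by_cases hsmall : X < 8 * D / c * (1 + r)
  · have h1 : |Fy - Fx| ≤ 1 := by
      rw [abs_le]; constructor <;> linarith
    exact h1.trans (u4_real_trivial n hRpos hA0 hρ0 hxpos hsmall)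
  · rw [not_lt] at hsmall
    obtain ⟨hρx, hθx, hθy⟩ := u4_real_theta hc hd hρ0 hcR hsmall
    by_cases hxc : 1 ≤ mixedEmbedding.norm x ∧ ‖logMap x‖ ≤ R0
    · have h1 := hauxx hxc.1 hxc.2 hθx
      exact u4_real_finish hn1 hRpos hA0 hρ0 hxpos
        (h1.trans (u4_real_cone_x n hA' hc hρ0 hxpos))
    · by_cases hyc : 1 ≤ mixedEmbedding.norm (x + ρ) ∧ ‖logMap (x + ρ)‖ ≤ R0
      · obtain ⟨hxy, hθ⟩ := hθy hR8 Y htri
        have hY : 0 < Y := by linarith
        have h1 := hauxy hyc.1 hyc.2 hθ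
        exact u4_real_finish hn1 hRpos hA0 hρ0 hxpos
          (h1.trans (u4_real_cone_y n hA' hc hρ0 hxpos hY hxy))
      · rw [hFx hxc, hFy hyc, sub_zero, abs_zero]
        positivity

end Fermat.Agent.S14CZ
end MergeWrap_S14_CZ_Pointwise

section MergeWrap_S14_CZ_LatticeCompare -- from S14/CZ/LatticeCompare.lean

/-!
# S14, analytic route: comparison of the smoothed sums over an ideal and over a sub-ideal (U5)
-/

set_option autoImplicit false

open NumberField NumberField.InfinitePlace NumberField.mixedEmbedding NumberField.Units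
  NumberField.Units.dirichletUnitTheorem Module

namespace Fermat.Agent.S14CZ

open Fermat.Agent.S14 (czF classZeta cutoff)

open scoped Classical

set_option linter.unusedSectionVars false

variable {E : Type*} [Field E] [NumberField E]

/-- The embedding of the ring of integers in the mixed space. -/
noncomputable def czIota (E : Type*) [Field E] [NumberField E] (a : 𝓞 E) : mixedSpace E :=
  mixedEmbedding E (a : E)

lemma czIota_add (a b : 𝓞 E) : czIota E (a + b) = czIota E a + czIota E b := by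
  unfold czIota
  rw [RingOfIntegers.coe_eq_algebraMap, RingOfIntegers.coe_eq_algebraMap,
    RingOfIntegers.coe_eq_algebraMap, map_add, map_add]

lemma czIota_zero : czIota E 0 = 0 := by
  unfold czIota
  rw [RingOfIntegers.coe_eq_algebraMap, map_zero, map_zero]

lemma czIota_injective : Function.Injective (czIota E) :=
  (mixedEmbedding_injective E).comp RingOfIntegers.coe_injective

lemma czIota_eq_zero_iff {a : 𝓞 E} : czIota E a = 0 ↔ a = 0 := by
  rw [← czIota_zero (E := E)]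
  exact czIota_injective.eq_iff

lemma czIota_mem_integerLattice (a : 𝓞 E) : czIota E a ∈ mixedEmbedding.integerLattice E :=
  ⟨a, rfl⟩

/-- The norm of a lattice point is `0` or at least `1`. -/
lemma czIota_norm (a : 𝓞 E) :
    mixedEmbedding.norm (czIota E a) = 0 ∨ 1 ≤ mixedEmbedding.norm (czIota E a) := by
  unfold czIota
  rw [mixedEmbedding.norm_eq_norm, ← Algebra.coe_norm_int]
  by_cases h : Algebra.norm ℤ a = 0
  · left; simp [h]
  · right
    have h1 : (1 : ℤ) ≤ |Algebra.norm ℤ a| := Int.one_le_abs h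
    have h2 : ((1 : ℤ) : ℝ) ≤ ((|Algebra.norm ℤ a| : ℤ) : ℝ) := Int.cast_le.mpr h1
    simpa using h2

/-- Summability of `‖x‖ ^ (-(d+1))` over the lattice points. -/
lemma summable_czIota_inv_pow :
    Summable fun a : 𝓞 E ↦ (‖czIota E a‖ ^ (finrank ℚ E + 1))⁻¹ := by
  have hrank : finrank ℤ (mixedEmbedding.integerLattice E) < finrank ℚ E + 1 := by
    rw [ZLattice.rank ℝ, mixedEmbedding.finrank]
    exact Nat.lt_succ_self _
  have h := ZLattice.summable_norm_pow_inv (L := mixedEmbedding.integerLattice E)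
    (finrank ℚ E + 1) hrank
  have hinj : Function.Injective
      (fun a : 𝓞 E ↦ (⟨czIota E a, czIota_mem_integerLattice a⟩ :
        mixedEmbedding.integerLattice E)) := by
    intro a b hab
    exact czIota_injective (Subtype.ext_iff.mp hab)
  refine (h.comp_injective hinj).congr fun a ↦ ?_
  simp only [Function.comp_apply, inv_pow]
  rfl


/-- The term of the smoothed lattice sum. -/
noncomputable def czTerm (φ0 : logSpace E → ℝ) (s : ℝ) (a : 𝓞 E) : ℝ :=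
  czF E φ0 s (czIota E a)

lemma czTerm_zero (φ0 : logSpace E → ℝ) (s : ℝ) : czTerm φ0 s (0 : 𝓞 E) = 0 := by
  unfold czTerm
  rw [czIota_zero]
  exact czF_of_norm_eq_zero _ _ (map_zero _)

lemma czTerm_nonneg {φ0 : logSpace E → ℝ} {L R0 : ℝ} (hφ : CZBump φ0 L R0) (s : ℝ) (a : 𝓞 E) :
    0 ≤ czTerm φ0 s a := czF_nonneg hφ s _

lemma czTerm_le_one {φ0 : logSpace E → ℝ} {L R0 : ℝ} (hφ : CZBump φ0 L R0) {s : ℝ}
    (hs : 0 ≤ s) (a : 𝓞 E) : czTerm φ0 s a ≤ 1 := czF_le_one hφ hs (czIota_norm a)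

/-- The majorant on the sublattice. -/
noncomputable def czMaj (E : Type*) [Field E] [NumberField E] (a : 𝓞 E) : ℝ :=
  (if a = 0 then 1 else 0) + (‖czIota E a‖ ^ (finrank ℚ E + 1))⁻¹

lemma summable_czMaj : Summable (czMaj E) := by
  unfold czMaj
  refine Summable.add ?_ summable_czIota_inv_pow
  refine summable_of_ne_finset_zero (s := {0}) fun a ha ↦ ?_
  rw [Finset.mem_singleton] at ha
  rw [if_neg ha]

/-- **Pointwise comparison on lattice points.** -/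
lemma czTerm_sub_le {φ0 : logSpace E → ℝ} {L R0 : ℝ} (hφ : CZBump φ0 L R0) :
    ∃ C : ℝ, 0 ≤ C ∧ ∀ s : ℝ, 1 ≤ s → s ≤ 2 → ∀ ρ a : 𝓞 E,
      |czTerm φ0 s (ρ + a) - czTerm φ0 s a| ≤
        (1 + C * (1 + ‖czIota E ρ‖) ^ (finrank ℚ E + 1)) * czMaj E a := by
  obtain ⟨C, hC0, hC⟩ := czF_sub_le (E := E) hφ
  refine ⟨C, hC0, fun s hs1 hs2 ρ a ↦ ?_⟩
  have hK : 0 ≤ C * (1 + ‖czIota E ρ‖) ^ (finrank ℚ E + 1) := by positivity
  by_cases ha : a = 0
  · subst ha
    rw [add_zero, czTerm_zero, sub_zero, abs_of_nonneg (czTerm_nonneg hφ s ρ)]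
    unfold czMaj
    rw [if_pos rfl]
    have h1 := czTerm_le_one hφ (by linarith : (0 : ℝ) ≤ s) ρ
    have h2 : 0 ≤ (‖czIota E (0 : 𝓞 E)‖ ^ (finrank ℚ E + 1))⁻¹ := by positivity
    nlinarith
  · have hx0 : czIota E a ≠ 0 := fun h ↦ ha (czIota_eq_zero_iff.mp h)
    have h1 := hC s hs1 hs2 (czIota E a) (czIota E ρ) hx0 (czIota_norm a)
      (by rw [← czIota_add]; exact czIota_norm _)
    unfold czTerm
    rw [add_comm ρ a, czIota_add]
    refine h1.trans ?_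
    unfold czMaj
    rw [if_neg ha, zero_add]
    have h2 : 0 ≤ (‖czIota E a‖ ^ (finrank ℚ E + 1))⁻¹ := by positivity
    nlinarith


/-- The smoothed sum over the elements of an ideal. -/
noncomputable def czSum (φ0 : logSpace E → ℝ) (s : ℝ) (J : Ideal (𝓞 E)) : ℝ :=
  ∑' γ : J, czTerm φ0 s (γ : 𝓞 E)

/-- **(U5)** comparison of the smoothed sums over an ideal `J` and a sub-ideal `J'`:
`∑_J F_s - [J : J'] ∑_{J'} F_s` is bounded on `[1, 2]` (where the sums converge). -/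
theorem czSum_compare {φ0 : logSpace E → ℝ} {L R0 : ℝ} (hφ : CZBump φ0 L R0)
    (J J' : Ideal (𝓞 E)) (hJ' : J' ≠ ⊥) (hle : J' ≤ J) :
    ∃ B : ℝ, ∀ s : ℝ, 1 ≤ s → s ≤ 2 → Summable (fun γ : J ↦ czTerm φ0 s (γ : 𝓞 E)) →
      |czSum φ0 s J - (J'.toAddSubgroup.relIndex J.toAddSubgroup : ℝ) * czSum φ0 s J'| ≤ B := by
  obtain ⟨C, hC0, hC⟩ := czTerm_sub_le (E := E) hφ
  -- the groups
  set K : AddSubgroup (𝓞 E) := J.toAddSubgroup with hKdef
  set H : AddSubgroup K := J'.toAddSubgroup.addSubgroupOf K with hHdef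
  have hHK : J'.toAddSubgroup ≤ K := hle
  have hidx : H.index ≠ 0 := by
    intro h0
    have h1 := AddSubgroup.relIndex_mul_index hHK
    rw [AddSubgroup.relIndex, ← hHdef, h0, zero_mul] at h1
    have h2 : Ideal.absNorm J' = 0 := by
      rw [Ideal.absNorm_apply, Submodule.cardQuot_apply]
      exact h1.symm
    exact hJ' (Ideal.absNorm_eq_zero_iff.mp h2)
  letI : Fintype (K ⧸ H) := AddSubgroup.fintypeOfIndexNeZero hidx
  have hcard : (Fintype.card (K ⧸ H) : ℝ) = (J'.toAddSubgroup.relIndex J.toAddSubgroup : ℝ) := by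
    rw [AddSubgroup.relIndex, ← hKdef, ← hHdef, AddSubgroup.index, Nat.card_eq_fintype_card]
  -- the majorant
  have hg : Summable fun h : H ↦ czMaj E ((h : K) : 𝓞 E) := by
    refine (summable_czMaj (E := E)).comp_injective ?_
    intro a b hab
    exact Subtype.ext (Subtype.ext hab)
  refine ⟨(∑ q : K ⧸ H, (1 + C * (1 + ‖czIota E ((Quotient.out q : K) : 𝓞 E)‖) ^
    (finrank ℚ E + 1))) * ∑' h : H, czMaj E ((h : K) : 𝓞 E), fun s hs1 hs2 hsum ↦ ?_⟩
  have hf : Summable fun a : K ↦ czTerm φ0 s (a : 𝓞 E) := hsum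
  have key := abs_tsum_sub_card_mul_tsum_le H (fun a : K ↦ czTerm φ0 s (a : 𝓞 E))
    (fun h : H ↦ czMaj E ((h : K) : 𝓞 E))
    (fun q ↦ 1 + C * (1 + ‖czIota E ((Quotient.out q : K) : 𝓞 E)‖) ^ (finrank ℚ E + 1))
    hf hg (fun q h ↦ by
      have := hC s hs1 hs2 ((Quotient.out q : K) : 𝓞 E) ((h : K) : 𝓞 E)
      simpa using this)
  rw [hcard] at key
  have e1 : czSum φ0 s J = ∑' a : K, czTerm φ0 s (a : 𝓞 E) := rfl
  have e2 : czSum φ0 s J' = ∑' h : H, czTerm φ0 s ((h : K) : 𝓞 E) := by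
    unfold czSum
    let e : H ≃ J' :=
      { toFun := fun h ↦ ⟨((h : K) : 𝓞 E), h.2⟩
        invFun := fun γ ↦ ⟨⟨(γ : 𝓞 E), hle γ.2⟩, γ.2⟩
        left_inv := fun h ↦ rfl
        right_inv := fun γ ↦ rfl }
    exact (e.tsum_eq (fun γ : J' ↦ czTerm φ0 s (γ : 𝓞 E))).symm
  rw [e1, e2]
  exact key

end Fermat.Agent.S14CZ
end MergeWrap_S14_CZ_LatticeCompare

section MergeWrap_F4_Ray_PredLattice -- from F4/Ray/PredLattice.lean

/-!
# F4 / GLOB: the smoothed sum over the elements of an ideal `J` prime to `m` satisfying a condition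
modulo `m`, compared with the smoothed sum over `J * m`
-/

set_option autoImplicit false
set_option linter.unusedSectionVars false

open NumberField NumberField.InfinitePlace NumberField.mixedEmbedding NumberField.Units
  NumberField.Units.dirichletUnitTheorem Module

namespace Fermat.Agent.F4Ray

open Fermat.Agent.S14 (czF cutoff)
open Fermat.Agent.S14CZ

open scoped Classical

variable {E : Type*} [Field E] [NumberField E]

/-- The number of residue classes modulo `m` whose representative satisfies `P`. -/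
noncomputable def rayCount (m : Ideal (𝓞 E)) (P : 𝓞 E → Prop) : ℕ :=
  Nat.card {r : 𝓞 E ⧸ m // P (Quotient.out r)}

/-- **Comparison with a condition modulo `m`.** -/
theorem predSum_compare {φ0 : logSpace E → ℝ} {L R0 : ℝ} (hφ : CZBump φ0 L R0)
    (J m : Ideal (𝓞 E)) (hm : m ≠ ⊥) (hJm : J ⊔ m = ⊤) (P : 𝓞 E → Prop)
    (hP : ∀ γ μ : 𝓞 E, μ ∈ m → (P (γ + μ) ↔ P γ)) :
    ∃ B : ℝ, ∀ s : ℝ, 1 ≤ s → s ≤ 2 → Summable (fun γ : J ↦ czTerm φ0 s (γ : 𝓞 E)) →
      |∑' γ : J, (if P (γ : 𝓞 E) then czTerm φ0 s (γ : 𝓞 E) else 0) -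
        (rayCount m P : ℝ) * czSum φ0 s (J * m)| ≤ B := by
  obtain ⟨C, hC0, hC⟩ := czTerm_sub_le (E := E) hφ
  have hP' : ∀ γ γ' : 𝓞 E, γ' - γ ∈ m → (P γ' ↔ P γ) := fun γ γ' hsub ↦ by
    have : γ' = γ + (γ' - γ) := by ring
    rw [this]
    exact hP _ _ hsub
  -- the groups
  set K : AddSubgroup (𝓞 E) := J.toAddSubgroup with hKdef
  set φ : K →+ 𝓞 E ⧸ m := (Ideal.Quotient.mk m).toAddMonoidHom.comp K.subtype with hφdef
  have hφa : ∀ a : K, φ a = Ideal.Quotient.mk m (a : 𝓞 E) := fun a ↦ rfl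
  set H : AddSubgroup K := φ.ker with hHdef
  have hmemH : ∀ a : K, a ∈ H ↔ (a : 𝓞 E) ∈ m := fun a ↦ by
    rw [hHdef, AddMonoidHom.mem_ker, hφa, Ideal.Quotient.eq_zero_iff_mem]
  have hsurj : Function.Surjective φ := by
    intro r
    obtain ⟨x, rfl⟩ := Ideal.Quotient.mk_surjective r
    have h1 : x ∈ J ⊔ m := by rw [hJm]; trivial
    obtain ⟨j, hj, μ, hμ, hjμ⟩ := Submodule.mem_sup.mp h1
    refine ⟨⟨j, hj⟩, ?_⟩
    rw [hφa, Ideal.Quotient.eq, ← hjμ]
    simpa using neg_mem hμ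
  let e : K ⧸ H ≃+ 𝓞 E ⧸ m := QuotientAddGroup.quotientKerEquivOfSurjective φ hsurj
  have he : ∀ a : K, e (a : K ⧸ H) = Ideal.Quotient.mk m (a : 𝓞 E) := fun a ↦ rfl
  have : Finite (𝓞 E ⧸ m) := Ideal.finiteQuotientOfFreeOfNeBot m hm
  let _i1 : Fintype (𝓞 E ⧸ m) := Fintype.ofFinite _
  let _i2 : Fintype (K ⧸ H) := Fintype.ofEquiv _ e.symm.toEquiv
  -- the weights
  obtain ⟨c, hcdef⟩ : ∃ c : K ⧸ H → ℝ,
      ∀ q, c q = if P ((Quotient.out q : K) : 𝓞 E) then 1 else 0 := ⟨_, fun _ ↦ rfl⟩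
  have hc1 : ∀ q, |c q| ≤ 1 := fun q ↦ by
    rw [hcdef]
    split_ifs <;> simp
  have houtK : ∀ a : K, ((Quotient.out (a : K ⧸ H) : K) : 𝓞 E) - (a : 𝓞 E) ∈ m := fun a ↦ by
    have h1 : ((Quotient.out (a : K ⧸ H) : K) : K ⧸ H) = (a : K ⧸ H) := Quotient.out_eq' _
    have h2 : -a + (Quotient.out (a : K ⧸ H) : K) ∈ H := by
      rw [← QuotientAddGroup.eq]
      exact h1.symm
    have h3 := (hmemH _).mp h2
    have : ((Quotient.out (a : K ⧸ H) : K) : 𝓞 E) - (a : 𝓞 E) =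
        ((-a + (Quotient.out (a : K ⧸ H) : K) : K) : 𝓞 E) := by
      push_cast; ring
    rw [this]
    exact h3
  have hcmk : ∀ a : K, c (a : K ⧸ H) = if P (a : 𝓞 E) then 1 else 0 := fun a ↦ by
    rw [hcdef, hP' _ _ (houtK a)]
  -- the count
  have hcount : ∑ q, c q = (rayCount m P : ℝ) := by
    have h1 : ∑ q, c q = ∑ q : K ⧸ H, if P ((Quotient.out q : K) : 𝓞 E) then (1 : ℝ) else 0 :=
      Finset.sum_congr rfl fun q _ ↦ hcdef q
    rw [h1, Finset.sum_boole, rayCount]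
    congr 1
    rw [← Fintype.card_subtype, ← Nat.card_eq_fintype_card]
    refine Nat.card_congr (e.toEquiv.subtypeEquiv fun q ↦ ?_)
    refine (hP' _ _ ?_).symm
    rw [← Ideal.Quotient.eq]
    have h2 : Ideal.Quotient.mk m (Quotient.out (e.toEquiv q)) = e q := Quotient.out_eq' _
    rw [h2, ← he, show ((Quotient.out q : K) : K ⧸ H) = q from Quotient.out_eq' _]
  -- the majorant
  have hg : Summable fun h : H ↦ czMaj E ((h : K) : 𝓞 E) := by
    refine (summable_czMaj (E := E)).comp_injective ?_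
    intro a b hab
    exact Subtype.ext (Subtype.ext hab)
  refine ⟨(∑ q : K ⧸ H, (1 + C * (1 + ‖czIota E ((Quotient.out q : K) : 𝓞 E)‖) ^
    (finrank ℚ E + 1))) * ∑' h : H, czMaj E ((h : K) : 𝓞 E), fun s hs1 hs2 hsum ↦ ?_⟩
  have hf : Summable fun a : K ↦ czTerm φ0 s (a : 𝓞 E) := hsum
  have key := abs_tsum_weight_sub_le H (fun a : K ↦ czTerm φ0 s (a : 𝓞 E))
    (fun h : H ↦ czMaj E ((h : K) : 𝓞 E))
    (fun q ↦ 1 + C * (1 + ‖czIota E ((Quotient.out q : K) : 𝓞 E)‖) ^ (finrank ℚ E + 1))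
    c hc1 hf hg (fun q h ↦ by
      have := hC s hs1 hs2 ((Quotient.out q : K) : 𝓞 E) ((h : K) : 𝓞 E)
      simpa using this)
  rw [hcount] at key
  have e1 : ∑' γ : J, (if P (γ : 𝓞 E) then czTerm φ0 s (γ : 𝓞 E) else 0) =
      ∑' a : K, c (a : K ⧸ H) * czTerm φ0 s (a : 𝓞 E) := by
    refine tsum_congr fun a ↦ ?_
    rw [hcmk]
    split_ifs <;> simp
  have hJm' : J * m = J ⊓ m :=
    Ideal.mul_eq_inf_of_isCoprime ((Ideal.isCoprime_iff_sup_eq).mpr hJm)
  have e2 : czSum φ0 s (J * m) = ∑' h : H, czTerm φ0 s ((h : K) : 𝓞 E) := by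
    unfold czSum
    let e' : H ≃ ↥(J * m) :=
      { toFun := fun h ↦ ⟨((h : K) : 𝓞 E), by
          rw [hJm']; exact ⟨(h : K).2, (hmemH _).mp h.2⟩⟩
        invFun := fun γ ↦ ⟨⟨(γ : 𝓞 E), (Ideal.mul_le_left : J * m ≤ J) γ.2⟩,
          (hmemH _).mpr ((Ideal.mul_le_right : J * m ≤ m) γ.2)⟩
        left_inv := fun h ↦ rfl
        right_inv := fun γ ↦ rfl }
    exact (e'.tsum_eq (fun γ : ↥(J * m) ↦ czTerm φ0 s (γ : 𝓞 E))).symm
  rw [e1, e2]
  exact key

end Fermat.Agent.F4Ray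
end MergeWrap_F4_Ray_PredLattice

section MergeWrap_S14_ClassZeta_Tent -- from S14/ClassZeta/Tent.lean

/-!
# (U1) The tent partition of unity
-/

set_option autoImplicit false

namespace Fermat.Agent.S14

lemma tent_nonneg (t : ℝ) : 0 ≤ tent t := le_max_left _ _

lemma tent_le_one (t : ℝ) : tent t ≤ 1 :=
  max_le zero_le_one (by linarith [abs_nonneg t])

lemma tent_eq_zero_of_one_le_abs {t : ℝ} (h : 1 ≤ |t|) : tent t = 0 :=
  max_eq_left (by linarith)

lemma tent_of_abs_le_one {t : ℝ} (h : |t| ≤ 1) : tent t = 1 - |t| :=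
  max_eq_right (by linarith)

lemma tent_ne_zero_imp {t : ℝ} (h : tent t ≠ 0) : |t| < 1 := by
  by_contra hcon
  exact h (tent_eq_zero_of_one_le_abs (not_lt.mp hcon))

lemma tent_lipschitz : LipschitzWith 1 tent := by
  have h1 : LipschitzWith 1 (fun t : ℝ => 1 - |t|) := by
    refine LipschitzWith.of_dist_le_mul fun x y => ?_
    simp only [NNReal.coe_one, one_mul, Real.dist_eq]
    have := abs_abs_sub_abs_le_abs_sub x y
    calc |1 - |x| - (1 - |y|)| = |(|x| - |y|)| := by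
          rw [show 1 - |x| - (1 - |y|) = -(|x| - |y|) by ring, abs_neg]
      _ ≤ |x - y| := abs_abs_sub_abs_le_abs_sub x y
  exact (LipschitzWith.const_max h1 0)

lemma abs_tent_sub_le (t t' : ℝ) : |tent t - tent t'| ≤ |t - t'| := by
  have := tent_lipschitz.dist_le_mul t t'
  simpa [Real.dist_eq] using this

lemma tent_add_floor_pair (c : ℝ) :
    tent (c + ((-⌊c⌋ : ℤ) : ℝ)) + tent (c + ((-⌊c⌋ - 1 : ℤ) : ℝ)) = 1 := by
  have h0 := Int.fract_nonneg c
  have h1 := Int.fract_lt_one c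
  have e1 : c + ((-⌊c⌋ : ℤ) : ℝ) = Int.fract c := by
    rw [Int.fract]; push_cast; ring
  have e2 : c + ((-⌊c⌋ - 1 : ℤ) : ℝ) = Int.fract c - 1 := by
    rw [Int.fract]; push_cast; ring
  rw [e1, e2, tent_of_abs_le_one, tent_of_abs_le_one]
  · rw [abs_of_nonneg h0, abs_of_nonpos (by linarith)]; ring
  · rw [abs_of_nonpos (by linarith)]; linarith
  · rw [abs_of_nonneg h0]; linarith

lemma tent_add_int_eq_zero {c : ℝ} {n : ℤ} (h1 : n ≠ -⌊c⌋) (h2 : n ≠ -⌊c⌋ - 1) :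
    tent (c + (n : ℝ)) = 0 := by
  apply tent_eq_zero_of_one_le_abs
  have h0 := Int.fract_nonneg c
  have h1' := Int.fract_lt_one c
  have e : c + (n : ℝ) = Int.fract c + ((⌊c⌋ + n : ℤ) : ℝ) := by
    rw [Int.fract]; push_cast; ring
  rw [e]
  rcases lt_or_gt_of_ne (show ⌊c⌋ + n ≠ 0 by omega) with h | h
  · have h3 : ⌊c⌋ + n ≤ -2 := by omega
    have : ((⌊c⌋ + n : ℤ) : ℝ) ≤ -2 := by exact_mod_cast h3
    rw [abs_of_nonpos (by linarith)]; linarith
  · have h3 : 1 ≤ ⌊c⌋ + n := by omega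
    have : (1 : ℝ) ≤ ((⌊c⌋ + n : ℤ) : ℝ) := by exact_mod_cast h3
    rw [abs_of_nonneg (by linarith)]; linarith

lemma tentProd_nonneg {ι : Type*} [Fintype ι] (c : ι → ℝ) : 0 ≤ tentProd c :=
  Finset.prod_nonneg fun i _ => tent_nonneg (c i)

lemma tentProd_le_one {ι : Type*} [Fintype ι] (c : ι → ℝ) : tentProd c ≤ 1 :=
  Finset.prod_le_one (fun i _ => tent_nonneg (c i)) fun i _ => tent_le_one (c i)

lemma tentProd_eq_zero_of_one_le_abs {ι : Type*} [Fintype ι] (c : ι → ℝ) (i : ι)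
    (h : 1 ≤ |c i|) : tentProd c = 0 :=
  Finset.prod_eq_zero (Finset.mem_univ i) (tent_eq_zero_of_one_le_abs h)

/-- **(U1)** the integer translates of `tentProd` form a partition of unity. -/
theorem hasSum_tentProd {ι : Type*} [Fintype ι] (c : ι → ℝ) :
    HasSum (fun n : ι → ℤ => tentProd (fun i => c i + (n i : ℝ))) 1 := by
  classical
  let S : ι → Finset ℤ := fun i => {-⌊c i⌋, -⌊c i⌋ - 1}
  have hsum : ∑ n ∈ Fintype.piFinset S, tentProd (fun i => c i + (n i : ℝ)) = 1 := by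
    unfold tentProd
    rw [← Finset.prod_univ_sum S (fun i j => tent (c i + (j : ℝ)))]
    refine Finset.prod_eq_one fun i _ => ?_
    have hne : (-⌊c i⌋ : ℤ) ≠ -⌊c i⌋ - 1 := by omega
    simp only [S]
    rw [Finset.sum_pair hne]
    exact tent_add_floor_pair (c i)
  rw [← hsum]
  refine hasSum_sum_of_ne_finset_zero fun n hn => ?_
  rw [Fintype.mem_piFinset] at hn
  push Not at hn
  obtain ⟨i, hi⟩ := hn
  simp only [S, Finset.mem_insert, Finset.mem_singleton, not_or] at hi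
  exact Finset.prod_eq_zero (Finset.mem_univ i) (tent_add_int_eq_zero hi.1 hi.2)

theorem tentPartition : TentPartition := fun _ _ c => hasSum_tentProd c

/-- `tentProd` is Lipschitz for the sup norm, with constant the number of coordinates. -/
lemma abs_tentProd_sub_le {ι : Type*} [Fintype ι] (c c' : ι → ℝ) :
    |tentProd c - tentProd c'| ≤ ∑ i, |c i - c' i| := by
  classical
  unfold tentProd
  have key : ∀ s : Finset ι, |∏ i ∈ s, tent (c i) - ∏ i ∈ s, tent (c' i)| ≤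
      ∑ i ∈ s, |c i - c' i| := by
    intro s
    induction s using Finset.induction_on with
    | empty => simp
    | insert a s ha ih =>
      rw [Finset.prod_insert ha, Finset.prod_insert ha, Finset.sum_insert ha]
      have hP : |∏ i ∈ s, tent (c i)| ≤ 1 := by
        rw [abs_of_nonneg (Finset.prod_nonneg fun i _ => tent_nonneg _)]
        exact Finset.prod_le_one (fun i _ => tent_nonneg _) fun i _ => tent_le_one _
      have hT : |tent (c' a)| ≤ 1 := by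
        rw [abs_of_nonneg (tent_nonneg _)]; exact tent_le_one _
      have e : tent (c a) * ∏ i ∈ s, tent (c i) - tent (c' a) * ∏ i ∈ s, tent (c' i) =
          (tent (c a) - tent (c' a)) * ∏ i ∈ s, tent (c i) +
            tent (c' a) * (∏ i ∈ s, tent (c i) - ∏ i ∈ s, tent (c' i)) := by ring
      rw [e]
      refine (abs_add_le _ _).trans (add_le_add ?_ ?_)
      · rw [abs_mul]
        calc |tent (c a) - tent (c' a)| * |∏ i ∈ s, tent (c i)|
            ≤ |tent (c a) - tent (c' a)| * 1 :=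
              mul_le_mul_of_nonneg_left hP (abs_nonneg _)
          _ ≤ |c a - c' a| := by rw [mul_one]; exact abs_tent_sub_le _ _
      · rw [abs_mul]
        calc |tent (c' a)| * |∏ i ∈ s, tent (c i) - ∏ i ∈ s, tent (c' i)|
            ≤ 1 * |∏ i ∈ s, tent (c i) - ∏ i ∈ s, tent (c' i)| :=
              mul_le_mul_of_nonneg_right hT (abs_nonneg _)
          _ ≤ ∑ i ∈ s, |c i - c' i| := by rw [one_mul]; exact ih
  exact key Finset.univ

end Fermat.Agent.S14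
end MergeWrap_S14_ClassZeta_Tent

section MergeWrap_S14_ClassZeta_Cutoff -- from S14/ClassZeta/Cutoff.lean

/-!
# (U2) The cut-off function on the logarithmic space
-/

set_option autoImplicit false

open NumberField NumberField.mixedEmbedding NumberField.Units
  NumberField.Units.dirichletUnitTheorem
open scoped nonZeroDivisors Classical

namespace Fermat.Agent.S14

variable (E : Type*) [Field E] [NumberField E]

/-- The real basis of the logarithmic space given by the basis of the unit lattice. -/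
noncomputable def logBasis : Module.Basis (Fin (rank E)) ℝ (logSpace E) :=
  (basisUnitLattice E).ofZLatticeBasis ℝ _

lemma cutoff_eq (y : logSpace E) :
    cutoff E y = tentProd (fun i => (logBasis E).repr y i) := rfl

lemma logBasis_apply (i : Fin (rank E)) :
    logBasis E i = (basisUnitLattice E i : logSpace E) := by
  unfold logBasis
  exact Module.Basis.ofZLatticeBasis_apply ℝ _ _ i

lemma cutoff_nonneg (y : logSpace E) : 0 ≤ cutoff E y := tentProd_nonneg _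

lemma cutoff_le_one (y : logSpace E) : cutoff E y ≤ 1 := tentProd_le_one _

/-- The `i`-th coordinate as a continuous linear functional. -/
noncomputable def logCoord (i : Fin (rank E)) : logSpace E →L[ℝ] ℝ :=
  LinearMap.toContinuousLinearMap ((logBasis E).coord i)

lemma logCoord_apply (i : Fin (rank E)) (y : logSpace E) :
    logCoord E i y = (logBasis E).repr y i := rfl

lemma abs_cutoff_sub_le (y y' : logSpace E) :
    |cutoff E y - cutoff E y'| ≤ (∑ i, ‖logCoord E i‖) * ‖y - y'‖ := by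
  rw [cutoff_eq, cutoff_eq]
  refine (abs_tentProd_sub_le _ _).trans ?_
  rw [Finset.sum_mul]
  refine Finset.sum_le_sum fun i _ => ?_
  have := (logCoord E i).le_opNorm (y - y')
  rw [map_sub, logCoord_apply, logCoord_apply, Real.norm_eq_abs] at this
  exact this

lemma cutoff_lipschitz : ∃ L : NNReal, LipschitzWith L (cutoff E) := by
  refine ⟨⟨∑ i, ‖logCoord E i‖, Finset.sum_nonneg fun i _ => norm_nonneg _⟩, ?_⟩
  refine LipschitzWith.of_dist_le_mul fun y y' => ?_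
  rw [Real.dist_eq, dist_eq_norm]
  exact abs_cutoff_sub_le E y y'

lemma cutoff_eq_zero_of_le (y : logSpace E) (h : (∑ i, ‖logBasis E i‖) + 1 ≤ ‖y‖) :
    cutoff E y = 0 := by
  by_contra hne
  have hlt : ∀ i, |(logBasis E).repr y i| < 1 := by
    intro i
    by_contra hcon
    exact hne (tentProd_eq_zero_of_one_le_abs _ i (not_lt.mp hcon))
  have hy : y = ∑ i, (logBasis E).repr y i • logBasis E i := ((logBasis E).sum_repr y).symm
  have : ‖y‖ ≤ ∑ i, ‖logBasis E i‖ := by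
    conv_lhs => rw [hy]
    refine (norm_sum_le _ _).trans (Finset.sum_le_sum fun i _ => ?_)
    rw [_root_.norm_smul, Real.norm_eq_abs]
    calc |(logBasis E).repr y i| * ‖logBasis E i‖ ≤ 1 * ‖logBasis E i‖ :=
          mul_le_mul_of_nonneg_right (hlt i).le (norm_nonneg _)
      _ = ‖logBasis E i‖ := one_mul _
  linarith

/-- **(U2a)** -/
theorem cutoffProps : CutoffProps := fun E _ _ =>
  ⟨fun y => ⟨cutoff_nonneg E y, cutoff_le_one E y⟩, cutoff_lipschitz E,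
    ⟨_, fun y hy => cutoff_eq_zero_of_le E y hy⟩⟩

/-- The logarithmic embedding of a unit written in terms of the fundamental system. -/
lemma logEmbedding_mul_prod (ζ : torsion E) (n : Fin (rank E) → ℤ) :
    logEmbedding E (Additive.ofMul ((ζ : (𝓞 E)ˣ) * ∏ i, (fundSystem E i) ^ (n i))) =
      ∑ i, (n i : ℝ) • logBasis E i := by
  rw [ofMul_mul, map_add, logEmbedding_eq_zero_iff.mpr ζ.2, zero_add, ofMul_prod, map_sum]
  refine Finset.sum_congr rfl fun i _ => ?_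
  rw [ofMul_zpow, map_zsmul, logEmbedding_fundSystem, logBasis_apply]
  exact (Int.cast_smul_eq_zsmul ℝ (n i) _).symm

lemma logBasis_repr_logEmbedding_add (ζ : torsion E) (n : Fin (rank E) → ℤ) (y : logSpace E)
    (i : Fin (rank E)) :
    (logBasis E).repr
      (logEmbedding E (Additive.ofMul ((ζ : (𝓞 E)ˣ) * ∏ i, (fundSystem E i) ^ (n i))) + y) i =
      (logBasis E).repr y i + (n i : ℝ) := by
  rw [logEmbedding_mul_prod, map_add, Finsupp.add_apply, (logBasis E).repr_sum_self]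
  ring

/-- The Dirichlet decomposition of the units as a bijection. -/
noncomputable def unitsEquivProd : torsion E × (Fin (rank E) → ℤ) ≃ (𝓞 E)ˣ :=
  Equiv.ofBijective (fun ζe => (ζe.1 : (𝓞 E)ˣ) * ∏ i, (fundSystem E i) ^ (ζe.2 i)) <| by
    constructor
    · intro a b hab
      obtain ⟨c, -, hc⟩ := exist_unique_eq_mul_prod E
        ((a.1 : (𝓞 E)ˣ) * ∏ i, (fundSystem E i) ^ (a.2 i))
      rw [hc a rfl, hc b hab]
    · intro u
      obtain ⟨c, hc, -⟩ := exist_unique_eq_mul_prod E u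
      exact ⟨c, hc.symm⟩

lemma unitsEquivProd_apply (ζe : torsion E × (Fin (rank E) → ℤ)) :
    unitsEquivProd E ζe = (ζe.1 : (𝓞 E)ˣ) * ∏ i, (fundSystem E i) ^ (ζe.2 i) := rfl

/-- **(U2b)** the translates of the cut-off by the logarithms of all units sum to the number
of roots of unity. -/
lemma hasSum_const_mul_prod {α β : Type*} [Fintype α] (g : β → ℝ) (hg0 : ∀ b, 0 ≤ g b)
    {t : ℝ} (hg : HasSum g t) :
    HasSum (fun x : α × β => (1 : ℝ) * g x.2) ((Fintype.card α : ℝ) * t) := by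
  have h1 : HasSum (fun _ : α => (1 : ℝ)) (Fintype.card α : ℝ) := by
    have := hasSum_fintype (fun _ : α => (1 : ℝ))
    simpa using this
  exact HasSum.mul (f := fun _ : α => (1 : ℝ)) (g := g) h1 hg
    (Summable.mul_of_nonneg h1.summable hg.summable (fun _ => zero_le_one) hg0)

lemma hasSum_prod_tentProd (c : Fin (rank E) → ℝ) :
    HasSum (fun x : torsion E × (Fin (rank E) → ℤ) =>
        (1 : ℝ) * tentProd (fun i => c i + ((x.2 i : ℤ) : ℝ))) (torsionOrder E : ℝ) := by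
  have : Fintype (torsion E) := Fintype.ofFinite _
  have h := hasSum_const_mul_prod (α := torsion E) (fun n : Fin (rank E) → ℤ =>
    tentProd (fun i => c i + ((n i : ℤ) : ℝ))) (fun _ => tentProd_nonneg _) (hasSum_tentProd c)
  rw [mul_one] at h
  have e : (Fintype.card (torsion E) : ℝ) = (torsionOrder E : ℝ) := by
    rw [torsionOrder, Nat.card_eq_fintype_card]
  rw [e] at h
  exact h

lemma cutoff_comp_unitsEquivProd (y : logSpace E) :
    ((fun u : (𝓞 E)ˣ => cutoff E (logEmbedding E (Additive.ofMul u) + y)) ∘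
      (unitsEquivProd E)) =
      fun x : torsion E × (Fin (rank E) → ℤ) =>
        (1 : ℝ) * tentProd (fun i => (logBasis E).repr y i + ((x.2 i : ℤ) : ℝ)) := by
  funext ζe
  rw [one_mul, Function.comp_apply, unitsEquivProd_apply, cutoff_eq]
  congr 1
  funext i
  exact logBasis_repr_logEmbedding_add E ζe.1 ζe.2 y i

theorem hasSum_cutoff_units (y : logSpace E) :
    HasSum (fun u : (𝓞 E)ˣ => cutoff E (logEmbedding E (Additive.ofMul u) + y))
      (torsionOrder E : ℝ) := by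
  refine ((unitsEquivProd E).hasSum_iff).mp ?_
  rw [cutoff_comp_unitsEquivProd]
  exact hasSum_prod_tentProd E _

theorem cutoffUnitSum : CutoffUnitSum := fun E _ _ y => hasSum_cutoff_units E y

end Fermat.Agent.S14
end MergeWrap_S14_ClassZeta_Cutoff

section MergeWrap_S14_ClassZeta_LatticeSum -- from S14/ClassZeta/LatticeSum.lean

/-!
# (U3) The partial zeta function of an ideal class as a weighted lattice sum

For an integral ideal `J` in the class `c⁻¹`, the ideals `I` of the class `c` correspond to the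
principal ideals `I * J = (γ)`, `γ ∈ J`, `γ ≠ 0`, and `γ` is determined up to a unit.  Since the
translates of the cut-off by the logarithms of all units sum to the number `w` of roots of unity,
`∑_{γ ∈ J} cutoff (logMap γ) * |N γ| ^ (-s) = w * (N J) ^ (-s) * ∑_{I ∈ c} (N I) ^ (-s)`.
-/

set_option autoImplicit false

open NumberField NumberField.mixedEmbedding NumberField.Units
  NumberField.Units.dirichletUnitTheorem
open scoped nonZeroDivisors Classical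

namespace Fermat.Agent.S14

variable {E : Type*} [Field E] [NumberField E]

section Generators

variable (c : ClassGroup (𝓞 E)) (J : (Ideal (𝓞 E))⁰) (hJ : ClassGroup.mk0 J = c⁻¹)

include hJ in
lemma isPrincipal_mul_of_class (I : {I : (Ideal (𝓞 E))⁰ // ClassGroup.mk0 I = c}) :
    (((I : (Ideal (𝓞 E))⁰) : Ideal (𝓞 E)) * (J : Ideal (𝓞 E))).IsPrincipal := by
  have h : ClassGroup.mk0 (I.1 * J) = 1 := by rw [map_mul, I.2, hJ, mul_inv_cancel]
  have h2 := (ClassGroup.mk0_eq_one_iff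
    (I := ((I.1 * J : (Ideal (𝓞 E))⁰) : Ideal (𝓞 E))) (SetLike.coe_mem _)).mp h
  simpa using h2

/-- A generator of the principal ideal `I * J`. -/
noncomputable def czGen (I : {I : (Ideal (𝓞 E))⁰ // ClassGroup.mk0 I = c}) : 𝓞 E :=
  haveI := isPrincipal_mul_of_class c J hJ I
  Submodule.IsPrincipal.generator
    (((I : (Ideal (𝓞 E))⁰) : Ideal (𝓞 E)) * (J : Ideal (𝓞 E)))

lemma span_czGen (I : {I : (Ideal (𝓞 E))⁰ // ClassGroup.mk0 I = c}) :
    Ideal.span {czGen c J hJ I} = ((I : (Ideal (𝓞 E))⁰) : Ideal (𝓞 E)) * (J : Ideal (𝓞 E)) := by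
  have := isPrincipal_mul_of_class c J hJ I
  exact Ideal.span_singleton_generator _

lemma czGen_mem (I : {I : (Ideal (𝓞 E))⁰ // ClassGroup.mk0 I = c}) :
    czGen c J hJ I ∈ (J : Ideal (𝓞 E)) := by
  have h : czGen c J hJ I ∈ Ideal.span {czGen c J hJ I} := Ideal.mem_span_singleton_self _
  rw [span_czGen] at h
  exact Ideal.mul_le_right h

lemma czGen_ne_zero (I : {I : (Ideal (𝓞 E))⁰ // ClassGroup.mk0 I = c}) :
    czGen c J hJ I ≠ 0 := by
  intro h0
  have h := span_czGen c J hJ I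
  rw [h0, Ideal.span_singleton_eq_bot.mpr rfl] at h
  have h1 : ((I : (Ideal (𝓞 E))⁰) : Ideal (𝓞 E)) ≠ 0 := nonZeroDivisors.coe_ne_zero _
  have h2 : (J : Ideal (𝓞 E)) ≠ 0 := nonZeroDivisors.coe_ne_zero _
  exact mul_ne_zero h1 h2 h.symm

lemma absNorm_span_czGen (I : {I : (Ideal (𝓞 E))⁰ // ClassGroup.mk0 I = c}) :
    Ideal.absNorm (Ideal.span {czGen c J hJ I}) =
      Ideal.absNorm ((I : (Ideal (𝓞 E))⁰) : Ideal (𝓞 E)) * Ideal.absNorm (J : Ideal (𝓞 E)) := by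
  rw [span_czGen, map_mul]

/-- The map `(I, u) ↦ u * g_I` from (ideals of the class `c`) × units to the ideal `J`. -/
noncomputable def czMap (p : {I : (Ideal (𝓞 E))⁰ // ClassGroup.mk0 I = c} × (𝓞 E)ˣ) :
    (J : Ideal (𝓞 E)) :=
  ⟨(p.2 : 𝓞 E) * czGen c J hJ p.1, Ideal.mul_mem_left _ _ (czGen_mem c J hJ p.1)⟩

lemma czMap_coe (p : {I : (Ideal (𝓞 E))⁰ // ClassGroup.mk0 I = c} × (𝓞 E)ˣ) :
    ((czMap c J hJ p : (J : Ideal (𝓞 E))) : 𝓞 E) = (p.2 : 𝓞 E) * czGen c J hJ p.1 := rfl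

lemma czMap_injective : Function.Injective (czMap c J hJ) := by
  rintro ⟨I, u⟩ ⟨I', u'⟩ h
  have h1 : (u : 𝓞 E) * czGen c J hJ I = (u' : 𝓞 E) * czGen c J hJ I' := by
    have := congrArg (fun γ : (J : Ideal (𝓞 E)) => (γ : 𝓞 E)) h
    simpa [czMap_coe] using this
  have hspan : Ideal.span {czGen c J hJ I} = Ideal.span {czGen c J hJ I'} := by
    rw [Ideal.span_singleton_eq_span_singleton]
    refine ⟨u'⁻¹ * u, ?_⟩
    have : czGen c J hJ I' = (↑(u'⁻¹) : 𝓞 E) * ((u : 𝓞 E) * czGen c J hJ I) := by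
      rw [h1, ← mul_assoc, ← Units.val_mul, inv_mul_cancel, Units.val_one, one_mul]
    rw [this, Units.val_mul]; ring
  rw [span_czGen, span_czGen] at hspan
  have hJ0 : (J : Ideal (𝓞 E)) ≠ 0 := nonZeroDivisors.coe_ne_zero _
  have hI : ((I : (Ideal (𝓞 E))⁰) : Ideal (𝓞 E)) = ((I' : (Ideal (𝓞 E))⁰) : Ideal (𝓞 E)) :=
    mul_right_cancel₀ hJ0 hspan
  have hI' : I = I' := Subtype.ext (Subtype.ext hI)
  subst hI'
  have hu : (u : 𝓞 E) = (u' : 𝓞 E) := mul_right_cancel₀ (czGen_ne_zero c J hJ I) h1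
  rw [Units.ext hu]

lemma mem_range_czMap (γ : (J : Ideal (𝓞 E))) (hγ : (γ : 𝓞 E) ≠ 0) :
    γ ∈ Set.range (czMap c J hJ) := by
  have hle : Ideal.span {(γ : 𝓞 E)} ≤ (J : Ideal (𝓞 E)) :=
    (Ideal.span_singleton_le_iff_mem _).mpr γ.2
  obtain ⟨I₀, hI₀⟩ := Ideal.dvd_iff_le.mpr hle
  have hspan0 : Ideal.span {(γ : 𝓞 E)} ≠ 0 := by
    rw [Ne, Ideal.zero_eq_bot, Ideal.span_singleton_eq_bot]; exact hγ
  have hI₀0 : I₀ ≠ 0 := by
    rintro rfl
    rw [mul_zero] at hI₀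
    exact hspan0 hI₀
  have hI₀mem : I₀ ∈ (Ideal (𝓞 E))⁰ := mem_nonZeroDivisors_iff_ne_zero.mpr hI₀0
  have hspanmem : Ideal.span {(γ : 𝓞 E)} ∈ (Ideal (𝓞 E))⁰ :=
    mem_nonZeroDivisors_iff_ne_zero.mpr hspan0
  have h1 : ClassGroup.mk0 ⟨Ideal.span {(γ : 𝓞 E)}, hspanmem⟩ = 1 :=
    (ClassGroup.mk0_eq_one_iff hspanmem).mpr ⟨⟨_, rfl⟩⟩
  have h2 : (⟨Ideal.span {(γ : 𝓞 E)}, hspanmem⟩ : (Ideal (𝓞 E))⁰) = J * ⟨I₀, hI₀mem⟩ :=
    Subtype.ext hI₀
  have hcls : ClassGroup.mk0 (⟨I₀, hI₀mem⟩ : (Ideal (𝓞 E))⁰) = c := by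
    rw [h2, map_mul, hJ] at h1
    exact (inv_mul_eq_one.mp h1).symm
  let I : {I : (Ideal (𝓞 E))⁰ // ClassGroup.mk0 I = c} := ⟨⟨I₀, hI₀mem⟩, hcls⟩
  have hgen : Ideal.span {czGen c J hJ I} = Ideal.span {(γ : 𝓞 E)} := by
    rw [span_czGen, hI₀, mul_comm]
  obtain ⟨u, hu⟩ := Ideal.span_singleton_eq_span_singleton.mp hgen
  refine ⟨(I, u), Subtype.ext ?_⟩
  rw [czMap_coe, mul_comm]
  exact hu

end Generators

section Norm

lemma mixedEmbedding_norm_coe (g : 𝓞 E) :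
    mixedEmbedding.norm (mixedEmbedding E (g : E)) =
      ((Ideal.absNorm (Ideal.span {g}) : ℕ) : ℝ) := by
  rw [Ideal.absNorm_span_singleton, Nat.cast_natAbs, ← Rat.cast_intCast, Int.cast_abs,
    Algebra.coe_norm_int, ← mixedEmbedding.norm_eq_norm]

omit [NumberField E] in
lemma mixedEmbedding_unit_mul (u : (𝓞 E)ˣ) (g : 𝓞 E) :
    mixedEmbedding E ((((u : 𝓞 E) * g : 𝓞 E)) : E) = u • mixedEmbedding E (g : E) := by
  rw [unitSMul_smul, ← map_mul]
  rfl

lemma czF_unit_mul (φ₀ : logSpace E → ℝ) (s : ℝ) (u : (𝓞 E)ˣ) (g : 𝓞 E) (hg : g ≠ 0) :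
    czF E φ₀ s (mixedEmbedding E ((((u : 𝓞 E) * g : 𝓞 E)) : E)) =
      φ₀ (logEmbedding E (Additive.ofMul u) + logMap (mixedEmbedding E (g : E))) *
        (((Ideal.absNorm (Ideal.span {g}) : ℕ) : ℝ)) ^ (-s) := by
  have hn : mixedEmbedding.norm (mixedEmbedding E (g : E)) ≠ 0 := by
    rw [mixedEmbedding_norm_coe]
    have : Ideal.absNorm (Ideal.span {g}) ≠ 0 := by
      rw [Ne, Ideal.absNorm_eq_zero_iff, Ideal.span_singleton_eq_bot]; exact hg
    exact_mod_cast this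
  rw [mixedEmbedding_unit_mul, czF, norm_unit_smul, if_neg hn, logMap_unit_smul u hn,
    mixedEmbedding_norm_coe]

lemma czF_zero (φ₀ : logSpace E → ℝ) (s : ℝ) :
    czF E φ₀ s (mixedEmbedding E (((0 : 𝓞 E)) : E)) = 0 := by
  simp [czF]

end Norm

section Main

variable (c : ClassGroup (𝓞 E)) (J : (Ideal (𝓞 E))⁰) (hJ : ClassGroup.mk0 J = c⁻¹)

/-- The weight of an ideal of the class `c`. -/
lemma summable_classIdeals {s : ℝ} (hs : 1 < s) :
    Summable (fun I : {I : (Ideal (𝓞 E))⁰ // ClassGroup.mk0 I = c} =>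
      ((Ideal.absNorm ((I : (Ideal (𝓞 E))⁰) : Ideal (𝓞 E)) : ℕ) : ℝ) ^ (-s)) := by
  have h := Fermat.Agent.FrobDensity.summable_normWeight E hs
  have hinj : Function.Injective
      (fun I : {I : (Ideal (𝓞 E))⁰ // ClassGroup.mk0 I = c} =>
        ((I : (Ideal (𝓞 E))⁰) : Ideal (𝓞 E))) :=
    fun a b hab => Subtype.ext (Subtype.ext hab)
  exact h.comp_injective hinj

lemma czF_czMap (s : ℝ) (p : {I : (Ideal (𝓞 E))⁰ // ClassGroup.mk0 I = c} × (𝓞 E)ˣ) :
    czF E (cutoff E) s (mixedEmbedding E ((((czMap c J hJ p : (J : Ideal (𝓞 E))) : 𝓞 E)) : E)) =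
      cutoff E (logEmbedding E (Additive.ofMul p.2) +
          logMap (mixedEmbedding E ((czGen c J hJ p.1 : 𝓞 E) : E))) *
        ((((Ideal.absNorm ((p.1 : (Ideal (𝓞 E))⁰) : Ideal (𝓞 E)) : ℕ) : ℝ)) ^ (-s) *
          (((Ideal.absNorm (J : Ideal (𝓞 E)) : ℕ) : ℝ)) ^ (-s)) := by
  rw [czMap_coe, czF_unit_mul _ _ _ _ (czGen_ne_zero c J hJ p.1), absNorm_span_czGen,
    Nat.cast_mul, Real.mul_rpow (Nat.cast_nonneg _) (Nat.cast_nonneg _)]

lemma hasSum_czF_units (s : ℝ) (I : {I : (Ideal (𝓞 E))⁰ // ClassGroup.mk0 I = c}) :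
    HasSum (fun u : (𝓞 E)ˣ =>
      czF E (cutoff E) s
        (mixedEmbedding E ((((czMap c J hJ (I, u) : (J : Ideal (𝓞 E))) : 𝓞 E)) : E)))
      ((torsionOrder E : ℝ) *
        ((((Ideal.absNorm ((I : (Ideal (𝓞 E))⁰) : Ideal (𝓞 E)) : ℕ) : ℝ)) ^ (-s) *
          (((Ideal.absNorm (J : Ideal (𝓞 E)) : ℕ) : ℝ)) ^ (-s))) := by
  have h := (hasSum_cutoff_units E
    (logMap (mixedEmbedding E ((czGen c J hJ I : 𝓞 E) : E)))).mul_right
    ((((Ideal.absNorm ((I : (Ideal (𝓞 E))⁰) : Ideal (𝓞 E)) : ℕ) : ℝ)) ^ (-s) *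
          (((Ideal.absNorm (J : Ideal (𝓞 E)) : ℕ) : ℝ)) ^ (-s))
  refine h.congr_fun ?_
  intro u
  exact czF_czMap c J hJ s (I, u)

lemma czF_nonneg (s : ℝ) (x : mixedSpace E) : 0 ≤ czF E (cutoff E) s x := by
  unfold czF
  split_ifs
  · exact le_rfl
  · exact mul_nonneg (cutoff_nonneg E _) (Real.rpow_nonneg (mixedEmbedding.norm_nonneg _) _)

lemma summable_czF_comp_czMap {s : ℝ} (hs : 1 < s) :
    Summable (fun p : {I : (Ideal (𝓞 E))⁰ // ClassGroup.mk0 I = c} × (𝓞 E)ˣ =>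
      czF E (cutoff E) s
        (mixedEmbedding E ((((czMap c J hJ p : (J : Ideal (𝓞 E))) : 𝓞 E)) : E))) := by
  rw [summable_prod_of_nonneg (fun p => czF_nonneg s _)]
  refine ⟨fun I => (hasSum_czF_units c J hJ s I).summable, ?_⟩
  have h : (fun I : {I : (Ideal (𝓞 E))⁰ // ClassGroup.mk0 I = c} =>
      ∑' u : (𝓞 E)ˣ, czF E (cutoff E) s
        (mixedEmbedding E ((((czMap c J hJ (I, u) : (J : Ideal (𝓞 E))) : 𝓞 E)) : E))) =
      fun I : {I : (Ideal (𝓞 E))⁰ // ClassGroup.mk0 I = c} =>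
        ((torsionOrder E : ℝ) * (((Ideal.absNorm (J : Ideal (𝓞 E)) : ℕ) : ℝ)) ^ (-s)) *
        (((Ideal.absNorm ((I : (Ideal (𝓞 E))⁰) : Ideal (𝓞 E)) : ℕ) : ℝ)) ^ (-s) := by
    funext I
    rw [(hasSum_czF_units c J hJ s I).tsum_eq]
    ring
  rw [h]
  exact (summable_classIdeals c hs).mul_left _

lemma tsum_czF_comp_czMap {s : ℝ} (hs : 1 < s) :
    ∑' p : {I : (Ideal (𝓞 E))⁰ // ClassGroup.mk0 I = c} × (𝓞 E)ˣ,
      czF E (cutoff E) s
        (mixedEmbedding E ((((czMap c J hJ p : (J : Ideal (𝓞 E))) : 𝓞 E)) : E)) =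
      ((torsionOrder E : ℝ) * (((Ideal.absNorm (J : Ideal (𝓞 E)) : ℕ) : ℝ)) ^ (-s)) *
        classZeta E c s := by
  rw [(summable_czF_comp_czMap c J hJ hs).tsum_prod'
    (fun I => (hasSum_czF_units c J hJ s I).summable)]
  unfold classZeta
  rw [← tsum_mul_left]
  refine tsum_congr fun I => ?_
  rw [(hasSum_czF_units c J hJ s I).tsum_eq]
  ring

lemma czF_eq_zero_of_not_mem_range (s : ℝ) (γ : (J : Ideal (𝓞 E)))
    (hγ : γ ∉ Set.range (czMap c J hJ)) :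
    czF E (cutoff E) s (mixedEmbedding E (((γ : 𝓞 E)) : E)) = 0 := by
  have h0 : (γ : 𝓞 E) = 0 := by
    by_contra hne
    exact hγ (mem_range_czMap c J hJ γ hne)
  rw [h0]
  exact czF_zero _ _

include hJ in
theorem classZeta_eq_lattice_sum {s : ℝ} (hs : 1 < s) :
    Summable (fun γ : (J : Ideal (𝓞 E)) =>
        czF E (cutoff E) s (mixedEmbedding E (((γ : 𝓞 E)) : E))) ∧
      classZeta E c s =
        ((Ideal.absNorm (J : Ideal (𝓞 E)) : ℕ) : ℝ) ^ s / (torsionOrder E : ℝ) *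
          ∑' γ : (J : Ideal (𝓞 E)), czF E (cutoff E) s (mixedEmbedding E (((γ : 𝓞 E)) : E)) := by
  have hsum : Summable (fun γ : (J : Ideal (𝓞 E)) =>
      czF E (cutoff E) s (mixedEmbedding E (((γ : 𝓞 E)) : E))) :=
    ((czMap_injective c J hJ).summable_iff
      (fun γ hγ => czF_eq_zero_of_not_mem_range c J hJ s γ hγ)).mp
      (summable_czF_comp_czMap c J hJ hs)
  refine ⟨hsum, ?_⟩
  have hsupp : Function.support (fun γ : (J : Ideal (𝓞 E)) =>
      czF E (cutoff E) s (mixedEmbedding E (((γ : 𝓞 E)) : E))) ⊆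
      Set.range (czMap c J hJ) := by
    intro γ hγ
    by_contra hcon
    exact hγ (czF_eq_zero_of_not_mem_range c J hJ s γ hcon)
  rw [← (czMap_injective c J hJ).tsum_eq hsupp, tsum_czF_comp_czMap c J hJ hs]
  have hw : (torsionOrder E : ℝ) ≠ 0 := by
    have : torsionOrder E ≠ 0 := torsionOrder_ne_zero E
    exact_mod_cast this
  have hN : (0 : ℝ) < ((Ideal.absNorm (J : Ideal (𝓞 E)) : ℕ) : ℝ) := by
    have : Ideal.absNorm (J : Ideal (𝓞 E)) ≠ 0 := Ideal.absNorm_ne_zero_of_nonZeroDivisors J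
    exact_mod_cast Nat.pos_of_ne_zero this
  have hpow : ((Ideal.absNorm (J : Ideal (𝓞 E)) : ℕ) : ℝ) ^ s *
      ((Ideal.absNorm (J : Ideal (𝓞 E)) : ℕ) : ℝ) ^ (-s) = 1 := by
    rw [← Real.rpow_add hN, add_neg_cancel, Real.rpow_zero]
  field_simp
  linear_combination (-(classZeta E c s)) * hpow

end Main

/-- **(U3)** -/
theorem classZetaLatticeSum : ClassZetaLatticeSum := fun _ _ _ c J hJ _ hs =>
  classZeta_eq_lattice_sum c J hJ hs

end Fermat.Agent.S14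
end MergeWrap_S14_ClassZeta_LatticeSum

section MergeWrap_F4_Ray_LatticeSumPred -- from F4/Ray/LatticeSumPred.lean

/-!
# F4 / GLOB: the orbit identity with a unit-invariant condition (RU3')

`ClassZetaLatticeSumPred`: for an integral ideal `J` in the class `c⁻¹` and a predicate `P` on
`𝓞 E` which is invariant under multiplication by units, the ideals `I` of the class `c` such that
`I * J = (γ)` with `P γ` correspond to the elements `γ ∈ J`, `γ ≠ 0`, with `P γ`, up to units; hence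

`∑_I (N I) ^ (-s) = (N J) ^ s / w * ∑_{γ ∈ J, P γ} cutoff (logMap γ) * |N γ| ^ (-s)`.
-/

set_option autoImplicit false
set_option linter.unusedSectionVars false

open NumberField NumberField.mixedEmbedding NumberField.Units
  NumberField.Units.dirichletUnitTheorem
open scoped nonZeroDivisors Classical

namespace Fermat.Agent.F4Ray

open Fermat.Agent.S14

variable {E : Type*} [Field E] [NumberField E]

section Main

variable (c : ClassGroup (𝓞 E)) (J : (Ideal (𝓞 E))⁰) (P : 𝓞 E → Prop)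
  (hP : ∀ (u : (𝓞 E)ˣ) (γ : 𝓞 E), P ((u : 𝓞 E) * γ) ↔ P γ)

/-- The ideals of the class `c` such that `I * J` has a generator satisfying `P`. -/
abbrev PredIdeals : Type _ :=
  {I : (Ideal (𝓞 E))⁰ // ClassGroup.mk0 I = c ∧
    ∃ γ : 𝓞 E, Ideal.span {γ} = (I : Ideal (𝓞 E)) * (J : Ideal (𝓞 E)) ∧ P γ}

/-- A generator of `I * J` satisfying `P`. -/
noncomputable def predGen (I : PredIdeals c J P) : 𝓞 E := I.2.2.choose

lemma span_predGen (I : PredIdeals c J P) :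
    Ideal.span {predGen c J P I} =
      ((I : (Ideal (𝓞 E))⁰) : Ideal (𝓞 E)) * (J : Ideal (𝓞 E)) :=
  I.2.2.choose_spec.1

lemma predGen_pred (I : PredIdeals c J P) : P (predGen c J P I) := I.2.2.choose_spec.2

lemma predGen_mem (I : PredIdeals c J P) : predGen c J P I ∈ (J : Ideal (𝓞 E)) := by
  have h : predGen c J P I ∈ Ideal.span {predGen c J P I} := Ideal.mem_span_singleton_self _
  rw [span_predGen] at h
  exact Ideal.mul_le_right h

lemma predGen_ne_zero (I : PredIdeals c J P) : predGen c J P I ≠ 0 := by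
  intro h0
  have h := span_predGen c J P I
  rw [h0, Ideal.span_singleton_eq_bot.mpr rfl] at h
  have h1 : ((I : (Ideal (𝓞 E))⁰) : Ideal (𝓞 E)) ≠ 0 := nonZeroDivisors.coe_ne_zero _
  have h2 : (J : Ideal (𝓞 E)) ≠ 0 := nonZeroDivisors.coe_ne_zero _
  exact mul_ne_zero h1 h2 h.symm

lemma absNorm_span_predGen (I : PredIdeals c J P) :
    Ideal.absNorm (Ideal.span {predGen c J P I}) =
      Ideal.absNorm ((I : (Ideal (𝓞 E))⁰) : Ideal (𝓞 E)) * Ideal.absNorm (J : Ideal (𝓞 E)) := by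
  rw [span_predGen, map_mul]

/-- The map `(I, u) ↦ u * g_I`. -/
noncomputable def predMap (p : PredIdeals c J P × (𝓞 E)ˣ) : (J : Ideal (𝓞 E)) :=
  ⟨(p.2 : 𝓞 E) * predGen c J P p.1, Ideal.mul_mem_left _ _ (predGen_mem c J P p.1)⟩

lemma predMap_coe (p : PredIdeals c J P × (𝓞 E)ˣ) :
    ((predMap c J P p : (J : Ideal (𝓞 E))) : 𝓞 E) = (p.2 : 𝓞 E) * predGen c J P p.1 := rfl

include hP in
lemma predMap_pred (p : PredIdeals c J P × (𝓞 E)ˣ) :
    P ((predMap c J P p : (J : Ideal (𝓞 E))) : 𝓞 E) := by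
  rw [predMap_coe, hP]
  exact predGen_pred c J P p.1

lemma predMap_injective : Function.Injective (predMap c J P) := by
  rintro ⟨I, u⟩ ⟨I', u'⟩ h
  have h1 : (u : 𝓞 E) * predGen c J P I = (u' : 𝓞 E) * predGen c J P I' := by
    have := congrArg (fun γ : (J : Ideal (𝓞 E)) => (γ : 𝓞 E)) h
    simpa [predMap_coe] using this
  have hspan : Ideal.span {predGen c J P I} = Ideal.span {predGen c J P I'} := by
    rw [Ideal.span_singleton_eq_span_singleton]
    refine ⟨u'⁻¹ * u, ?_⟩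
    have : predGen c J P I' = (↑(u'⁻¹) : 𝓞 E) * ((u : 𝓞 E) * predGen c J P I) := by
      rw [h1, ← mul_assoc, ← Units.val_mul, inv_mul_cancel, Units.val_one, one_mul]
    rw [this, Units.val_mul]; ring
  rw [span_predGen, span_predGen] at hspan
  have hJ0 : (J : Ideal (𝓞 E)) ≠ 0 := nonZeroDivisors.coe_ne_zero _
  have hI : ((I : (Ideal (𝓞 E))⁰) : Ideal (𝓞 E)) = ((I' : (Ideal (𝓞 E))⁰) : Ideal (𝓞 E)) :=
    mul_right_cancel₀ hJ0 hspan
  have hI' : I = I' := Subtype.ext (Subtype.ext hI)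
  subst hI'
  have hu : (u : 𝓞 E) = (u' : 𝓞 E) := mul_right_cancel₀ (predGen_ne_zero c J P I) h1
  rw [Units.ext hu]

variable (hJ : ClassGroup.mk0 J = c⁻¹)

include hJ in
lemma mem_range_predMap (γ : (J : Ideal (𝓞 E))) (hγ : (γ : 𝓞 E) ≠ 0) (hPγ : P (γ : 𝓞 E)) :
    γ ∈ Set.range (predMap c J P) := by
  have hle : Ideal.span {(γ : 𝓞 E)} ≤ (J : Ideal (𝓞 E)) :=
    (Ideal.span_singleton_le_iff_mem _).mpr γ.2
  obtain ⟨I₀, hI₀⟩ := Ideal.dvd_iff_le.mpr hle
  have hspan0 : Ideal.span {(γ : 𝓞 E)} ≠ 0 := by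
    rw [Ne, Ideal.zero_eq_bot, Ideal.span_singleton_eq_bot]; exact hγ
  have hI₀0 : I₀ ≠ 0 := by
    rintro rfl
    rw [mul_zero] at hI₀
    exact hspan0 hI₀
  have hI₀mem : I₀ ∈ (Ideal (𝓞 E))⁰ := mem_nonZeroDivisors_iff_ne_zero.mpr hI₀0
  have hspanmem : Ideal.span {(γ : 𝓞 E)} ∈ (Ideal (𝓞 E))⁰ :=
    mem_nonZeroDivisors_iff_ne_zero.mpr hspan0
  have h1 : ClassGroup.mk0 ⟨Ideal.span {(γ : 𝓞 E)}, hspanmem⟩ = 1 :=
    (ClassGroup.mk0_eq_one_iff hspanmem).mpr ⟨⟨_, rfl⟩⟩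
  have h2 : (⟨Ideal.span {(γ : 𝓞 E)}, hspanmem⟩ : (Ideal (𝓞 E))⁰) = J * ⟨I₀, hI₀mem⟩ :=
    Subtype.ext hI₀
  have hcls : ClassGroup.mk0 (⟨I₀, hI₀mem⟩ : (Ideal (𝓞 E))⁰) = c := by
    rw [h2, map_mul, hJ] at h1
    exact (inv_mul_eq_one.mp h1).symm
  let I : PredIdeals c J P := ⟨⟨I₀, hI₀mem⟩, hcls, (γ : 𝓞 E), by rw [hI₀, mul_comm], hPγ⟩
  have hgen : Ideal.span {predGen c J P I} = Ideal.span {(γ : 𝓞 E)} := by
    rw [span_predGen, hI₀, mul_comm]
  obtain ⟨u, hu⟩ := Ideal.span_singleton_eq_span_singleton.mp hgen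
  refine ⟨(I, u), Subtype.ext ?_⟩
  rw [predMap_coe, mul_comm]
  exact hu

/-- The weight of a lattice point. -/
noncomputable def predF (s : ℝ) (γ : 𝓞 E) : ℝ :=
  if P γ then czF E (cutoff E) s (mixedEmbedding E (γ : E)) else 0

lemma predF_nonneg (s : ℝ) (γ : 𝓞 E) : 0 ≤ predF P s γ := by
  unfold predF
  split_ifs
  · exact czF_nonneg s _
  · exact le_rfl

include hP in
lemma predF_predMap (s : ℝ) (p : PredIdeals c J P × (𝓞 E)ˣ) :
    predF P s ((predMap c J P p : (J : Ideal (𝓞 E))) : 𝓞 E) =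
      cutoff E (logEmbedding E (Additive.ofMul p.2) +
          logMap (mixedEmbedding E ((predGen c J P p.1 : 𝓞 E) : E))) *
        ((((Ideal.absNorm ((p.1 : (Ideal (𝓞 E))⁰) : Ideal (𝓞 E)) : ℕ) : ℝ)) ^ (-s) *
          (((Ideal.absNorm (J : Ideal (𝓞 E)) : ℕ) : ℝ)) ^ (-s)) := by
  rw [predF, if_pos (predMap_pred c J P hP p), predMap_coe,
    czF_unit_mul _ _ _ _ (predGen_ne_zero c J P p.1), absNorm_span_predGen,
    Nat.cast_mul, Real.mul_rpow (Nat.cast_nonneg _) (Nat.cast_nonneg _)]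

include hP in
lemma hasSum_predF_units (s : ℝ) (I : PredIdeals c J P) :
    HasSum (fun u : (𝓞 E)ˣ => predF P s ((predMap c J P (I, u) : (J : Ideal (𝓞 E))) : 𝓞 E))
      ((torsionOrder E : ℝ) *
        ((((Ideal.absNorm ((I : (Ideal (𝓞 E))⁰) : Ideal (𝓞 E)) : ℕ) : ℝ)) ^ (-s) *
          (((Ideal.absNorm (J : Ideal (𝓞 E)) : ℕ) : ℝ)) ^ (-s))) := by
  have h := (hasSum_cutoff_units E
    (logMap (mixedEmbedding E ((predGen c J P I : 𝓞 E) : E)))).mul_right
    ((((Ideal.absNorm ((I : (Ideal (𝓞 E))⁰) : Ideal (𝓞 E)) : ℕ) : ℝ)) ^ (-s) *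
          (((Ideal.absNorm (J : Ideal (𝓞 E)) : ℕ) : ℝ)) ^ (-s))
  refine h.congr_fun ?_
  intro u
  exact predF_predMap c J P hP s (I, u)

lemma summable_predIdeals {s : ℝ} (hs : 1 < s) :
    Summable (fun I : PredIdeals c J P =>
      ((Ideal.absNorm ((I : (Ideal (𝓞 E))⁰) : Ideal (𝓞 E)) : ℕ) : ℝ) ^ (-s)) := by
  have h := Fermat.Agent.FrobDensity.summable_normWeight E hs
  have hinj : Function.Injective
      (fun I : PredIdeals c J P => ((I : (Ideal (𝓞 E))⁰) : Ideal (𝓞 E))) :=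
    fun a b hab => Subtype.ext (Subtype.ext hab)
  exact h.comp_injective hinj

include hP in
lemma summable_predF_comp_predMap {s : ℝ} (hs : 1 < s) :
    Summable (fun p : PredIdeals c J P × (𝓞 E)ˣ =>
      predF P s ((predMap c J P p : (J : Ideal (𝓞 E))) : 𝓞 E)) := by
  rw [summable_prod_of_nonneg (fun p => predF_nonneg P s _)]
  refine ⟨fun I => (hasSum_predF_units c J P hP s I).summable, ?_⟩
  have h : (fun I : PredIdeals c J P =>
      ∑' u : (𝓞 E)ˣ, predF P s ((predMap c J P (I, u) : (J : Ideal (𝓞 E))) : 𝓞 E)) =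
      fun I : PredIdeals c J P =>
        ((torsionOrder E : ℝ) * (((Ideal.absNorm (J : Ideal (𝓞 E)) : ℕ) : ℝ)) ^ (-s)) *
        (((Ideal.absNorm ((I : (Ideal (𝓞 E))⁰) : Ideal (𝓞 E)) : ℕ) : ℝ)) ^ (-s) := by
    funext I
    rw [(hasSum_predF_units c J P hP s I).tsum_eq]
    ring
  rw [h]
  exact (summable_predIdeals c J P hs).mul_left _

include hP in
lemma tsum_predF_comp_predMap {s : ℝ} (hs : 1 < s) :
    ∑' p : PredIdeals c J P × (𝓞 E)ˣ,
      predF P s ((predMap c J P p : (J : Ideal (𝓞 E))) : 𝓞 E) =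
      ((torsionOrder E : ℝ) * (((Ideal.absNorm (J : Ideal (𝓞 E)) : ℕ) : ℝ)) ^ (-s)) *
        ∑' I : PredIdeals c J P,
          ((Ideal.absNorm ((I : (Ideal (𝓞 E))⁰) : Ideal (𝓞 E)) : ℕ) : ℝ) ^ (-s) := by
  rw [(summable_predF_comp_predMap c J P hP hs).tsum_prod'
    (fun I => (hasSum_predF_units c J P hP s I).summable)]
  rw [← tsum_mul_left]
  refine tsum_congr fun I => ?_
  rw [(hasSum_predF_units c J P hP s I).tsum_eq]
  ring

include hJ in
lemma predF_eq_zero_of_not_mem_range (s : ℝ) (γ : (J : Ideal (𝓞 E)))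
    (hγ : γ ∉ Set.range (predMap c J P)) : predF P s (γ : 𝓞 E) = 0 := by
  by_cases hPγ : P (γ : 𝓞 E)
  · have h0 : (γ : 𝓞 E) = 0 := by
      by_contra hne
      exact hγ (mem_range_predMap c J P hJ γ hne hPγ)
    rw [predF, if_pos hPγ, h0]
    exact czF_zero _ _
  · rw [predF, if_neg hPγ]

include hP hJ in
theorem predZeta_eq_lattice_sum {s : ℝ} (hs : 1 < s) :
    Summable (fun γ : (J : Ideal (𝓞 E)) => predF P s (γ : 𝓞 E)) ∧
      ∑' I : PredIdeals c J P,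
          ((Ideal.absNorm ((I : (Ideal (𝓞 E))⁰) : Ideal (𝓞 E)) : ℕ) : ℝ) ^ (-s) =
        ((Ideal.absNorm (J : Ideal (𝓞 E)) : ℕ) : ℝ) ^ s / (torsionOrder E : ℝ) *
          ∑' γ : (J : Ideal (𝓞 E)), predF P s (γ : 𝓞 E) := by
  have hsum : Summable (fun γ : (J : Ideal (𝓞 E)) => predF P s (γ : 𝓞 E)) :=
    ((predMap_injective c J P).summable_iff
      (fun γ hγ => predF_eq_zero_of_not_mem_range c J P hJ s γ hγ)).mp
      (summable_predF_comp_predMap c J P hP hs)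
  refine ⟨hsum, ?_⟩
  have hsupp : Function.support (fun γ : (J : Ideal (𝓞 E)) => predF P s (γ : 𝓞 E)) ⊆
      Set.range (predMap c J P) := by
    intro γ hγ
    by_contra hcon
    exact hγ (predF_eq_zero_of_not_mem_range c J P hJ s γ hcon)
  rw [← (predMap_injective c J P).tsum_eq hsupp, tsum_predF_comp_predMap c J P hP hs]
  have hw : (torsionOrder E : ℝ) ≠ 0 := by
    have : torsionOrder E ≠ 0 := torsionOrder_ne_zero E
    exact_mod_cast this
  have hN : (0 : ℝ) < ((Ideal.absNorm (J : Ideal (𝓞 E)) : ℕ) : ℝ) := by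
    have : Ideal.absNorm (J : Ideal (𝓞 E)) ≠ 0 := Ideal.absNorm_ne_zero_of_nonZeroDivisors J
    exact_mod_cast Nat.pos_of_ne_zero this
  have hpow : ((Ideal.absNorm (J : Ideal (𝓞 E)) : ℕ) : ℝ) ^ s *
      ((Ideal.absNorm (J : Ideal (𝓞 E)) : ℕ) : ℝ) ^ (-s) = 1 := by
    rw [← Real.rpow_add hN, add_neg_cancel, Real.rpow_zero]
  field_simp
  linear_combination
    (-(∑' I : PredIdeals c J P,
      ((Ideal.absNorm ((I : (Ideal (𝓞 E))⁰) : Ideal (𝓞 E)) : ℕ) : ℝ) ^ (-s))) * hpow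

end Main

/-- **(RU3')** -/
theorem classZetaLatticeSumPred : ClassZetaLatticeSumPred := fun _ _ _ c J hJ P hP _ hs =>
  predZeta_eq_lattice_sum c J P hP hJ hs

end Fermat.Agent.F4Ray
end MergeWrap_F4_Ray_LatticeSumPred

section MergeWrap_S14_CZ_ZetaBound -- from S14/CZ/ZetaBound.lean

/-!
# S14, analytic route: `(s - 1) ζ_E(s)` is bounded on `(1, 2]`, and `ζ(s, c) ≤ ζ_E(s)`
-/

set_option autoImplicit false

open NumberField Filter Topology
open scoped nonZeroDivisors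

namespace Fermat.Agent.S14CZ

open Fermat.Agent.S14 (classZeta)
open Fermat.Agent.FrobDensity (normWeight zetaSum summable_normWeight normWeight_nonneg
  tendsto_sub_one_mul_zetaSum)

variable (E : Type*) [Field E] [NumberField E]

lemma normWeight_anti {s t : ℝ} (ht : 0 < t) (hst : t ≤ s) (I : Ideal (𝓞 E)) :
    normWeight E s I ≤ normWeight E t I := by
  unfold normWeight
  by_cases h0 : Ideal.absNorm I = 0
  · rw [h0, Nat.cast_zero, Real.zero_rpow (by linarith), Real.zero_rpow (by linarith)]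
  · have h1 : (1 : ℝ) ≤ (Ideal.absNorm I : ℝ) := by
      exact_mod_cast Nat.one_le_iff_ne_zero.mpr h0
    exact Real.rpow_le_rpow_of_exponent_le h1 (by linarith)

lemma zetaSum_anti {s t : ℝ} (ht : 1 < t) (hst : t ≤ s) : zetaSum E s ≤ zetaSum E t := by
  unfold zetaSum
  exact (summable_normWeight E (lt_of_lt_of_le ht hst)).tsum_le_tsum
    (fun I ↦ normWeight_anti E (by linarith) hst I) (summable_normWeight E ht)

lemma zetaSum_nonneg (s : ℝ) : 0 ≤ zetaSum E s :=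
  tsum_nonneg fun I ↦ normWeight_nonneg s I

/-- `(s - 1) ζ_E(s)` is bounded on `(1, 2]`. -/
theorem exists_sub_one_mul_zetaSum_le :
    ∃ M : ℝ, 0 ≤ M ∧ ∀ s : ℝ, 1 < s → s ≤ 2 → (s - 1) * zetaSum E s ≤ M := by
  have h := tendsto_sub_one_mul_zetaSum E
  have hev : ∀ᶠ s in 𝓝[>] (1 : ℝ), (s - 1) * zetaSum E s < dedekindZeta_residue E + 1 :=
    h.eventually (gt_mem_nhds (by linarith))
  obtain ⟨u, hu1, hu⟩ := (mem_nhdsGT_iff_exists_Ioo_subset).mp hev
  have hu1' : (1 : ℝ) < u := hu1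
  set t := (1 + u) / 2 with htdef
  have ht1 : 1 < t := by rw [htdef]; linarith
  have htu : t < u := by rw [htdef]; linarith
  have hκ := dedekindZeta_residue_pos E
  refine ⟨dedekindZeta_residue E + 1 + zetaSum E t, by
    have := zetaSum_nonneg E t
    linarith, fun s hs1 hs2 ↦ ?_⟩
  by_cases hsu : s < u
  · have := hu ⟨hs1, hsu⟩
    have h2 : (s - 1) * zetaSum E s < dedekindZeta_residue E + 1 := this
    have := zetaSum_nonneg E t
    linarith
  · rw [not_lt] at hsu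
    have h1 : zetaSum E s ≤ zetaSum E t := zetaSum_anti E ht1 (by linarith)
    have h2 : (s - 1) * zetaSum E s ≤ 1 * zetaSum E t :=
      mul_le_mul (by linarith) h1 (zetaSum_nonneg E s) zero_le_one
    linarith

/-- The series defining `classZeta` is summable for `s > 1`. -/
lemma summable_classZeta (c : ClassGroup (𝓞 E)) {s : ℝ} (hs : 1 < s) :
    Summable fun I : {I : (Ideal (𝓞 E))⁰ // ClassGroup.mk0 I = c} ↦
      ((Ideal.absNorm ((I : (Ideal (𝓞 E))⁰) : Ideal (𝓞 E)) : ℕ) : ℝ) ^ (-s) := by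
  have hinj : Function.Injective
      (fun I : {I : (Ideal (𝓞 E))⁰ // ClassGroup.mk0 I = c} ↦ ((I : (Ideal (𝓞 E))⁰) : Ideal (𝓞 E))) :=
    fun a b hab ↦ Subtype.ext (Subtype.ext hab)
  exact (summable_normWeight E hs).comp_injective hinj

lemma classZeta_nonneg (c : ClassGroup (𝓞 E)) (s : ℝ) : 0 ≤ classZeta E c s :=
  tsum_nonneg fun _ ↦ Real.rpow_nonneg (Nat.cast_nonneg _) _

/-- `ζ(s, c) ≤ ζ_E(s)`. -/
lemma classZeta_le_zetaSum (c : ClassGroup (𝓞 E)) {s : ℝ} (hs : 1 < s) :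
    classZeta E c s ≤ zetaSum E s := by
  have hinj : Function.Injective
      (fun I : {I : (Ideal (𝓞 E))⁰ // ClassGroup.mk0 I = c} ↦ ((I : (Ideal (𝓞 E))⁰) : Ideal (𝓞 E))) :=
    fun a b hab ↦ Subtype.ext (Subtype.ext hab)
  exact tsum_comp_le_tsum_of_inj (summable_normWeight E hs) (fun I ↦ normWeight_nonneg s I) hinj

end Fermat.Agent.S14CZ
end MergeWrap_S14_CZ_ZetaBound

section MergeWrap_S14_CZ_Assembly -- from S14/CZ/Assembly.lean

/-!
# S14, analytic route: assembly (U6)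

`CutoffProps` (U2a) and `ClassZetaLatticeSum` (U3) imply `ClassZetaDiffBounded`.
-/

set_option autoImplicit false

open NumberField NumberField.InfinitePlace NumberField.mixedEmbedding NumberField.Units
  NumberField.Units.dirichletUnitTheorem Module
open scoped nonZeroDivisors

namespace Fermat.Agent.S14CZ

open Fermat.Agent.S14 (czF classZeta cutoff CutoffProps ClassZetaLatticeSum ClassZetaDiffBounded)
open Fermat.Agent.FrobDensity (zetaSum)

open scoped Classical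

set_option linter.unusedSectionVars false

/-- (U2a) in the form used by the pointwise estimate. -/
lemma czBump_cutoff (h : CutoffProps) (E : Type) [Field E] [NumberField E] :
    ∃ L R0 : ℝ, CZBump (cutoff E) L R0 := by
  obtain ⟨h1, ⟨L, hL⟩, ⟨R0, hR0⟩⟩ := h E
  refine ⟨L, max R0 0, ?_⟩
  refine ⟨fun y ↦ (h1 y).1, fun y ↦ (h1 y).2, fun y z ↦ ?_, fun y hy ↦ ?_, L.2, le_max_right _ _⟩
  · have := hL.dist_le_mul y z
    rwa [Real.dist_eq, dist_eq_norm] at this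
  · exact hR0 y ((le_max_left _ _).trans hy)

variable {E : Type*} [Field E] [NumberField E]

/-- The index of `J * J₂` in `J` is the norm of `J₂`. -/
lemma relIndex_mul_left (J J₂ : (Ideal (𝓞 E))⁰) :
    ((J : Ideal (𝓞 E)) * (J₂ : Ideal (𝓞 E))).toAddSubgroup.relIndex
      (J : Ideal (𝓞 E)).toAddSubgroup = Ideal.absNorm (J₂ : Ideal (𝓞 E)) := by
  have hle : ((J : Ideal (𝓞 E)) * (J₂ : Ideal (𝓞 E))).toAddSubgroup ≤
      (J : Ideal (𝓞 E)).toAddSubgroup := fun x hx ↦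
    (Ideal.mul_le_left : (J : Ideal (𝓞 E)) * (J₂ : Ideal (𝓞 E)) ≤ (J : Ideal (𝓞 E))) hx
  have h1 := AddSubgroup.relIndex_mul_index hle
  have h2 : (J : Ideal (𝓞 E)).toAddSubgroup.index = Ideal.absNorm (J : Ideal (𝓞 E)) := by
    rw [Ideal.absNorm_apply, Submodule.cardQuot_apply]
    rfl
  have h3 : ((J : Ideal (𝓞 E)) * (J₂ : Ideal (𝓞 E))).toAddSubgroup.index =
      Ideal.absNorm (J : Ideal (𝓞 E)) * Ideal.absNorm (J₂ : Ideal (𝓞 E)) := by
    rw [← map_mul, Ideal.absNorm_apply, Submodule.cardQuot_apply]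
    rfl
  rw [h2, h3, mul_comm] at h1
  exact Nat.eq_of_mul_eq_mul_left
    (Nat.pos_of_ne_zero (Ideal.absNorm_ne_zero_of_nonZeroDivisors J)) h1

lemma relIndex_mul_right (J J₂ : (Ideal (𝓞 E))⁰) :
    ((J : Ideal (𝓞 E)) * (J₂ : Ideal (𝓞 E))).toAddSubgroup.relIndex
      (J₂ : Ideal (𝓞 E)).toAddSubgroup = Ideal.absNorm (J : Ideal (𝓞 E)) := by
  rw [mul_comm]
  exact relIndex_mul_left J₂ J

/-- Elementary: for `a, b ≥ 1` and `0 ≤ t ≤ 1`, `|a ^ t - b ^ t| ≤ t * (a + b)`. -/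
lemma abs_rpow_sub_rpow_le {a b t : ℝ} (ha : 1 ≤ a) (hb : 1 ≤ b) (ht0 : 0 ≤ t) (ht1 : t ≤ 1) :
    |a ^ t - b ^ t| ≤ t * (a + b) := by
  have key : ∀ x : ℝ, 1 ≤ x → 1 ≤ x ^ t ∧ x ^ t ≤ 1 + t * x := fun x hx ↦ by
    constructor
    · exact Real.one_le_rpow hx ht0
    · have := _root_.rpow_one_add_le_one_add_mul_self (s := x - 1) (by linarith) ht0 ht1
      rw [show (1 : ℝ) + (x - 1) = x by ring] at this
      nlinarith
  obtain ⟨ha1, ha2⟩ := key a ha
  obtain ⟨hb1, hb2⟩ := key b hb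
  rw [abs_le]
  constructor <;> nlinarith


/-- Real-number bookkeeping of the assembly. -/
lemma u6_real {a b w s S₁ S₂ S₃ B₁ B₂ M Z : ℝ} (ha : 1 ≤ a) (hb : 1 ≤ b) (hw : 0 < w)
    (hs1 : 1 < s) (hs2 : s ≤ 2) (hS₃ : 0 ≤ S₃)
    (h1 : |S₁ - b * S₃| ≤ B₁) (h2 : |S₂ - a * S₃| ≤ B₂)
    (hZ : Z = (a * b) ^ s / w * S₃) (hZM : (s - 1) * Z ≤ M) :
    |a ^ s / w * S₁ - b ^ s / w * S₂| ≤ (a ^ 2 * B₁ + b ^ 2 * B₂ + a * b * (a + b) * w * M) / w := by
  have ha0 : 0 < a := by linarith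
  have hb0 : 0 < b := by linarith
  have has : a ^ s ≤ a ^ 2 := by
    have := Real.rpow_le_rpow_of_exponent_le ha hs2
    rwa [Real.rpow_two] at this
  have hbs : b ^ s ≤ b ^ 2 := by
    have := Real.rpow_le_rpow_of_exponent_le hb hs2
    rwa [Real.rpow_two] at this
  have has0 : 0 ≤ a ^ s := Real.rpow_nonneg ha0.le _
  have hbs0 : 0 ≤ b ^ s := Real.rpow_nonneg hb0.le _
  have hB₁ : 0 ≤ B₁ := (abs_nonneg _).trans h1
  have hB₂ : 0 ≤ B₂ := (abs_nonneg _).trans h2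
  -- `S₃ ≤ w Z`
  have hab1 : 1 ≤ (a * b) ^ s := Real.one_le_rpow (by nlinarith) (by linarith)
  have hS₃Z : S₃ ≤ w * Z := by
    rw [hZ]
    have : w * ((a * b) ^ s / w * S₃) = (a * b) ^ s * S₃ := by field_simp
    rw [this]
    nlinarith
  have hS₃M : (s - 1) * S₃ ≤ w * M := by
    have h3 : (s - 1) * S₃ ≤ (s - 1) * (w * Z) :=
      mul_le_mul_of_nonneg_left hS₃Z (by linarith)
    have h4 : (s - 1) * (w * Z) = w * ((s - 1) * Z) := by ring
    rw [h4] at h3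
    exact h3.trans (mul_le_mul_of_nonneg_left hZM hw.le)
  -- the difference of powers
  have hpow : |a ^ (s - 1) - b ^ (s - 1)| ≤ (s - 1) * (a + b) :=
    abs_rpow_sub_rpow_le ha hb (by linarith) (by linarith)
  have hasplit : a ^ s = a * a ^ (s - 1) := by
    rw [show s = 1 + (s - 1) by ring, Real.rpow_add ha0, Real.rpow_one]
    simp
  have hbsplit : b ^ s = b * b ^ (s - 1) := by
    rw [show s = 1 + (s - 1) by ring, Real.rpow_add hb0, Real.rpow_one]
    simp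
  have hmain : a ^ s * S₁ - b ^ s * S₂ =
      a ^ s * (S₁ - b * S₃) - b ^ s * (S₂ - a * S₃) +
        a * b * (a ^ (s - 1) - b ^ (s - 1)) * S₃ := by
    rw [hasplit, hbsplit]; ring
  have e1 : |a ^ s * (S₁ - b * S₃)| ≤ a ^ 2 * B₁ := by
    rw [abs_mul, abs_of_nonneg has0]
    exact mul_le_mul has h1 (abs_nonneg _) (by positivity)
  have e2 : |b ^ s * (S₂ - a * S₃)| ≤ b ^ 2 * B₂ := by
    rw [abs_mul, abs_of_nonneg hbs0]
    exact mul_le_mul hbs h2 (abs_nonneg _) (by positivity)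
  have e3 : |a * b * (a ^ (s - 1) - b ^ (s - 1)) * S₃| ≤ a * b * (a + b) * w * M := by
    rw [abs_mul, abs_mul, abs_of_nonneg (by positivity : (0 : ℝ) ≤ a * b), abs_of_nonneg hS₃]
    calc a * b * |a ^ (s - 1) - b ^ (s - 1)| * S₃
        ≤ a * b * ((s - 1) * (a + b)) * S₃ := by
          apply mul_le_mul_of_nonneg_right _ hS₃
          exact mul_le_mul_of_nonneg_left hpow (by positivity)
      _ = a * b * (a + b) * ((s - 1) * S₃) := by ring
      _ ≤ a * b * (a + b) * (w * M) :=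
          mul_le_mul_of_nonneg_left hS₃M (by positivity)
      _ = a * b * (a + b) * w * M := by ring
  have hfin : |a ^ s * S₁ - b ^ s * S₂| ≤ a ^ 2 * B₁ + b ^ 2 * B₂ + a * b * (a + b) * w * M := by
    rw [hmain]
    calc _ ≤ |a ^ s * (S₁ - b * S₃) - b ^ s * (S₂ - a * S₃)| +
          |a * b * (a ^ (s - 1) - b ^ (s - 1)) * S₃| := abs_add_le _ _
      _ ≤ (|a ^ s * (S₁ - b * S₃)| + |b ^ s * (S₂ - a * S₃)|) +
          |a * b * (a ^ (s - 1) - b ^ (s - 1)) * S₃| := by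
          gcongr
          exact abs_sub _ _
      _ ≤ _ := by linarith
  have : a ^ s / w * S₁ - b ^ s / w * S₂ = (a ^ s * S₁ - b ^ s * S₂) / w := by
    field_simp
  rw [this, abs_div, abs_of_pos hw]
  exact div_le_div_of_nonneg_right hfin hw.le


/-- **(U6)** assembly: the cut-off properties (U2a) and the lattice-sum formula (U3) imply that
the partial zeta functions of two classes differ by a bounded function on `(1, 2]`. -/
theorem classZetaDiffBounded_of (h2 : CutoffProps) (h3 : ClassZetaLatticeSum) :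
    ClassZetaDiffBounded := by
  intro E _ _ c c'
  obtain ⟨L, R0, hφ⟩ := czBump_cutoff h2 E
  obtain ⟨J, hJ⟩ := ClassGroup.mk0_surjective c⁻¹
  obtain ⟨J₂, hJ₂⟩ := ClassGroup.mk0_surjective c'⁻¹
  have hP : ClassGroup.mk0 (J * J₂) = (c * c')⁻¹ := by
    rw [map_mul, hJ, hJ₂, mul_inv]
  obtain ⟨M, hM0, hM⟩ := exists_sub_one_mul_zetaSum_le E
  have hPne : (J : Ideal (𝓞 E)) * (J₂ : Ideal (𝓞 E)) ≠ ⊥ := by
    have := nonZeroDivisors.coe_ne_zero (J * J₂)
    simpa using this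
  obtain ⟨B₁, hB₁⟩ := czSum_compare hφ (J : Ideal (𝓞 E))
    ((J : Ideal (𝓞 E)) * (J₂ : Ideal (𝓞 E))) hPne Ideal.mul_le_left
  obtain ⟨B₂, hB₂⟩ := czSum_compare hφ (J₂ : Ideal (𝓞 E))
    ((J : Ideal (𝓞 E)) * (J₂ : Ideal (𝓞 E))) hPne Ideal.mul_le_right
  rw [relIndex_mul_left] at hB₁
  rw [relIndex_mul_right] at hB₂
  have ha : (1 : ℝ) ≤ (Ideal.absNorm (J : Ideal (𝓞 E)) : ℝ) := by
    exact_mod_cast Nat.one_le_iff_ne_zero.mpr (Ideal.absNorm_ne_zero_of_nonZeroDivisors J)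
  have hb : (1 : ℝ) ≤ (Ideal.absNorm (J₂ : Ideal (𝓞 E)) : ℝ) := by
    exact_mod_cast Nat.one_le_iff_ne_zero.mpr (Ideal.absNorm_ne_zero_of_nonZeroDivisors J₂)
  have hw : (0 : ℝ) < (torsionOrder E : ℝ) := by
    exact_mod_cast Nat.pos_of_ne_zero (torsionOrder_ne_zero E)
  refine ⟨((Ideal.absNorm (J : Ideal (𝓞 E)) : ℝ) ^ 2 * B₁ +
    (Ideal.absNorm (J₂ : Ideal (𝓞 E)) : ℝ) ^ 2 * B₂ +
    (Ideal.absNorm (J : Ideal (𝓞 E)) : ℝ) * (Ideal.absNorm (J₂ : Ideal (𝓞 E)) : ℝ) *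
      ((Ideal.absNorm (J : Ideal (𝓞 E)) : ℝ) + (Ideal.absNorm (J₂ : Ideal (𝓞 E)) : ℝ)) *
      (torsionOrder E : ℝ) * M) / (torsionOrder E : ℝ), fun s hs1 hs2 ↦ ?_⟩
  obtain ⟨sum1, eq1⟩ := h3 E c J hJ s hs1
  obtain ⟨sum2, eq2⟩ := h3 E c' J₂ hJ₂ s hs1
  obtain ⟨sum3, eq3⟩ := h3 E (c * c') (J * J₂) hP s hs1
  have hS₃ : 0 ≤ czSum (cutoff E) s ((J : Ideal (𝓞 E)) * (J₂ : Ideal (𝓞 E))) :=
    tsum_nonneg fun γ ↦ czTerm_nonneg hφ s _
  have hZ : classZeta E (c * c') s =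
      ((Ideal.absNorm (J : Ideal (𝓞 E)) : ℝ) * (Ideal.absNorm (J₂ : Ideal (𝓞 E)) : ℝ)) ^ s /
        (torsionOrder E : ℝ) * czSum (cutoff E) s ((J : Ideal (𝓞 E)) * (J₂ : Ideal (𝓞 E))) := by
    rw [eq3, Submonoid.coe_mul, map_mul, Nat.cast_mul]
    rfl
  have hZM : (s - 1) * classZeta E (c * c') s ≤ M :=
    (mul_le_mul_of_nonneg_left (classZeta_le_zetaSum E (c * c') hs1) (by linarith)).trans
      (hM s hs1 hs2)
  have k1 := hB₁ s hs1.le hs2 sum1
  have k2 := hB₂ s hs1.le hs2 sum2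
  rw [eq1, eq2]
  exact u6_real ha hb hw hs1 hs2 hS₃ k1 k2 hZ hZM

end Fermat.Agent.S14CZ
end MergeWrap_S14_CZ_Assembly

section MergeWrap_S14_CZ_LBound -- from S14/CZ/LBound.lean

/-!
# S14, analytic route: `ClassZetaDiffBounded` implies `LBoundStatement` (P4)

`L(s, f) = ∑_c f(c) ζ(s, c)`, and if `∑_c f(c) = 0` this is `∑_c f(c) (ζ(s, c) - ζ(s, 1))`.
-/

set_option autoImplicit false

open NumberField Filter Topology
open scoped nonZeroDivisors

namespace Fermat.Agent.S14CZ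

open Fermat.Agent.S14 (classZeta ClassZetaDiffBounded)
open Fermat.Agent.S14An (classOf twWeight LVal LBoundStatement)
open Fermat.Agent.FrobDensity (normWeight zetaSum summable_normWeight normWeight_nonneg
  normWeight_bot)

open scoped Classical

variable (K : Type*) [Field K] [NumberField K]

/-- The weight `N(I)^(-s)` restricted to the nonzero ideals of the class `c`. -/
noncomputable def classWeight (c : ClassGroup (𝓞 K)) (s : ℝ) (I : Ideal (𝓞 K)) : ℝ :=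
  if I ≠ ⊥ ∧ classOf K I = c then normWeight K s I else 0

lemma classWeight_nonneg (c : ClassGroup (𝓞 K)) (s : ℝ) (I : Ideal (𝓞 K)) :
    0 ≤ classWeight K c s I := by
  unfold classWeight
  split_ifs
  · exact normWeight_nonneg s I
  · exact le_rfl

lemma classWeight_le (c : ClassGroup (𝓞 K)) (s : ℝ) (I : Ideal (𝓞 K)) :
    classWeight K c s I ≤ normWeight K s I := by
  unfold classWeight
  split_ifs
  · exact le_rfl
  · exact normWeight_nonneg s I

lemma summable_classWeight (c : ClassGroup (𝓞 K)) {s : ℝ} (hs : 1 < s) :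
    Summable (classWeight K c s) :=
  Summable.of_nonneg_of_le (classWeight_nonneg K c s) (classWeight_le K c s)
    (summable_normWeight K hs)

lemma classOf_coe (J : (Ideal (𝓞 K))⁰) : classOf K (J : Ideal (𝓞 K)) = ClassGroup.mk0 J := by
  unfold classOf
  have h : (J : Ideal (𝓞 K)) ≠ ⊥ := nonZeroDivisors.coe_ne_zero J
  rw [dif_neg h]

/-- The nonzero ideals of class `c`, as a subtype of all ideals. -/
noncomputable def classEquiv (c : ClassGroup (𝓞 K)) :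
    {J : (Ideal (𝓞 K))⁰ // ClassGroup.mk0 J = c} ≃
      {I : Ideal (𝓞 K) // I ≠ ⊥ ∧ classOf K I = c} where
  toFun J := ⟨(J.1 : Ideal (𝓞 K)), nonZeroDivisors.coe_ne_zero J.1, by rw [classOf_coe]; exact J.2⟩
  invFun I := ⟨⟨I.1, mem_nonZeroDivisors_of_ne_zero I.2.1⟩, by
    have := I.2.2
    rwa [← classOf_coe] ⟩
  left_inv J := rfl
  right_inv I := rfl

lemma tsum_classWeight (c : ClassGroup (𝓞 K)) (s : ℝ) :
    ∑' I, classWeight K c s I = classZeta K c s := by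
  have h1 : ∑' I, classWeight K c s I =
      ∑' I : {I : Ideal (𝓞 K) // I ≠ ⊥ ∧ classOf K I = c}, normWeight K s (I : Ideal (𝓞 K)) := by
    have h2 := tsum_subtype {I : Ideal (𝓞 K) | I ≠ ⊥ ∧ classOf K I = c} (normWeight K s)
    refine Eq.trans ?_ h2.symm
    refine tsum_congr fun I ↦ ?_
    unfold classWeight Set.indicator
    by_cases hI : I ≠ ⊥ ∧ classOf K I = c
    · rw [if_pos hI, if_pos (show I ∈ {I : Ideal (𝓞 K) | I ≠ ⊥ ∧ classOf K I = c} from hI)]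
    · rw [if_neg hI, if_neg (show ¬ I ∈ {I : Ideal (𝓞 K) | I ≠ ⊥ ∧ classOf K I = c} from hI)]
  rw [h1, ← (classEquiv K c).tsum_eq]
  rfl

/-- The twisted weight is the combination of the class weights. -/
lemma twWeight_eq_sum (f : ClassGroup (𝓞 K) → ℂ) {s : ℝ} (hs : s ≠ 0) (I : Ideal (𝓞 K)) :
    twWeight K f s I = ∑ c, f c * (classWeight K c s I : ℂ) := by
  unfold twWeight
  by_cases hI : I = ⊥
  · subst hI
    rw [normWeight_bot hs]
    simp [classWeight]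
  · rw [Finset.sum_eq_single (classOf K I)]
    · unfold classWeight
      rw [if_pos ⟨hI, rfl⟩]
    · intro c _ hc
      unfold classWeight
      rw [if_neg (fun h ↦ hc h.2.symm)]
      simp
    · intro h
      exact absurd (Finset.mem_univ _) h

/-- `L(s, f) = ∑_c f(c) ζ(s, c)`. -/
lemma LVal_eq_sum (f : ClassGroup (𝓞 K) → ℂ) {s : ℝ} (hs : 1 < s) :
    LVal K f s = ∑ c, f c * (classZeta K c s : ℂ) := by
  unfold LVal
  have h1 : ∀ c, Summable fun I ↦ f c * (classWeight K c s I : ℂ) := fun c ↦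
    ((Complex.summable_ofReal).mpr (summable_classWeight K c hs)).mul_left _
  calc ∑' I, twWeight K f s I = ∑' I, ∑ c, f c * (classWeight K c s I : ℂ) :=
        tsum_congr fun I ↦ twWeight_eq_sum K f (by linarith) I
    _ = ∑ c, ∑' I, f c * (classWeight K c s I : ℂ) :=
        Summable.tsum_finsetSum fun c _ ↦ h1 c
    _ = ∑ c, f c * (classZeta K c s : ℂ) := by
        refine Finset.sum_congr rfl fun c _ ↦ ?_
        rw [tsum_mul_left, ← Complex.ofReal_tsum, tsum_classWeight]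

/-- **(P4) from the analytic core.** -/
theorem lBound_of_classZetaDiffBounded (h : ClassZetaDiffBounded) : LBoundStatement := by
  intro K _ _ f hf
  choose B hB using fun c ↦ h K c 1
  refine ⟨∑ c, ‖f c‖ * B c, fun s hs1 hs2 ↦ ?_⟩
  rw [LVal_eq_sum K f hs1]
  have h0 : ∑ c, f c * (classZeta K c s : ℂ) =
      ∑ c, f c * ((classZeta K c s - classZeta K 1 s : ℝ) : ℂ) := by
    have : ∑ c, f c * ((classZeta K c s - classZeta K 1 s : ℝ) : ℂ) =
        ∑ c, f c * (classZeta K c s : ℂ) - (∑ c, f c) * (classZeta K 1 s : ℂ) := by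
      rw [Finset.sum_mul, ← Finset.sum_sub_distrib]
      refine Finset.sum_congr rfl fun c _ ↦ ?_
      push_cast
      ring
    rw [this, hf, zero_mul, sub_zero]
  rw [h0]
  refine (norm_sum_le _ _).trans (Finset.sum_le_sum fun c _ ↦ ?_)
  rw [norm_mul, Complex.norm_real, Real.norm_eq_abs]
  exact mul_le_mul_of_nonneg_left (hB c s hs1 hs2) (norm_nonneg _)

end Fermat.Agent.S14CZ
end MergeWrap_S14_CZ_LBound

section MergeWrap_S14_CZ_Final -- from S14/CZ/Final.lean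

/-!
# S14, analytic core (second route): partial zeta functions of two ideal classes differ by a
bounded function on `(1, 2]`, unconditionally; hence `L(s, f)` is bounded when `∑ f = 0`.
-/

namespace Fermat.Agent.S14CZ

/-- Partial zeta functions of two ideal classes differ by a bounded function on `(1, 2]`. -/
theorem classZetaDiffBounded : Fermat.Agent.S14.ClassZetaDiffBounded :=
  classZetaDiffBounded_of Fermat.Agent.S14.cutoffProps Fermat.Agent.S14.classZetaLatticeSum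

/-- Second proof of `LBoundStatement` (no lattice point counting). -/
theorem lBoundStatement' : Fermat.Agent.S14An.LBoundStatement :=
  lBound_of_classZetaDiffBounded classZetaDiffBounded

end Fermat.Agent.S14CZ
end MergeWrap_S14_CZ_Final

section MergeWrap_F4_Ray_Shift -- from F4/Ray/Shift.lean

/-!
# F4 / GLOB: the partial zeta functions `Z_{C, g}` (RB4)

`Z_{C, g}(s) = n(P) / (w N(m)) * Y(s) + O(1)` on `(1, 2]`, where `Y` is the smoothed sum over the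
ring of integers and `n(P)` is the number of residue classes modulo `m` satisfying the condition
`P = rayPred m cls (g * cls J)`, `J` a representative prime to `m` of the class `C⁻¹`.
-/

set_option autoImplicit false
set_option linter.unusedSectionVars false

open NumberField NumberField.InfinitePlace NumberField.mixedEmbedding NumberField.Units
  NumberField.Units.dirichletUnitTheorem Module
open scoped nonZeroDivisors

namespace Fermat.Agent.F4Ray

open Fermat.Agent.S14 (czF classZeta cutoff CutoffProps ClassZetaLatticeSum)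
open Fermat.Agent.S14CZ
open Fermat.Agent.FrobDensity (zetaSum)

open scoped Classical

/-- Real-number bookkeeping. -/
lemma ray_real {a b w n s S T Y B₁ B₂ M : ℝ} (ha : 1 ≤ a) (hb : 1 ≤ b) (hw : 0 < w)
    (hn : 0 ≤ n) (hs1 : 1 < s) (hs2 : s ≤ 2) (hY : 0 ≤ Y)
    (h1 : |S - n * T| ≤ B₁) (h2 : |Y - a * b * T| ≤ B₂) (hYM : (s - 1) * Y ≤ M) :
    |a ^ s / w * S - n / (w * b) * Y| ≤ (a ^ 2 * B₁ + n * a / b * B₂ + n / b * (a + 1) * M) / w := by
  have ha0 : 0 < a := by linarith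
  have hb0 : 0 < b := by linarith
  have has : a ^ s ≤ a ^ 2 := by
    have := Real.rpow_le_rpow_of_exponent_le ha hs2
    rwa [Real.rpow_two] at this
  have has0 : 0 ≤ a ^ s := Real.rpow_nonneg ha0.le _
  have hB₁ : 0 ≤ B₁ := (abs_nonneg _).trans h1
  have hB₂ : 0 ≤ B₂ := (abs_nonneg _).trans h2
  have hat0 : 0 ≤ a ^ (s - 1) := Real.rpow_nonneg ha0.le _
  have hat : a ^ (s - 1) ≤ a := by
    have := Real.rpow_le_rpow_of_exponent_le ha (by linarith : s - 1 ≤ 1)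
    rwa [Real.rpow_one] at this
  have hpow : |a ^ (s - 1) - 1| ≤ (s - 1) * (a + 1) := by
    have := abs_rpow_sub_rpow_le ha (le_refl (1 : ℝ)) (by linarith : 0 ≤ s - 1)
      (by linarith : s - 1 ≤ 1)
    rwa [Real.one_rpow] at this
  have hasplit : a ^ s = a * a ^ (s - 1) := by
    rw [show s = 1 + (s - 1) by ring, Real.rpow_add ha0, Real.rpow_one]
    simp
  have hmain : a ^ s * S - n / b * Y =
      a ^ s * (S - n * T) - n * a ^ (s - 1) / b * (Y - a * b * T) +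
        n / b * (a ^ (s - 1) - 1) * Y := by
    rw [hasplit]; field_simp; ring
  have hnb : 0 ≤ n / b := div_nonneg hn hb0.le
  have e1 : |a ^ s * (S - n * T)| ≤ a ^ 2 * B₁ := by
    rw [abs_mul, abs_of_nonneg has0]
    exact mul_le_mul has h1 (abs_nonneg _) (by positivity)
  have e2 : |n * a ^ (s - 1) / b * (Y - a * b * T)| ≤ n * a / b * B₂ := by
    rw [abs_mul, abs_of_nonneg (by positivity : (0 : ℝ) ≤ n * a ^ (s - 1) / b)]
    refine mul_le_mul ?_ h2 (abs_nonneg _) (by positivity)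
    exact div_le_div_of_nonneg_right (mul_le_mul_of_nonneg_left hat hn) hb0.le
  have e3 : |n / b * (a ^ (s - 1) - 1) * Y| ≤ n / b * (a + 1) * M := by
    rw [abs_mul, abs_mul, abs_of_nonneg hnb, abs_of_nonneg hY]
    calc n / b * |a ^ (s - 1) - 1| * Y
        ≤ n / b * ((s - 1) * (a + 1)) * Y := by
          apply mul_le_mul_of_nonneg_right _ hY
          exact mul_le_mul_of_nonneg_left hpow hnb
      _ = n / b * (a + 1) * ((s - 1) * Y) := by ring
      _ ≤ n / b * (a + 1) * M :=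
          mul_le_mul_of_nonneg_left hYM (by positivity)
  have hfin : |a ^ s * S - n / b * Y| ≤ a ^ 2 * B₁ + n * a / b * B₂ + n / b * (a + 1) * M := by
    rw [hmain]
    calc _ ≤ |a ^ s * (S - n * T) - n * a ^ (s - 1) / b * (Y - a * b * T)| +
          |n / b * (a ^ (s - 1) - 1) * Y| := abs_add_le _ _
      _ ≤ (|a ^ s * (S - n * T)| + |n * a ^ (s - 1) / b * (Y - a * b * T)|) +
          |n / b * (a ^ (s - 1) - 1) * Y| := by
          gcongr
          exact abs_sub _ _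
      _ ≤ _ := by linarith
  have : a ^ s / w * S - n / (w * b) * Y = (a ^ s * S - n / b * Y) / w := by
    field_simp
  rw [this, abs_div, abs_of_pos hw]
  exact div_le_div_of_nonneg_right hfin hw.le

variable {E : Type} [Field E] [NumberField E]

/-- The element `⊤` of `(Ideal (𝓞 E))⁰`. -/
noncomputable def topIdeal0 (E : Type) [Field E] [NumberField E] : (Ideal (𝓞 E))⁰ :=
  ⟨⊤, mem_nonZeroDivisors_of_ne_zero (by simp)⟩

lemma mk0_topIdeal0 : ClassGroup.mk0 (topIdeal0 E) = (1 : ClassGroup (𝓞 E))⁻¹ := by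
  rw [inv_one]
  exact (ClassGroup.mk0_eq_one_iff _).mpr inferInstance

/-- The smoothed sum over the ring of integers: summability and `(s - 1) Y(s) = O(1)`. -/
lemma czSum_top_bound (E : Type) [Field E] [NumberField E] :
    ∃ M : ℝ, ∀ s : ℝ, 1 < s → s ≤ 2 →
      Summable (fun γ : (⊤ : Ideal (𝓞 E)) ↦ czTerm (cutoff E) s (γ : 𝓞 E)) ∧
      0 ≤ czSum (cutoff E) s (⊤ : Ideal (𝓞 E)) ∧
      (s - 1) * czSum (cutoff E) s (⊤ : Ideal (𝓞 E)) ≤ M := by
  obtain ⟨L, R0, hφ⟩ := czBump_cutoff Fermat.Agent.S14.cutoffProps E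
  obtain ⟨M, hM0, hM⟩ := exists_sub_one_mul_zetaSum_le E
  have hw : (0 : ℝ) < (torsionOrder E : ℝ) := by
    exact_mod_cast Nat.pos_of_ne_zero (torsionOrder_ne_zero E)
  refine ⟨(torsionOrder E : ℝ) * M, fun s hs1 hs2 ↦ ?_⟩
  obtain ⟨sum1, eq1⟩ := Fermat.Agent.S14.classZetaLatticeSum E 1 (topIdeal0 E) mk0_topIdeal0 s hs1
  have hY0 : 0 ≤ czSum (cutoff E) s (⊤ : Ideal (𝓞 E)) :=
    tsum_nonneg fun γ ↦ czTerm_nonneg hφ s _
  refine ⟨sum1, hY0, ?_⟩
  have eq2 : classZeta E 1 s = 1 / (torsionOrder E : ℝ) * czSum (cutoff E) s (⊤ : Ideal (𝓞 E)) := by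
    rw [eq1]
    have : Ideal.absNorm ((topIdeal0 E : (Ideal (𝓞 E))⁰) : Ideal (𝓞 E)) = 1 := Ideal.absNorm_top
    rw [this, Nat.cast_one, Real.one_rpow]
    rfl
  have eq3 : czSum (cutoff E) s (⊤ : Ideal (𝓞 E)) = (torsionOrder E : ℝ) * classZeta E 1 s := by
    rw [eq2]; field_simp
  have hZM : (s - 1) * classZeta E 1 s ≤ M :=
    (mul_le_mul_of_nonneg_left (classZeta_le_zetaSum E 1 hs1) (by linarith)).trans
      (hM s hs1 hs2)
  rw [eq3]
  calc (s - 1) * ((torsionOrder E : ℝ) * classZeta E 1 s)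
      = (torsionOrder E : ℝ) * ((s - 1) * classZeta E 1 s) := by ring
    _ ≤ (torsionOrder E : ℝ) * M := mul_le_mul_of_nonneg_left hZM hw.le

/-- The index of an ideal in the ring of integers. -/
lemma relIndex_top (I : Ideal (𝓞 E)) :
    I.toAddSubgroup.relIndex (⊤ : Ideal (𝓞 E)).toAddSubgroup = Ideal.absNorm I := by
  rw [Submodule.top_toAddSubgroup, AddSubgroup.relIndex_top_right, Ideal.absNorm_apply,
    Submodule.cardQuot_apply]
  rfl

variable {m : Ideal (𝓞 E)} {G : Type} [CommGroup G] {cls : Ideal (𝓞 E) → G}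

/-- The ideals of the class `C`, prime to `m`, of value `g`, in terms of the generators of
`I * J`. -/
lemma rayZC_set_iff (h : RayClassMap E m G cls) (C : ClassGroup (𝓞 E)) (J : (Ideal (𝓞 E))⁰)
    (hJ : ClassGroup.mk0 J = C⁻¹) (hJm : (J : Ideal (𝓞 E)) ⊔ m = ⊤) (g : G)
    (I : (Ideal (𝓞 E))⁰) :
    (ClassGroup.mk0 I = C ∧ (I : Ideal (𝓞 E)) ⊔ m = ⊤ ∧ cls (I : Ideal (𝓞 E)) = g) ↔
    (ClassGroup.mk0 I = C ∧ ∃ γ : 𝓞 E, Ideal.span {γ} = (I : Ideal (𝓞 E)) * (J : Ideal (𝓞 E)) ∧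
      rayPred m cls (g * cls (J : Ideal (𝓞 E))) γ) := by
  have hIJ0 : (I : Ideal (𝓞 E)) * (J : Ideal (𝓞 E)) ≠ ⊥ := by
    have := nonZeroDivisors.coe_ne_zero (I * J)
    simpa using this
  have hγ0 : ∀ γ : 𝓞 E, Ideal.span {γ} = (I : Ideal (𝓞 E)) * (J : Ideal (𝓞 E)) → γ ≠ 0 := by
    intro γ hγ h0
    rw [h0] at hγ
    exact hIJ0 (hγ.symm.trans (Ideal.span_singleton_eq_bot.mpr rfl))
  constructor
  · rintro ⟨hC, hIm, hg⟩
    refine ⟨hC, ?_⟩
    have hprin : ((I : Ideal (𝓞 E)) * (J : Ideal (𝓞 E))).IsPrincipal := by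
      have h1 : ClassGroup.mk0 (I * J) = 1 := by rw [map_mul, hC, hJ, mul_inv_cancel]
      have h2 := (ClassGroup.mk0_eq_one_iff (I * J).2).mp h1
      simpa using h2
    obtain ⟨γ, hγ⟩ := hprin
    have hγ' : Ideal.span {γ} = (I : Ideal (𝓞 E)) * (J : Ideal (𝓞 E)) := hγ.symm
    refine ⟨γ, hγ', ?_⟩
    have hcop : Ideal.span {γ} ⊔ m = ⊤ := by
      rw [hγ']
      exact Ideal.isCoprime_iff_sup_eq.mp
        (IsCoprime.mul_left (Ideal.isCoprime_iff_sup_eq.mpr hIm)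
          (Ideal.isCoprime_iff_sup_eq.mpr hJm))
    rw [rayPred_iff h _ (hγ0 γ hγ') hcop, hγ', h.mul _ _ hIm hJm, hg]
  · rintro ⟨hC, γ, hγ, hP⟩
    have hcop : Ideal.span {γ} ⊔ m = ⊤ := hP.1
    have hIm : (I : Ideal (𝓞 E)) ⊔ m = ⊤ := by
      rw [eq_top_iff, ← hcop, hγ]
      exact sup_le_sup_right Ideal.mul_le_left _
    refine ⟨hC, hIm, ?_⟩
    have h1 := (rayPred_iff h _ (hγ0 γ hγ) hcop).mp hP
    rw [hγ, h.mul _ _ hIm hJm] at h1
    exact mul_right_cancel h1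

/-- **(RB5)** `Z_{C, g}(s) = n(P) / (w N(m)) * Y(s) + O(1)`. -/
theorem rayZC_approx (h : RayClassMap E m G cls) (C : ClassGroup (𝓞 E)) (J : (Ideal (𝓞 E))⁰)
    (hJ : ClassGroup.mk0 J = C⁻¹) (hJm : (J : Ideal (𝓞 E)) ⊔ m = ⊤) (g : G) :
    ∃ B : ℝ, ∀ s : ℝ, 1 < s → s ≤ 2 →
      |rayZC E m cls C g s -
        (rayCount m (rayPred m cls (g * cls (J : Ideal (𝓞 E)))) : ℝ) /
          ((torsionOrder E : ℝ) * (Ideal.absNorm m : ℝ)) *
          czSum (cutoff E) s (⊤ : Ideal (𝓞 E))| ≤ B := by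
  obtain ⟨L, R0, hφ⟩ := czBump_cutoff Fermat.Agent.S14.cutoffProps E
  obtain ⟨M, hM⟩ := czSum_top_bound E
  have hJ0 : (J : Ideal (𝓞 E)) ≠ ⊥ := nonZeroDivisors.coe_ne_zero J
  have hJm0 : (J : Ideal (𝓞 E)) * m ≠ ⊥ := mul_ne_zero hJ0 h.m_ne_bot
  obtain ⟨B₁, hB₁⟩ := predSum_compare hφ (J : Ideal (𝓞 E)) m h.m_ne_bot hJm
    (rayPred m cls (g * cls (J : Ideal (𝓞 E)))) (fun γ μ hμ ↦ rayPred_add_mem _ hμ)
  obtain ⟨B₂, hB₂⟩ := czSum_compare hφ (⊤ : Ideal (𝓞 E)) ((J : Ideal (𝓞 E)) * m) hJm0 le_top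
  rw [relIndex_top, map_mul, Nat.cast_mul] at hB₂
  have ha : (1 : ℝ) ≤ (Ideal.absNorm (J : Ideal (𝓞 E)) : ℝ) := by
    exact_mod_cast Nat.one_le_iff_ne_zero.mpr (Ideal.absNorm_ne_zero_of_nonZeroDivisors J)
  have hb : (1 : ℝ) ≤ (Ideal.absNorm m : ℝ) := by
    have : Ideal.absNorm m ≠ 0 := fun h0 ↦ h.m_ne_bot (Ideal.absNorm_eq_zero_iff.mp h0)
    exact_mod_cast Nat.one_le_iff_ne_zero.mpr this
  have hw : (0 : ℝ) < (torsionOrder E : ℝ) := by
    exact_mod_cast Nat.pos_of_ne_zero (torsionOrder_ne_zero E)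
  have hn : (0 : ℝ) ≤ (rayCount m (rayPred m cls (g * cls (J : Ideal (𝓞 E)))) : ℝ) :=
    Nat.cast_nonneg _
  refine ⟨((Ideal.absNorm (J : Ideal (𝓞 E)) : ℝ) ^ 2 * B₁ +
    (rayCount m (rayPred m cls (g * cls (J : Ideal (𝓞 E)))) : ℝ) *
      (Ideal.absNorm (J : Ideal (𝓞 E)) : ℝ) / (Ideal.absNorm m : ℝ) * B₂ +
    (rayCount m (rayPred m cls (g * cls (J : Ideal (𝓞 E)))) : ℝ) / (Ideal.absNorm m : ℝ) *
      ((Ideal.absNorm (J : Ideal (𝓞 E)) : ℝ) + 1) * M) / (torsionOrder E : ℝ),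
    fun s hs1 hs2 ↦ ?_⟩
  obtain ⟨sumJ, -⟩ := Fermat.Agent.S14.classZetaLatticeSum E C J hJ s hs1
  obtain ⟨-, eqP⟩ := classZetaLatticeSumPred E C J hJ
    (rayPred m cls (g * cls (J : Ideal (𝓞 E)))) (fun u γ ↦ rayPred_unit_mul _ u γ) s hs1
  obtain ⟨sumY, hY0, hYM⟩ := hM s hs1 hs2
  have k1 := hB₁ s hs1.le hs2 sumJ
  have k2 := hB₂ s hs1.le hs2 sumY
  have eqZ : rayZC E m cls C g s =
      ((Ideal.absNorm (J : Ideal (𝓞 E)) : ℕ) : ℝ) ^ s / (torsionOrder E : ℝ) *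
        ∑' γ : (J : Ideal (𝓞 E)),
          (if rayPred m cls (g * cls (J : Ideal (𝓞 E))) (γ : 𝓞 E)
            then czTerm (cutoff E) s (γ : 𝓞 E) else 0) := by
    refine Eq.trans ?_ eqP
    unfold rayZC
    exact (Equiv.subtypeEquivRight (rayZC_set_iff h C J hJ hJm g)).tsum_eq
      (fun I ↦ ((Ideal.absNorm ((I : (Ideal (𝓞 E))⁰) : Ideal (𝓞 E)) : ℕ) : ℝ) ^ (-s))
  rw [eqZ]
  exact ray_real ha hb hw hn hs1 hs2 hY0 k1 k2 hYM

/-- **(RB4)** -/
theorem rayZCShiftBounded : RayZCShiftBounded := by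
  intro E _ _ m G _ _ cls h 𝔠 h𝔠 C g
  obtain ⟨J, hJ, hJm⟩ := exists_rep_coprime h.m_ne_bot C⁻¹
  have hJ𝔠 : ClassGroup.mk0 (J * 𝔠) = (C * (ClassGroup.mk0 𝔠)⁻¹)⁻¹ := by
    rw [map_mul, hJ, mul_inv, inv_inv]
  have hJ𝔠m : ((J * 𝔠 : (Ideal (𝓞 E))⁰) : Ideal (𝓞 E)) ⊔ m = ⊤ := by
    rw [Submonoid.coe_mul]
    exact Ideal.isCoprime_iff_sup_eq.mp
      (IsCoprime.mul_left (Ideal.isCoprime_iff_sup_eq.mpr hJm)
        (Ideal.isCoprime_iff_sup_eq.mpr h𝔠))
  obtain ⟨B₁, hB₁⟩ := rayZC_approx h C J hJ hJm (g * cls (𝔠 : Ideal (𝓞 E)))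
  obtain ⟨B₂, hB₂⟩ := rayZC_approx h (C * (ClassGroup.mk0 𝔠)⁻¹) (J * 𝔠) hJ𝔠 hJ𝔠m g
  have hg : g * cls (((J * 𝔠 : (Ideal (𝓞 E))⁰)) : Ideal (𝓞 E)) =
      g * cls (𝔠 : Ideal (𝓞 E)) * cls (J : Ideal (𝓞 E)) := by
    rw [Submonoid.coe_mul, h.mul _ _ hJm h𝔠, mul_assoc, mul_comm (cls (J : Ideal (𝓞 E)))]
  rw [hg] at hB₂
  refine ⟨B₁ + B₂, fun s hs1 hs2 ↦ ?_⟩
  have k1 := hB₁ s hs1 hs2
  have k2 := hB₂ s hs1 hs2
  rw [abs_le] at k1 k2 ⊢
  constructor <;> linarith [k1.1, k1.2, k2.1, k2.2]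

end Fermat.Agent.F4Ray
end MergeWrap_F4_Ray_Shift

section MergeWrap_F4_Ray_Bookkeeping -- from F4/Ray/Bookkeeping.lean

/-!
# F4 / GLOB: analytic second inequality with modulus — bookkeeping (helper54)

Pure `tsum` bookkeeping for the partial zeta functions `rayZ`, `rayZC` of `LBoundDefs.lean`:

* `rayLValEqSum : RayLValEqSum`   (RB1)  `L(s, f ∘ cls) = ∑_g f g * Z_g(s)`;
* `rayZEqSum : RayZEqSum`         (RB2)  `Z_g = ∑_C Z_{C, g}`;
* `rayZDiffBounded_of_shift : RayZCShiftBounded → RayZDiffBounded`;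
* `rayLBound_of_rayZDiffBounded : RayZDiffBounded → RayLBound`.
-/

set_option autoImplicit false

open NumberField
open scoped nonZeroDivisors Classical

namespace Fermat.Agent.F4Ray

open Fermat.Agent.FrobDensity (normWeight summable_normWeight normWeight_nonneg)

section Terms

variable (E : Type) [Field E] [NumberField E] (m : Ideal (𝓞 E)) {G : Type}
  (cls : Ideal (𝓞 E) → G)

/-- the summand of `rayZ`. -/
noncomputable def rbTerm (g : G) (s : ℝ) (I : Ideal (𝓞 E)) : ℝ :=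
  if I ≠ ⊥ ∧ I ⊔ m = ⊤ ∧ cls I = g then ((Ideal.absNorm I : ℕ) : ℝ) ^ (-s) else 0

theorem rayZ_eq_tsum_rbTerm (g : G) (s : ℝ) :
    rayZ E m cls g s = ∑' I : Ideal (𝓞 E), rbTerm E m cls g s I := rfl

theorem rbTerm_nonneg (g : G) (s : ℝ) (I : Ideal (𝓞 E)) : 0 ≤ rbTerm E m cls g s I := by
  unfold rbTerm
  split_ifs
  · exact Real.rpow_nonneg (Nat.cast_nonneg _) _
  · exact le_rfl

theorem rbTerm_le (g : G) (s : ℝ) (I : Ideal (𝓞 E)) :
    rbTerm E m cls g s I ≤ normWeight E s I := by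
  unfold rbTerm
  split_ifs
  · exact le_rfl
  · exact normWeight_nonneg s I

theorem summable_rbTerm (g : G) {s : ℝ} (hs : 1 < s) : Summable (rbTerm E m cls g s) :=
  Summable.of_nonneg_of_le (rbTerm_nonneg E m cls g s) (rbTerm_le E m cls g s)
    (summable_normWeight E hs)

/-- the summand of `rayZC`, as a function on all ideals. -/
noncomputable def rbTermC (C : ClassGroup (𝓞 E)) (g : G) (s : ℝ) (I : Ideal (𝓞 E)) : ℝ :=
  if ∃ h : I ≠ ⊥, ClassGroup.mk0 ⟨I, mem_nonZeroDivisors_of_ne_zero h⟩ = C ∧ I ⊔ m = ⊤ ∧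
      cls I = g then ((Ideal.absNorm I : ℕ) : ℝ) ^ (-s) else 0

theorem rbTermC_nonneg (C : ClassGroup (𝓞 E)) (g : G) (s : ℝ) (I : Ideal (𝓞 E)) :
    0 ≤ rbTermC E m cls C g s I := by
  unfold rbTermC
  split_ifs
  · exact Real.rpow_nonneg (Nat.cast_nonneg _) _
  · exact le_rfl

theorem rbTermC_le (C : ClassGroup (𝓞 E)) (g : G) (s : ℝ) (I : Ideal (𝓞 E)) :
    rbTermC E m cls C g s I ≤ normWeight E s I := by
  unfold rbTermC
  split_ifs
  · exact le_rfl
  · exact normWeight_nonneg s I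

theorem summable_rbTermC (C : ClassGroup (𝓞 E)) (g : G) {s : ℝ} (hs : 1 < s) :
    Summable (rbTermC E m cls C g s) :=
  Summable.of_nonneg_of_le (rbTermC_nonneg E m cls C g s) (rbTermC_le E m cls C g s)
    (summable_normWeight E hs)

/-- the index set of `rayZC` as a subtype of all ideals. -/
noncomputable def rbEquiv (C : ClassGroup (𝓞 E)) (g : G) :
    {I : (Ideal (𝓞 E))⁰ // ClassGroup.mk0 I = C ∧ (I : Ideal (𝓞 E)) ⊔ m = ⊤ ∧
      cls (I : Ideal (𝓞 E)) = g} ≃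
    {I : Ideal (𝓞 E) // ∃ h : I ≠ ⊥, ClassGroup.mk0 ⟨I, mem_nonZeroDivisors_of_ne_zero h⟩ = C ∧
      I ⊔ m = ⊤ ∧ cls I = g} where
  toFun J := ⟨(J.1 : Ideal (𝓞 E)), nonZeroDivisors.coe_ne_zero J.1, J.2⟩
  invFun I := ⟨⟨I.1, mem_nonZeroDivisors_of_ne_zero I.2.choose⟩, I.2.choose_spec⟩
  left_inv _ := rfl
  right_inv _ := rfl

theorem tsum_rbTermC (C : ClassGroup (𝓞 E)) (g : G) (s : ℝ) :
    ∑' I, rbTermC E m cls C g s I = rayZC E m cls C g s := by
  have h1 : ∑' I, rbTermC E m cls C g s I =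
      ∑' I : {I : Ideal (𝓞 E) // ∃ h : I ≠ ⊥,
        ClassGroup.mk0 ⟨I, mem_nonZeroDivisors_of_ne_zero h⟩ = C ∧ I ⊔ m = ⊤ ∧ cls I = g},
        ((Ideal.absNorm (I : Ideal (𝓞 E)) : ℕ) : ℝ) ^ (-s) := by
    have h2 := tsum_subtype {I : Ideal (𝓞 E) | ∃ h : I ≠ ⊥,
        ClassGroup.mk0 ⟨I, mem_nonZeroDivisors_of_ne_zero h⟩ = C ∧ I ⊔ m = ⊤ ∧ cls I = g}
      (fun I : Ideal (𝓞 E) => ((Ideal.absNorm I : ℕ) : ℝ) ^ (-s))
    refine Eq.trans ?_ h2.symm
    refine tsum_congr fun I ↦ ?_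
    unfold rbTermC Set.indicator
    by_cases hI : ∃ h : I ≠ ⊥,
        ClassGroup.mk0 ⟨I, mem_nonZeroDivisors_of_ne_zero h⟩ = C ∧ I ⊔ m = ⊤ ∧ cls I = g
    · rw [if_pos hI, if_pos (show I ∈ {I : Ideal (𝓞 E) | ∃ h : I ≠ ⊥,
        ClassGroup.mk0 ⟨I, mem_nonZeroDivisors_of_ne_zero h⟩ = C ∧ I ⊔ m = ⊤ ∧ cls I = g}
        from hI)]
    · rw [if_neg hI, if_neg (show ¬ I ∈ {I : Ideal (𝓞 E) | ∃ h : I ≠ ⊥,
        ClassGroup.mk0 ⟨I, mem_nonZeroDivisors_of_ne_zero h⟩ = C ∧ I ⊔ m = ⊤ ∧ cls I = g}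
        from hI)]
  rw [h1, ← (rbEquiv E m cls C g).tsum_eq]
  rfl

/-- splitting by the ideal class. -/
theorem rbTerm_eq_sum (g : G) (s : ℝ) (I : Ideal (𝓞 E)) :
    rbTerm E m cls g s I = ∑ C : ClassGroup (𝓞 E), rbTermC E m cls C g s I := by
  by_cases hI : I = ⊥
  · subst hI
    have h0 : ∀ C : ClassGroup (𝓞 E), rbTermC E m cls C g s ⊥ = 0 := by
      intro C
      unfold rbTermC
      rw [if_neg]
      rintro ⟨h, -⟩
      exact h rfl
    simp only [h0, Finset.sum_const_zero]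
    unfold rbTerm
    rw [if_neg]
    rintro ⟨h, -⟩
    exact h rfl
  · rw [Finset.sum_eq_single (ClassGroup.mk0 ⟨I, mem_nonZeroDivisors_of_ne_zero hI⟩)]
    · unfold rbTerm rbTermC
      by_cases h : I ⊔ m = ⊤ ∧ cls I = g
      · rw [if_pos ⟨hI, h⟩, if_pos ⟨hI, rfl, h⟩]
      · rw [if_neg (fun h' => h h'.2), if_neg]
        rintro ⟨_, -, h'⟩
        exact h h'
    · intro C _ hC
      unfold rbTermC
      rw [if_neg]
      rintro ⟨_, h', -⟩
      exact hC h'.symm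
    · intro h
      exact absurd (Finset.mem_univ _) h

end Terms

/-- **(RB2)** `Z_g = ∑_C Z_{C, g}`. -/
theorem rayZEqSum : RayZEqSum := by
  intro E _ _ m G cls g s hs
  rw [rayZ_eq_tsum_rbTerm]
  calc ∑' I, rbTerm E m cls g s I = ∑' I, ∑ C : ClassGroup (𝓞 E), rbTermC E m cls C g s I :=
        tsum_congr fun I ↦ rbTerm_eq_sum E m cls g s I
    _ = ∑ C : ClassGroup (𝓞 E), ∑' I, rbTermC E m cls C g s I :=
        Summable.tsum_finsetSum fun C _ ↦ summable_rbTermC E m cls C g hs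
    _ = ∑ C : ClassGroup (𝓞 E), rayZC E m cls C g s :=
        Finset.sum_congr rfl fun C _ ↦ tsum_rbTermC E m cls C g s

/-- the weight of `rayLVal` is the combination of the terms of the `rayZ`. -/
theorem rayWeight_eq_sum (E : Type) [Field E] [NumberField E] (m : Ideal (𝓞 E)) {G : Type}
    [Fintype G] (cls : Ideal (𝓞 E) → G) (f : G → ℂ) (s : ℝ) (I : Ideal (𝓞 E)) :
    rayWeight E m cls f s I = ∑ g, f g * ((rbTerm E m cls g s I : ℝ) : ℂ) := by
  unfold rayWeight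
  by_cases hI : I ≠ ⊥ ∧ I ⊔ m = ⊤
  · rw [if_pos hI, Finset.sum_eq_single (cls I)]
    · unfold rbTerm
      rw [if_pos ⟨hI.1, hI.2, rfl⟩]
    · intro g _ hg
      unfold rbTerm
      rw [if_neg (fun h ↦ hg h.2.2.symm)]
      simp
    · intro h
      exact absurd (Finset.mem_univ _) h
  · rw [if_neg hI]
    symm
    refine Finset.sum_eq_zero fun g _ ↦ ?_
    unfold rbTerm
    rw [if_neg (fun h ↦ hI ⟨h.1, h.2.1⟩)]
    simp

/-- **(RB1)** `L(s, f ∘ cls) = ∑_g f g * Z_g(s)`. -/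
theorem rayLValEqSum : RayLValEqSum := by
  intro E _ _ m G _ _ cls f s hs
  unfold rayLVal
  have h1 : ∀ g, Summable fun I ↦ f g * ((rbTerm E m cls g s I : ℝ) : ℂ) := fun g ↦
    ((Complex.summable_ofReal).mpr (summable_rbTerm E m cls g hs)).mul_left _
  calc ∑' I, rayWeight E m cls f s I = ∑' I, ∑ g, f g * ((rbTerm E m cls g s I : ℝ) : ℂ) :=
        tsum_congr fun I ↦ rayWeight_eq_sum E m cls f s I
    _ = ∑ g, ∑' I, f g * ((rbTerm E m cls g s I : ℝ) : ℂ) :=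
        Summable.tsum_finsetSum fun g _ ↦ h1 g
    _ = ∑ g, f g * ((rayZ E m cls g s : ℝ) : ℂ) := by
        refine Finset.sum_congr rfl fun g _ ↦ ?_
        rw [tsum_mul_left, ← Complex.ofReal_tsum, rayZ_eq_tsum_rbTerm]

/-- **(RB3) from (RB4).** -/
theorem rayZDiffBounded_of_shift (h : RayZCShiftBounded) : RayZDiffBounded := by
  intro E _ _ m G _ _ cls hcls g g'
  -- an ideal `𝔠` prime to `m` with `cls 𝔠 = g'⁻¹ * g`
  obtain ⟨𝔠, h𝔠0, h𝔠m, h𝔠⟩ := hcls.surj (g'⁻¹ * g)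
  set 𝔠' : (Ideal (𝓞 E))⁰ := ⟨𝔠, mem_nonZeroDivisors_of_ne_zero h𝔠0⟩ with h𝔠'
  choose B hB using fun C : ClassGroup (𝓞 E) ↦ h E m G cls hcls 𝔠' h𝔠m C g'
  refine ⟨∑ C : ClassGroup (𝓞 E), B C, fun s hs1 hs2 ↦ ?_⟩
  have hg : g' * cls ((𝔠' : (Ideal (𝓞 E))⁰) : Ideal (𝓞 E)) = g := by
    show g' * cls 𝔠 = g
    rw [h𝔠, mul_inv_cancel_left]
  have e1 : rayZ E m cls g s = ∑ C : ClassGroup (𝓞 E), rayZC E m cls C g s :=
    rayZEqSum E m G cls g s hs1
  have e2 : rayZ E m cls g' s =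
      ∑ C : ClassGroup (𝓞 E), rayZC E m cls (C * (ClassGroup.mk0 𝔠')⁻¹) g' s := by
    rw [rayZEqSum E m G cls g' s hs1]
    exact (Equiv.sum_comp (Equiv.mulRight (ClassGroup.mk0 𝔠')⁻¹)
      (fun C ↦ rayZC E m cls C g' s)).symm
  rw [e1, e2, ← Finset.sum_sub_distrib]
  refine (Finset.abs_sum_le_sum_abs _ _).trans (Finset.sum_le_sum fun C _ ↦ ?_)
  have := hB C s hs1 hs2
  rwa [hg] at this

/-- **(P4 with modulus) from (RB3).** -/
theorem rayLBound_of_rayZDiffBounded (h : RayZDiffBounded) : RayLBound := by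
  intro E _ _ m G _ _ cls hcls f hf
  choose B hB using fun g ↦ h E m G cls hcls g 1
  refine ⟨∑ g, ‖f g‖ * B g, fun s hs1 hs2 ↦ ?_⟩
  rw [rayLValEqSum E m G cls f s hs1]
  have h0 : ∑ g, f g * ((rayZ E m cls g s : ℝ) : ℂ) =
      ∑ g, f g * ((rayZ E m cls g s - rayZ E m cls 1 s : ℝ) : ℂ) := by
    have : ∑ g, f g * ((rayZ E m cls g s - rayZ E m cls 1 s : ℝ) : ℂ) =
        ∑ g, f g * ((rayZ E m cls g s : ℝ) : ℂ) - (∑ g, f g) * ((rayZ E m cls 1 s : ℝ) : ℂ) := by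
      rw [Finset.sum_mul, ← Finset.sum_sub_distrib]
      refine Finset.sum_congr rfl fun g _ ↦ ?_
      push_cast
      ring
    rw [this, hf, zero_mul, sub_zero]
  rw [h0]
  refine (norm_sum_le _ _).trans (Finset.sum_le_sum fun g _ ↦ ?_)
  rw [norm_mul, Complex.norm_real, Real.norm_eq_abs]
  exact mul_le_mul_of_nonneg_left (hB g s hs1 hs2) (norm_nonneg _)

end Fermat.Agent.F4Ray
end MergeWrap_F4_Ray_Bookkeeping

section MergeWrap_F4_Ray_RayEuler -- from F4/Ray/RayEuler.lean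

set_option autoImplicit false

open NumberField IsDedekindDomain Filter Topology
open scoped nonZeroDivisors

namespace Fermat.Agent.F4Ray

open Fermat.Agent.FrobDensity Fermat.Agent.S14An

section weight

variable {E : Type} [Field E] [NumberField E] {m : Ideal (𝓞 E)} {G : Type} [CommGroup G]
  {cls : Ideal (𝓞 E) → G}

/-- The weight `ψ (cls I) N(I)^(-s)` attached to a character `ψ`. -/
noncomputable def chWeight (E : Type) [Field E] [NumberField E] (m : Ideal (𝓞 E)) {G : Type}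
    [CommGroup G] (cls : Ideal (𝓞 E) → G) (ψ : G →* ℂˣ) (s : ℝ) : Ideal (𝓞 E) → ℂ :=
  rayWeight E m cls (fun g => ((ψ g : ℂˣ) : ℂ)) s

theorem chWeight_of_coprime (ψ : G →* ℂˣ) (s : ℝ) {I : Ideal (𝓞 E)} (hI : I ≠ ⊥)
    (hIm : I ⊔ m = ⊤) :
    chWeight E m cls ψ s I = ((ψ (cls I) : ℂˣ) : ℂ) * ((normWeight E s I : ℝ) : ℂ) := by
  unfold chWeight rayWeight
  rw [if_pos ⟨hI, hIm⟩]
  rfl

theorem chWeight_of_not (ψ : G →* ℂˣ) (s : ℝ) {I : Ideal (𝓞 E)}
    (hI : ¬ (I ≠ ⊥ ∧ I ⊔ m = ⊤)) : chWeight E m cls ψ s I = 0 := by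
  unfold chWeight rayWeight
  rw [if_neg hI]

theorem chWeight_bot (ψ : G →* ℂˣ) (s : ℝ) : chWeight E m cls ψ s ⊥ = 0 :=
  chWeight_of_not ψ s (fun h => h.1 rfl)

theorem norm_char_eq_one' [Finite G] (ψ : G →* ℂˣ) (g : G) : ‖((ψ g : ℂˣ) : ℂ)‖ = 1 := by
  have hfin : ((ψ g : ℂˣ) : ℂ) ^ (orderOf g) = 1 := by
    rw [← Units.val_pow_eq_pow_val, ← map_pow, pow_orderOf_eq_one, map_one, Units.val_one]
  exact Complex.norm_eq_one_of_pow_eq_one hfin (orderOf_pos g).ne'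

theorem norm_chWeight_of_coprime [Finite G] (ψ : G →* ℂˣ) (s : ℝ) {I : Ideal (𝓞 E)}
    (hI : I ≠ ⊥) (hIm : I ⊔ m = ⊤) : ‖chWeight E m cls ψ s I‖ = normWeight E s I := by
  rw [chWeight_of_coprime ψ s hI hIm, norm_mul, norm_char_eq_one', one_mul, Complex.norm_real,
    Real.norm_eq_abs, abs_of_nonneg (normWeight_nonneg s I)]

theorem norm_chWeight_le [Finite G] (ψ : G →* ℂˣ) (s : ℝ) (I : Ideal (𝓞 E)) :
    ‖chWeight E m cls ψ s I‖ ≤ normWeight E s I := by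
  by_cases h : I ≠ ⊥ ∧ I ⊔ m = ⊤
  · rw [norm_chWeight_of_coprime ψ s h.1 h.2]
  · rw [chWeight_of_not ψ s h, norm_zero]
    exact normWeight_nonneg s I

theorem summable_norm_chWeight [Finite G] (ψ : G →* ℂˣ) {s : ℝ} (hs : 1 < s) :
    Summable (fun I => ‖chWeight E m cls ψ s I‖) :=
  Summable.of_nonneg_of_le (fun _ => norm_nonneg _) (fun I => norm_chWeight_le ψ s I)
    (summable_normWeight E hs)

theorem cls_top (h : RayClassMap E m G cls) : cls ⊤ = 1 := by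
  have h1 := h.mul ⊤ ⊤ (top_sup_eq _) (top_sup_eq _)
  have h2 : (⊤ : Ideal (𝓞 E)) * ⊤ = ⊤ := by
    rw [← Ideal.one_eq_top, mul_one]
  rw [h2] at h1
  exact (mul_eq_left (a := cls ⊤)).mp h1.symm

theorem chWeight_top (h : RayClassMap E m G cls) (ψ : G →* ℂˣ) (s : ℝ) :
    chWeight E m cls ψ s ⊤ = 1 := by
  rw [chWeight_of_coprime ψ s top_ne_bot (top_sup_eq _), cls_top h, map_one, normWeight_top]
  simp

omit [NumberField E] in
theorem mul_sup_eq_top {I J : Ideal (𝓞 E)} (hI : I ⊔ m = ⊤) (hJ : J ⊔ m = ⊤) :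
    I * J ⊔ m = ⊤ := by
  rw [Ideal.mul_sup_eq_of_coprime_left hI, hJ]

theorem chWeight_mul (h : RayClassMap E m G cls) (ψ : G →* ℂˣ) (s : ℝ) (I J : Ideal (𝓞 E)) :
    chWeight E m cls ψ s (I * J) = chWeight E m cls ψ s I * chWeight E m cls ψ s J := by
  by_cases hI : I ≠ ⊥ ∧ I ⊔ m = ⊤
  · by_cases hJ : J ≠ ⊥ ∧ J ⊔ m = ⊤
    · rw [chWeight_of_coprime ψ s (mul_ne_zero hI.1 hJ.1) (mul_sup_eq_top hI.2 hJ.2),
        chWeight_of_coprime ψ s hI.1 hI.2, chWeight_of_coprime ψ s hJ.1 hJ.2,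
        h.mul I J hI.2 hJ.2, map_mul, Units.val_mul, normWeight_mul, Complex.ofReal_mul]
      ring
    · rw [chWeight_of_not ψ s hJ, mul_zero]
      apply chWeight_of_not
      rintro ⟨h1, h2⟩
      apply hJ
      refine ⟨fun h0 => h1 (by rw [h0]; exact Ideal.mul_bot I), ?_⟩
      rw [eq_top_iff, ← h2]
      exact sup_le_sup_right Ideal.mul_le_right m
  · rw [chWeight_of_not ψ s hI, zero_mul]
    apply chWeight_of_not
    rintro ⟨h1, h2⟩
    apply hI
    refine ⟨fun h0 => h1 (by rw [h0]; exact Ideal.bot_mul J), ?_⟩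
    rw [eq_top_iff, ← h2]
    exact sup_le_sup_right Ideal.mul_le_left m

end weight

section euler

variable {E : Type} [Field E] [NumberField E] {m : Ideal (𝓞 E)} {G : Type} [CommGroup G]
  [Finite G] {cls : Ideal (𝓞 E) → G}

omit [Finite G] in
theorem rayLVal_eq_tsum_chWeight (ψ : G →* ℂˣ) (s : ℝ) :
    rayLVal E m cls (fun g => ((ψ g : ℂˣ) : ℂ)) s = ∑' I, chWeight E m cls ψ s I := rfl

/-- **(P5, ray form)** the Euler product of `L(s, ψ ∘ cls)` in sieve form. -/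
theorem rayEuler (h : RayClassMap E m G cls) (ψ : G →* ℂˣ) {s : ℝ} (hs : 1 < s)
    (T : Finset (HeightOneSpectrum (𝓞 E))) :
    2 - sieveSum (normWeight E s) T ≤
      ‖rayLVal E m cls (fun g => ((ψ g : ℂˣ) : ℂ)) s‖ *
        ∏ 𝔭 ∈ T, ‖1 - chWeight E m cls ψ s 𝔭.asIdeal‖ := by
  classical
  set w : Ideal (𝓞 E) → ℂ := chWeight E m cls ψ s with hw
  have hsumn : Summable fun I => ‖w I‖ := summable_norm_chWeight ψ hs
  have hsumw : Summable w := hsumn.of_norm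
  have h1 := two_sub_sieveSum_le_norm_csieveSum (w := w) (chWeight_top h ψ s) hsumn T
  have h2 := csieveSum_eq_prod (w := w) (chWeight_mul h ψ s) (chWeight_bot ψ s) hsumw T
  have h3 : sieveSum (fun I => ‖w I‖) T ≤ sieveSum (normWeight E s) T := by
    unfold sieveSum
    refine Summable.tsum_le_tsum (fun I => ?_) (hsumn.indicator _)
      ((summable_normWeight E hs).indicator _)
    by_cases hI : I ∈ sieveSet T
    · rw [Set.indicator_of_mem hI, Set.indicator_of_mem hI]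
      exact norm_chWeight_le ψ s I
    · rw [Set.indicator_of_notMem hI, Set.indicator_of_notMem hI]
  rw [h2, norm_mul, norm_prod, mul_comm] at h1
  rw [rayLVal_eq_tsum_chWeight]
  linarith

omit [Finite G] in
/-- **(P6, ray form)** the product over all characters of the Euler factors at a prime. -/
theorem rayCharProd [Fintype G] [Fintype (G →* ℂˣ)] {s : ℝ} (hs : 1 < s)
    (𝔭 : HeightOneSpectrum (𝓞 E)) :
    ∏ ψ : G →* ℂˣ, ‖1 - chWeight E m cls ψ s 𝔭.asIdeal‖ ≤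
      Real.exp (-((Fintype.card G : ℝ) *
        (open scoped Classical in
          if 𝔭.asIdeal ⊔ m = ⊤ ∧ cls 𝔭.asIdeal = 1 then normWeight E s 𝔭.asIdeal else 0))) := by
  classical
  set x : ℝ := normWeight E s 𝔭.asIdeal with hx
  have hx0 : 0 ≤ x := normWeight_nonneg s _
  have hx1 : x < 1 := normWeight_prime_lt_one hs.le 𝔭
  by_cases hm : 𝔭.asIdeal ⊔ m = ⊤
  · have hfac : ∀ ψ : G →* ℂˣ, ‖1 - chWeight E m cls ψ s 𝔭.asIdeal‖ =
        ‖1 - ((ψ (cls 𝔭.asIdeal) : ℂˣ) : ℂ) * ((x : ℝ) : ℂ)‖ := by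
      intro ψ
      rw [chWeight_of_coprime ψ s 𝔭.ne_bot hm]
    simp only [hfac]
    have h6 := charProd G (cls 𝔭.asIdeal) x hx0 hx1
    by_cases hc : cls 𝔭.asIdeal = 1
    · rw [h6.2 hc, if_pos ⟨hm, hc⟩]
      exact lpl_one_sub_pow_le_exp _ hx1.le
    · rw [if_neg (fun h => hc h.2)]
      simpa using h6.1
  · have hfac : ∀ ψ : G →* ℂˣ, ‖1 - chWeight E m cls ψ s 𝔭.asIdeal‖ = 1 := by
      intro ψ
      rw [chWeight_of_not ψ s (fun h => hm h.2), sub_zero, norm_one]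
    simp only [hfac, Finset.prod_const_one]
    rw [if_neg (fun h => hm h.1)]
    simp

end euler

end Fermat.Agent.F4Ray
end MergeWrap_F4_Ray_RayEuler

section MergeWrap_F4_Ray_SecondIneqRay -- from F4/Ray/SecondIneqRay.lean

set_option autoImplicit false

open NumberField IsDedekindDomain Filter Topology
open scoped nonZeroDivisors

namespace Fermat.Agent.F4Ray

open Fermat.Agent.FrobDensity Fermat.Agent.S14An

/-- Two bounds `c u^(h/n) ≤ P ≤ C u`, `u = 1/(s-1) → ∞`, force `h ≤ n`. -/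
theorem le_of_rpow_bounds {h n : ℕ} (hn0 : 0 < n) (P : ℝ → ℝ) {c δ C : ℝ} (hc : 0 < c)
    (hδ : 0 < δ)
    (hlow : ∀ s : ℝ, 1 < s → s < 1 + δ → c * (1 / (s - 1)) ^ ((h : ℝ) / (n : ℝ)) ≤ P s)
    (hup : ∀ s : ℝ, 1 < s → s ≤ 2 → P s ≤ C / (s - 1)) : h ≤ n := by
  by_contra hcon
  rw [not_le] at hcon
  have hnr : (0 : ℝ) < (n : ℝ) := by exact_mod_cast hn0
  have hhn : (n : ℝ) < (h : ℝ) := by exact_mod_cast hcon
  set α : ℝ := (h : ℝ) / (n : ℝ) - 1 with hα
  have hαpos : 0 < α := by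
    rw [hα, sub_pos, one_lt_div hnr]
    exact hhn
  have hev : ∀ᶠ u : ℝ in atTop, C / c < u ^ α ∧ max (1 / δ) 1 < u :=
    ((tendsto_rpow_atTop hαpos).eventually_gt_atTop (C / c)).and
      (eventually_gt_atTop (max (1 / δ) 1))
  obtain ⟨u, hu1, hu2⟩ := hev.exists
  have hu_gt1 : 1 < u := lt_of_le_of_lt (le_max_right _ _) hu2
  have hu_gtδ : 1 / δ < u := lt_of_le_of_lt (le_max_left _ _) hu2
  have hupos : 0 < u := by linarith
  set s : ℝ := 1 + 1 / u with hs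
  have hs1 : 1 < s := by
    rw [hs]
    have : 0 < 1 / u := by positivity
    linarith
  have hsδ : s < 1 + δ := by
    rw [hs]
    have : 1 / u < δ := by
      rw [div_lt_iff₀ hupos]
      rw [div_lt_iff₀ hδ] at hu_gtδ
      linarith
    linarith
  have hs2 : s ≤ 2 := by
    rw [hs]
    have : 1 / u ≤ 1 := by rw [div_le_one hupos]; exact hu_gt1.le
    linarith
  have hsu : 1 / (s - 1) = u := by
    rw [hs]; field_simp; simp
  have h1 := hlow s hs1 hsδ
  have h2 := hup s hs1 hs2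
  rw [hsu] at h1
  have h3 : C / (s - 1) = C * u := by rw [← hsu]; ring
  rw [h3] at h2
  have h4 : c * u ^ ((h : ℝ) / (n : ℝ)) ≤ C * u := h1.trans h2
  have h5 : u ^ ((h : ℝ) / (n : ℝ)) = u ^ α * u := by
    have : (h : ℝ) / (n : ℝ) = α + 1 := by rw [hα]; ring
    rw [this, Real.rpow_add hupos, Real.rpow_one]
  rw [h5] at h4
  have h6 : c * u ^ α ≤ C := by
    have : c * u ^ α * u ≤ C * u := by linarith [h4, mul_assoc c (u ^ α) u]
    exact le_of_mul_le_mul_right this hupos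
  have h7 : u ^ α ≤ C / c := by
    rw [le_div_iff₀ hc]; linarith
  linarith

section

variable {E : Type} [Field E] [NumberField E] {m : Ideal (𝓞 E)} {G : Type} [CommGroup G]
  [Fintype G] [Fintype (G →* ℂˣ)] {cls : Ideal (𝓞 E) → G}

/-- `∏_ψ ‖L(s, ψ ∘ cls)‖` over the characters of `G`. -/
noncomputable def rayLProd (E : Type) [Field E] [NumberField E] (m : Ideal (𝓞 E)) {G : Type}
    [CommGroup G] [Fintype (G →* ℂˣ)] (cls : Ideal (𝓞 E) → G) (s : ℝ) : ℝ :=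
  ∏ ψ : G →* ℂˣ, ‖rayLVal E m cls (fun g => ((ψ g : ℂˣ) : ℂ)) s‖

/-- The key inequality at a finite level `T`. -/
theorem ray_finite_level (h : RayClassMap E m G cls) {s : ℝ} (hs : 1 < s)
    (T : Finset (HeightOneSpectrum (𝓞 E))) (hT : sieveSum (normWeight E s) T ≤ 2) :
    (2 - sieveSum (normWeight E s) T) ^ Fintype.card (G →* ℂˣ) *
      Real.exp ((Fintype.card G : ℝ) * ∑ 𝔭 ∈ T,
        (open scoped Classical in
          if 𝔭.asIdeal ⊔ m = ⊤ ∧ cls 𝔭.asIdeal = 1 then normWeight E s 𝔭.asIdeal else 0))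
      ≤ rayLProd E m cls s := by
  classical
  set Fac : (G →* ℂˣ) → HeightOneSpectrum (𝓞 E) → ℝ :=
    fun ψ 𝔭 => ‖1 - chWeight E m cls ψ s 𝔭.asIdeal‖ with hFac
  set y : HeightOneSpectrum (𝓞 E) → ℝ := fun 𝔭 =>
    if 𝔭.asIdeal ⊔ m = ⊤ ∧ cls 𝔭.asIdeal = 1 then normWeight E s 𝔭.asIdeal else 0 with hy
  have hP5 : ∀ ψ : G →* ℂˣ, 2 - sieveSum (normWeight E s) T ≤
      ‖rayLVal E m cls (fun g => ((ψ g : ℂˣ) : ℂ)) s‖ * ∏ 𝔭 ∈ T, Fac ψ 𝔭 :=
    fun ψ => rayEuler h ψ hs T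
  have hprod : (2 - sieveSum (normWeight E s) T) ^ Fintype.card (G →* ℂˣ) ≤
      ∏ ψ : G →* ℂˣ,
        (‖rayLVal E m cls (fun g => ((ψ g : ℂˣ) : ℂ)) s‖ * ∏ 𝔭 ∈ T, Fac ψ 𝔭) := by
    rw [← Finset.card_univ, ← Finset.prod_const]
    exact Finset.prod_le_prod (fun ψ _ => by linarith) (fun ψ _ => hP5 ψ)
  rw [Finset.prod_mul_distrib, Finset.prod_comm] at hprod
  have hP6 : ∀ 𝔭 : HeightOneSpectrum (𝓞 E),
      ∏ ψ : G →* ℂˣ, Fac ψ 𝔭 ≤ Real.exp (-((Fintype.card G : ℝ) * y 𝔭)) := by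
    intro 𝔭
    have := rayCharProd (E := E) (m := m) (G := G) (cls := cls) hs 𝔭
    simp only [hFac, hy]
    convert this using 4
  have hFac_nonneg : ∀ 𝔭 : HeightOneSpectrum (𝓞 E), 0 ≤ ∏ ψ : G →* ℂˣ, Fac ψ 𝔭 :=
    fun 𝔭 => Finset.prod_nonneg (fun ψ _ => norm_nonneg _)
  have hLnonneg : 0 ≤ rayLProd E m cls s :=
    Finset.prod_nonneg (fun ψ _ => norm_nonneg _)
  have hloc : ∏ 𝔭 ∈ T, ∏ ψ : G →* ℂˣ, Fac ψ 𝔭 ≤
      Real.exp (-((Fintype.card G : ℝ) * ∑ 𝔭 ∈ T, y 𝔭)) := by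
    calc ∏ 𝔭 ∈ T, ∏ ψ : G →* ℂˣ, Fac ψ 𝔭
        ≤ ∏ 𝔭 ∈ T, Real.exp (-((Fintype.card G : ℝ) * y 𝔭)) :=
          Finset.prod_le_prod (fun 𝔭 _ => hFac_nonneg 𝔭) (fun 𝔭 _ => hP6 𝔭)
      _ = Real.exp (-((Fintype.card G : ℝ) * ∑ 𝔭 ∈ T, y 𝔭)) := by
          rw [← Real.exp_sum, Finset.mul_sum, Finset.sum_neg_distrib]
  set S : ℝ := ∑ 𝔭 ∈ T, y 𝔭 with hS
  have h1 : (2 - sieveSum (normWeight E s) T) ^ Fintype.card (G →* ℂˣ) ≤
      rayLProd E m cls s * Real.exp (-((Fintype.card G : ℝ) * S)) :=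
    hprod.trans (mul_le_mul_of_nonneg_left hloc hLnonneg)
  have hexp : Real.exp (-((Fintype.card G : ℝ) * S)) * Real.exp ((Fintype.card G : ℝ) * S)
      = 1 := by
    rw [← Real.exp_add]; simp
  calc (2 - sieveSum (normWeight E s) T) ^ Fintype.card (G →* ℂˣ) *
        Real.exp ((Fintype.card G : ℝ) * S)
      ≤ (rayLProd E m cls s * Real.exp (-((Fintype.card G : ℝ) * S))) *
          Real.exp ((Fintype.card G : ℝ) * S) :=
        mul_le_mul_of_nonneg_right h1 (Real.exp_pos _).le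
    _ = rayLProd E m cls s := by rw [mul_assoc, hexp, mul_one]

/-- Lower bound for `rayLProd` near `s = 1`. -/
theorem rayLProd_lower (M : Type) [Field M] [NumberField M] [Algebra E M]
    (h : RayClassMap E m G cls)
    (hnorm : ∀ A : Ideal (𝓞 M), A ≠ ⊥ → Ideal.relNorm (𝓞 E) A ⊔ m = ⊤ →
      cls (Ideal.relNorm (𝓞 E) A) = 1) :
    ∃ c δ : ℝ, 0 < c ∧ 0 < δ ∧ ∀ s : ℝ, 1 < s → s < 1 + δ →
      c * (1 / (s - 1)) ^ ((Fintype.card G : ℝ) / (Module.finrank E M : ℝ)) ≤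
        rayLProd E m cls s := by
  classical
  obtain ⟨B, δ, hδ, hB⟩ := rayPrimeSum E M m h.m_ne_bot cls hnorm
  refine ⟨Real.exp (-((Fintype.card G : ℝ) * B)), δ, Real.exp_pos _, hδ, ?_⟩
  intro s hs1 hs2
  have hP7 := hB s hs1 hs2
  set x : HeightOneSpectrum (𝓞 E) → ℝ := fun 𝔭 => normWeight E s 𝔭.asIdeal with hx
  set y : HeightOneSpectrum (𝓞 E) → ℝ := fun 𝔭 =>
    if 𝔭.asIdeal ⊔ m = ⊤ ∧ cls 𝔭.asIdeal = 1 then x 𝔭 else 0 with hy
  have hx0 : ∀ 𝔭, 0 ≤ x 𝔭 := fun 𝔭 => normWeight_nonneg s _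
  have hsx : Summable x := summable_normWeight_prime E hs1
  have hy0 : ∀ 𝔭, 0 ≤ y 𝔭 := fun 𝔭 => by
    simp only [hy]; split_ifs <;> first | exact hx0 𝔭 | exact le_rfl
  have hyx : ∀ 𝔭, y 𝔭 ≤ x 𝔭 := fun 𝔭 => by
    simp only [hy]; split_ifs <;> first | exact hx0 𝔭 | exact le_rfl
  have hsy : Summable y := Summable.of_nonneg_of_le hy0 hyx hsx
  have hP7' : (1 / (Module.finrank E M : ℝ)) * Real.log (1 / (s - 1)) - B ≤ ∑' 𝔭, y 𝔭 := by
    refine hP7.trans (le_of_eq ?_)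
    refine tsum_congr fun 𝔭 => ?_
    simp only [hy, hx]
  have hlim1 : Tendsto (sieveSum (normWeight E s)) atTop (𝓝 1) :=
    tendsto_sieveSum (fun I => normWeight_nonneg s I) (normWeight_top s)
      (summable_normWeight E hs1)
  have hlim2 : Tendsto (fun T : Finset (HeightOneSpectrum (𝓞 E)) => ∑ 𝔭 ∈ T, y 𝔭) atTop
      (𝓝 (∑' 𝔭, y 𝔭)) := hsy.hasSum
  have hlim : Tendsto (fun T : Finset (HeightOneSpectrum (𝓞 E)) =>
      (2 - sieveSum (normWeight E s) T) ^ Fintype.card (G →* ℂˣ) *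
        Real.exp ((Fintype.card G : ℝ) * ∑ 𝔭 ∈ T, y 𝔭)) atTop
      (𝓝 ((2 - 1) ^ Fintype.card (G →* ℂˣ) *
        Real.exp ((Fintype.card G : ℝ) * ∑' 𝔭, y 𝔭))) :=
    ((tendsto_const_nhds.sub hlim1).pow _).mul
      ((Real.continuous_exp.tendsto _).comp (tendsto_const_nhds.mul hlim2))
  have hev : ∀ᶠ T in atTop, sieveSum (normWeight E s) T ≤ 2 :=
    hlim1.eventually (eventually_le_nhds (by norm_num : (1 : ℝ) < 2))
  have hbound : (2 - 1) ^ Fintype.card (G →* ℂˣ) *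
      Real.exp ((Fintype.card G : ℝ) * ∑' 𝔭, y 𝔭) ≤ rayLProd E m cls s := by
    refine le_of_tendsto hlim (hev.mono fun T hT => ?_)
    have := ray_finite_level h hs1 T hT
    convert this using 4
  have hbound' : Real.exp ((Fintype.card G : ℝ) * ∑' 𝔭, y 𝔭) ≤ rayLProd E m cls s := by
    have h21 : ((2 : ℝ) - 1) = 1 := by norm_num
    rwa [h21, one_pow, one_mul] at hbound
  have hpos : 0 < 1 / (s - 1) := by
    apply div_pos one_pos; linarith
  calc Real.exp (-((Fintype.card G : ℝ) * B)) *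
        (1 / (s - 1)) ^ ((Fintype.card G : ℝ) / (Module.finrank E M : ℝ))
      = Real.exp ((Fintype.card G : ℝ) *
          ((1 / (Module.finrank E M : ℝ)) * Real.log (1 / (s - 1)) - B)) := by
        rw [Real.rpow_def_of_pos hpos, ← Real.exp_add]
        congr 1
        ring
    _ ≤ Real.exp ((Fintype.card G : ℝ) * ∑' 𝔭, y 𝔭) :=
        Real.exp_le_exp.mpr (mul_le_mul_of_nonneg_left hP7' (Nat.cast_nonneg _))
    _ ≤ rayLProd E m cls s := hbound'

omit [Fintype (G →* ℂˣ)] in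
theorem norm_rayLVal_le_zetaSum (ψ : G →* ℂˣ) {s : ℝ} (hs : 1 < s) :
    ‖rayLVal E m cls (fun g => ((ψ g : ℂˣ) : ℂ)) s‖ ≤ zetaSum E s := by
  rw [rayLVal_eq_tsum_chWeight]
  unfold zetaSum
  have hsum : Summable (fun I => ‖chWeight E m cls ψ s I‖) := summable_norm_chWeight ψ hs
  calc ‖∑' I, chWeight E m cls ψ s I‖
      ≤ ∑' I, ‖chWeight E m cls ψ s I‖ := norm_tsum_le_tsum_norm hsum
    _ ≤ ∑' I, normWeight E s I :=
        hsum.tsum_le_tsum (fun I => norm_chWeight_le ψ s I) (summable_normWeight E hs)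

omit [Fintype (G →* ℂˣ)] in
theorem sum_char_eq_zero (ψ : G →* ℂˣ) (hψ : ψ ≠ 1) : ∑ g : G, ((ψ g : ℂˣ) : ℂ) = 0 := by
  have hne : ((Units.coeHom ℂ).comp ψ) ≠ 1 := by
    intro h
    apply hψ
    refine MonoidHom.ext fun g => ?_
    have := DFunLike.congr_fun h g
    ext
    simpa using this
  have := sum_hom_units_eq_zero ((Units.coeHom ℂ).comp ψ) hne
  simpa using this

/-- Upper bound for `rayLProd` on `(1, 2]`. -/
theorem rayLProd_upper (hL : RayLBound) (h : RayClassMap E m G cls) :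
    ∃ C : ℝ, ∀ s : ℝ, 1 < s → s ≤ 2 → rayLProd E m cls s ≤ C / (s - 1) := by
  classical
  obtain ⟨C₀, hC₀, hζ⟩ := p8u_exists_zetaSum_le E
  have hB : ∀ ψ : G →* ℂˣ, ∃ B : ℝ, ψ ≠ 1 →
      ∀ s : ℝ, 1 < s → s ≤ 2 → ‖rayLVal E m cls (fun g => ((ψ g : ℂˣ) : ℂ)) s‖ ≤ B := by
    intro ψ
    by_cases hψ : ψ = 1
    · exact ⟨0, fun h => absurd hψ h⟩
    · obtain ⟨B, hB⟩ := hL E m G cls h (fun g => ((ψ g : ℂˣ) : ℂ)) (sum_char_eq_zero ψ hψ)
      exact ⟨B, fun _ => hB⟩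
  choose B hB using hB
  refine ⟨C₀ * ∏ ψ ∈ (Finset.univ : Finset (G →* ℂˣ)).erase 1, B ψ, ?_⟩
  intro s hs hs2
  unfold rayLProd
  rw [← Finset.mul_prod_erase Finset.univ _ (Finset.mem_univ (1 : G →* ℂˣ))]
  have h1 : ‖rayLVal E m cls (fun g => (((1 : G →* ℂˣ) g : ℂˣ) : ℂ)) s‖ ≤ C₀ / (s - 1) :=
    (norm_rayLVal_le_zetaSum (1 : G →* ℂˣ) hs).trans (hζ s hs hs2)
  have h2 : ∏ ψ ∈ (Finset.univ : Finset (G →* ℂˣ)).erase 1,
        ‖rayLVal E m cls (fun g => ((ψ g : ℂˣ) : ℂ)) s‖ ≤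
      ∏ ψ ∈ (Finset.univ : Finset (G →* ℂˣ)).erase 1, B ψ := by
    refine Finset.prod_le_prod (fun ψ _ => norm_nonneg _) (fun ψ hψ => ?_)
    exact hB ψ (Finset.ne_of_mem_erase hψ) s hs hs2
  have h3 : 0 ≤ ∏ ψ ∈ (Finset.univ : Finset (G →* ℂˣ)).erase 1,
        ‖rayLVal E m cls (fun g => ((ψ g : ℂˣ) : ℂ)) s‖ :=
    Finset.prod_nonneg (fun ψ _ => norm_nonneg _)
  have h4' : 0 ≤ C₀ / (s - 1) := div_nonneg hC₀ (by linarith)
  calc _ ≤ C₀ / (s - 1) * ∏ ψ ∈ (Finset.univ : Finset (G →* ℂˣ)).erase 1, B ψ :=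
        mul_le_mul h1 h2 h3 h4'
    _ = _ := by ring

end

/-- **The analytic second inequality with modulus**, from the boundedness of the `L`-values. -/
theorem secondIneqRay_of_rayLBound (hL : RayLBound) : SecondIneqRay := by
  intro E M _ _ _ _ _ _ m G _ _ cls hRC hnorm
  classical
  let _ : Fintype (G →* ℂˣ) := Fintype.ofFinite _
  obtain ⟨c, δ, hc, hδ, hlow⟩ := rayLProd_lower (E := E) (m := m) (cls := cls) M hRC hnorm
  obtain ⟨C, hup⟩ := rayLProd_upper (E := E) (m := m) (cls := cls) hL hRC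
  exact le_of_rpow_bounds (Module.finrank_pos : 0 < Module.finrank E M)
    (rayLProd E m cls) hc hδ hlow hup

end Fermat.Agent.F4Ray
end MergeWrap_F4_Ray_SecondIneqRay

section MergeWrap_F4_Ray_Main -- from F4/Ray/Main.lean

/-!
# F4 / GLOB: the analytic second inequality with modulus, unconditionally

* `rayLBound : RayLBound`: for a generalised ideal class map `cls` of modulus `m` with values in a
  finite abelian group `G` and `f : G → ℂ` with `∑ f = 0`, the function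
  `L(s, f ∘ cls) = ∑_{(I, m) = 1} f (cls I) N(I)^(-s)` is bounded on `(1, 2]`.
* `secondIneqRay : SecondIneqRay`: if moreover `cls` is trivial on the norms from a finite Galois
  extension `M` of `E`, then `#G ≤ [M : E]`.
-/

namespace Fermat.Agent.F4Ray

/-- The partial zeta functions of two values differ by a bounded function on `(1, 2]`. -/
theorem rayZDiffBounded : RayZDiffBounded := rayZDiffBounded_of_shift rayZCShiftBounded

/-- `L(s, f ∘ cls)` is bounded on `(1, 2]` when `∑ f = 0`. -/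
theorem rayLBound : RayLBound := rayLBound_of_rayZDiffBounded rayZDiffBounded

/-- **The analytic second inequality with modulus** (wide form). -/
theorem secondIneqRay : SecondIneqRay := secondIneqRay_of_rayLBound rayLBound

end Fermat.Agent.F4Ray
end MergeWrap_F4_Ray_Main
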